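import Fermat.Agent.S28.Defs
import Fermat.Prelude.Thm_ModularCurve_coeffMap_qExpand
import Fermat.Prelude.Thm_ModularCurve_coeff_jqModC_pow_of_lt
import Fermat.Prelude.Thm_ModularCurve_coeff_jqModC_pow_self

set_option autoImplicit false

open ModularCurve HahnSeries Polynomial

noncomputable section

namespace Fermat.Agent.S28

namespace Build

section General

variable (A : Type*) [CommRing A]

/-- The formal `E₄³` over `A`, as a Laurent series. -/
def EL : LaurentSeries A :=
  HahnSeries.ofPowerSeries ℤ A ((eisenstein4 ^ 3).map (Int.castRingHom A))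

theorem deltaC_mul_deltaInvC : deltaC A * deltaInvC A = 1 := by
  rw [deltaC, deltaInvC, mul_mul_mul_comm, HahnSeries.single_mul_single, ← map_mul, ← map_mul,
    dedekindEtaUnit_mul_inv]
  simp

theorem J_eq : J A = EL A * deltaInvC A := by
  rw [J, jqModC, EL, deltaInvC, jNum, map_mul, map_mul]
  ring

theorem J_mul_deltaC : J A * deltaC A = EL A := by
  rw [J_eq, mul_assoc, mul_comm (deltaInvC A), deltaC_mul_deltaInvC, mul_one]

variable {A}

/-- "Order at least `k`". -/
def F (k : ℤ) : AddSubgroup (LaurentSeries A) where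
  carrier := {x | ∀ n < k, x.coeff n = 0}
  zero_mem' := fun _ _ => rfl
  add_mem' := fun {x y} hx hy n hn => by
    rw [HahnSeries.coeff_add, hx n hn, hy n hn, add_zero]
  neg_mem' := fun {x} hx n hn => by
    rw [HahnSeries.coeff_neg, hx n hn, neg_zero]

theorem mem_F {k : ℤ} {x : LaurentSeries A} : x ∈ F k ↔ ∀ n < k, x.coeff n = 0 := Iff.rfl

theorem F_mono {k l : ℤ} (h : l ≤ k) {x : LaurentSeries A} (hx : x ∈ F k) : x ∈ F l :=
  fun n hn => hx n (lt_of_lt_of_le hn h)

theorem mul_mem_F {k l : ℤ} {x y : LaurentSeries A} (hx : x ∈ F k) (hy : y ∈ F l) :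
    x * y ∈ F (k + l) := by
  intro n hn
  rw [HahnSeries.coeff_mul]
  refine Finset.sum_eq_zero fun ij hij => ?_
  rw [Finset.mem_antidiagonal] at hij
  obtain ⟨h1, h2, h3⟩ := hij
  exfalso
  have hi : k ≤ ij.1 := by
    by_contra h
    exact h1 (hx _ (not_le.mp h))
  have hj : l ≤ ij.2 := by
    by_contra h
    exact h2 (hy _ (not_le.mp h))
  omega

theorem one_mem_F : (1 : LaurentSeries A) ∈ F 0 := by
  intro n hn
  rw [HahnSeries.coeff_one, if_neg hn.ne]

theorem pow_mem_F {k : ℤ} {x : LaurentSeries A} (hx : x ∈ F k) (n : ℕ) :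
    x ^ n ∈ F (n * k) := by
  induction n with
  | zero => simpa using one_mem_F
  | succ n ih =>
    rw [pow_succ]
    have := mul_mem_F ih hx
    convert this using 2
    push_cast; ring

theorem prod_mem_F {ι : Type*} (s : Finset ι) (k : ι → ℤ) (x : ι → LaurentSeries A)
    (hx : ∀ i ∈ s, x i ∈ F (k i)) : ∏ i ∈ s, x i ∈ F (∑ i ∈ s, k i) := by
  classical
  induction s using Finset.induction_on with
  | empty => simpa using one_mem_F
  | insert a s ha ih =>
    rw [Finset.prod_insert ha, Finset.sum_insert ha]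
    exact mul_mem_F (hx a (Finset.mem_insert_self _ _))
      (ih fun i hi => hx i (Finset.mem_insert_of_mem hi))

theorem C_mem_F (a : A) : (HahnSeries.C a : LaurentSeries A) ∈ F 0 := by
  intro n hn
  rw [HahnSeries.C_apply, HahnSeries.coeff_single_of_ne hn.ne]

theorem single_mem_F (k : ℤ) (a : A) : (HahnSeries.single k a : LaurentSeries A) ∈ F k := by
  intro n hn
  rw [HahnSeries.coeff_single_of_ne hn.ne]

theorem ofPowerSeries_mem_F (f : PowerSeries A) : HahnSeries.ofPowerSeries ℤ A f ∈ F 0 :=
  fun _ hn => ofPowerSeries_coeff_of_neg f hn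

theorem V_mem_F (p : ℕ) [NeZero p] {k : ℤ} {x : LaurentSeries A} (hx : x ∈ F k) :
    V A p x ∈ F (p * k) := by
  intro n hn
  by_cases h : (p : ℤ) ∣ n
  · obtain ⟨m, rfl⟩ := h
    rw [qExpand_coeff_mul]
    refine hx m ?_
    have hp : (0 : ℤ) < p := by exact_mod_cast Nat.pos_of_ne_zero (NeZero.ne p)
    exact lt_of_mul_lt_mul_left hn hp.le
  · exact qExpand_coeff_of_not_dvd p x h

theorem scale_mem_F (c : Aˣ) {k : ℤ} {x : LaurentSeries A} (hx : x ∈ F k) :
    scale c x ∈ F k := by
  intro n hn
  rw [scale_coeff, hx n hn, mul_zero]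

variable (A)

theorem deltaC_mem_F : deltaC A ∈ F 1 := by
  have := mul_mem_F (single_mem_F (1 : ℤ) (1 : A))
    (ofPowerSeries_mem_F (dedekindEtaUnit.map (Int.castRingHom A)))
  simpa [deltaC] using this

theorem deltaInvC_mem_F : deltaInvC A ∈ F (-1) := by
  have := mul_mem_F (single_mem_F (-1 : ℤ) (1 : A))
    (ofPowerSeries_mem_F (dedekindEtaUnitInv.map (Int.castRingHom A)))
  simpa [deltaInvC] using this

variable {A}

theorem coeff_C_mul (a : A) (x : LaurentSeries A) (n : ℤ) :
    (HahnSeries.C a * x).coeff n = a * x.coeff n := by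
  rw [HahnSeries.C_apply, HahnSeries.coeff_single_zero_mul]

theorem evAt_apply (x : LaurentSeries A) (Q : Polynomial A) :
    evAt x Q = Q.eval₂ HahnSeries.C x := rfl

@[simp] theorem evAt_C (x : LaurentSeries A) (a : A) : evAt x (Polynomial.C a) = HahnSeries.C a := by
  simp [evAt_apply]

@[simp] theorem evAt_X (x : LaurentSeries A) : evAt x Polynomial.X = x := by
  simp [evAt_apply]

/-- `V p` commutes with evaluation. -/
theorem V_comp_evAt (p : ℕ) [NeZero p] (x : LaurentSeries A) :
    (V A p).comp (evAt x) = evAt (V A p x) := by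
  refine Polynomial.ringHom_ext (fun a => ?_) ?_
  · simp
  · simp

theorem V_evAt (p : ℕ) [NeZero p] (x : LaurentSeries A) (Q : Polynomial A) :
    V A p (evAt x Q) = evAt (V A p x) Q := by
  rw [← V_comp_evAt]; rfl

/-- The coefficient of `Q(j(q^p))` at `-(p n)` for `n ≥ deg Q`. -/
theorem coeff_evAt_V_J (p : ℕ) [NeZero p] (Q : Polynomial A) (n : ℕ) (hn : Q.natDegree ≤ n) :
    (evAt (V A p (J A)) Q).coeff ((p : ℤ) * (-(n : ℤ))) = Q.coeff n := by
  rw [← V_evAt, qExpand_coeff_mul, evAt_apply,
    Polynomial.eval₂_eq_sum_range' _ (Nat.lt_succ_of_le hn), HahnSeries.coeff_sum,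
    Finset.sum_eq_single n]
  · rw [coeff_C_mul, coeff_jqModC_pow_self, mul_one]
  · intro i hi hin
    have : i < n := lt_of_le_of_ne (Nat.lt_succ_iff.mp (Finset.mem_range.mp hi)) hin
    rw [coeff_C_mul, coeff_jqModC_pow_of_lt A (by omega), mul_zero]
  · intro h
    exact absurd (Finset.mem_range.mpr (Nat.lt_succ_self n)) h

theorem evAt_V_J_injective (p : ℕ) [NeZero p] : Function.Injective (evAt (V A p (J A))) := by
  rw [injective_iff_map_eq_zero]
  intro Q hQ
  have := coeff_evAt_V_J p Q Q.natDegree le_rfl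
  rw [hQ, HahnSeries.coeff_zero] at this
  exact Polynomial.leadingCoeff_eq_zero.mp this.symm

theorem evAt_J_injective : Function.Injective (evAt (J A)) := by
  have h := evAt_V_J_injective (A := A) 1
  have h1 : V A 1 (J A) = J A := qExpand_one_apply _
  rwa [h1] at h

/-- A polynomial in `j(q^p)` without polar part is constant. -/
theorem natDegree_eq_zero_of_mem_F (p : ℕ) [NeZero p] (Q : Polynomial A)
    (h : evAt (V A p (J A)) Q ∈ F 0) : Q.natDegree = 0 := by
  by_contra hne
  have h1 := coeff_evAt_V_J p Q Q.natDegree le_rfl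
  have hp : (0 : ℤ) < p := by exact_mod_cast Nat.pos_of_ne_zero (NeZero.ne p)
  have hd : (0 : ℤ) < Q.natDegree := by exact_mod_cast Nat.pos_of_ne_zero hne
  rw [h _ (by nlinarith)] at h1
  have : Q = 0 := Polynomial.leadingCoeff_eq_zero.mp h1.symm
  exact hne (by rw [this]; simp)

end General

section CoeffMap

variable {A B : Type*} [CommRing A] [CommRing B] (f : A →+* B)

theorem coeffMap_injective (hf : Function.Injective f) : Function.Injective (coeffMap f) := by
  intro x y h
  ext n
  have := congrArg (fun z => z.coeff n) h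
  exact hf (by simpa using this)

@[simp] theorem coeffMap_C (a : A) : coeffMap f (HahnSeries.C a) = HahnSeries.C (f a) := by
  rw [HahnSeries.C_apply, coeffMap_single, HahnSeries.C_apply]

theorem coeffMap_ofPowerSeries (u : PowerSeries A) :
    coeffMap f (HahnSeries.ofPowerSeries ℤ A u) = HahnSeries.ofPowerSeries ℤ B (u.map f) := by
  ext k
  rw [coeffMap_coeff]
  rcases le_or_gt 0 k with hk | hk
  · lift k to ℕ using hk
    rw [HahnSeries.ofPowerSeries_apply_coeff, HahnSeries.ofPowerSeries_apply_coeff,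
      PowerSeries.coeff_map]
  · rw [ofPowerSeries_coeff_of_neg _ hk, ofPowerSeries_coeff_of_neg _ hk, map_zero]

theorem map_map_intCast (u : PowerSeries ℤ) :
    (u.map (Int.castRingHom A)).map f = u.map (Int.castRingHom B) := by
  ext n
  simp

@[simp] theorem coeffMap_deltaC : coeffMap f (deltaC A) = deltaC B := by
  rw [deltaC, deltaC, map_mul, coeffMap_single, coeffMap_ofPowerSeries, map_map_intCast, map_one]

@[simp] theorem coeffMap_deltaInvC : coeffMap f (deltaInvC A) = deltaInvC B := by
  rw [deltaInvC, deltaInvC, map_mul, coeffMap_single, coeffMap_ofPowerSeries, map_map_intCast,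
    map_one]

@[simp] theorem coeffMap_EL : coeffMap f (EL A) = EL B := by
  rw [EL, EL, coeffMap_ofPowerSeries, map_map_intCast]

@[simp] theorem coeffMap_J : coeffMap f (J A) = J B := map_jqModC f

theorem coeffMap_V (p : ℕ) [NeZero p] (x : LaurentSeries A) :
    coeffMap f (V A p x) = V B p (coeffMap f x) := coeffMap_qExpand f p x

theorem coeffMap_scale (c : Aˣ) (x : LaurentSeries A) :
    coeffMap f (scale c x) = scale (Units.map (f : A →* B) c) (coeffMap f x) := by
  ext n
  rw [coeffMap_coeff, scale_coeff, scale_coeff, coeffMap_coeff, map_mul, ← map_zpow]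
  rfl

theorem coeffMap_comp_evAt (x : LaurentSeries A) :
    (coeffMap f).comp (evAt x) = (evAt (coeffMap f x)).comp (Polynomial.mapRingHom f) := by
  refine Polynomial.ringHom_ext (fun a => ?_) ?_
  · simp
  · simp

theorem coeffMap_evAt (x : LaurentSeries A) (Q : Polynomial A) :
    coeffMap f (evAt x Q) = evAt (coeffMap f x) (Q.map f) := by
  have := congrArg (fun g => g Q) (coeffMap_comp_evAt f x)
  simpa using this

@[simp] theorem coeffMap_uInf (p : ℕ) [NeZero p] : coeffMap f (uInf A p) = uInf B p := by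
  rw [uInf, uInf, map_mul, map_mul, coeffMap_C, coeffMap_V, coeffMap_deltaC, coeffMap_deltaInvC]
  simp

end CoeffMap

end Build

end Fermat.Agent.S28
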