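import Fermat.Agent.S28.FormalED
import Mathlib.NumberTheory.ModularForms.Discriminant
import Mathlib.Analysis.Complex.LocallyUniformLimit

set_option autoImplicit false
noncomputable section

namespace Fermat.Agent.S28

open ModularCurve Filter Topology UpperHalfPlane
open scoped PowerSeries.WithPiTopology

namespace QExpDelta

/-- Taylor series at `0` as a formal power series. -/
def tay (g : ℂ → ℂ) : PowerSeries ℂ :=
  PowerSeries.mk fun m => (m.factorial : ℂ)⁻¹ * iteratedDeriv m g 0

theorem coeff_tay (g : ℂ → ℂ) (m : ℕ) :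
    (tay g).coeff m = (m.factorial : ℂ)⁻¹ * iteratedDeriv m g 0 := by
  simp [tay]

theorem tay_congr {f g : ℂ → ℂ} (h : f =ᶠ[𝓝 0] g) : tay f = tay g := by
  ext m
  rw [coeff_tay, coeff_tay, h.iteratedDeriv_eq m]

theorem tay_mul {f g : ℂ → ℂ} (hf : AnalyticAt ℂ f 0) (hg : AnalyticAt ℂ g 0) :
    tay (f * g) = tay f * tay g := by
  ext
  simp only [coeff_tay,
    iteratedDeriv_mul hf.contDiffAt hg.contDiffAt, Finset.mul_sum, PowerSeries.coeff_mul,
    Finset.Nat.sum_antidiagonal_eq_sum_range_succ_mk, Nat.succ_eq_add_one]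
  refine Finset.sum_congr rfl fun i hi ↦ ?_
  rw [Nat.cast_choose _ (by grind)]
  field_simp [Nat.factorial_ne_zero]

theorem tay_sub {f g : ℂ → ℂ} (hf : AnalyticAt ℂ f 0) (hg : AnalyticAt ℂ g 0) :
    tay (f - g) = tay f - tay g := by
  ext m
  simp [coeff_tay, iteratedDeriv_sub hf.contDiffAt hg.contDiffAt, mul_sub]

theorem tay_one : tay (1 : ℂ → ℂ) = 1 := by
  ext m
  have h2 : iteratedDeriv m (1 : ℂ → ℂ) 0 = if m = 0 then 1 else 0 := by
    simpa [ite_apply] using! iteratedDeriv_const
  simp +contextual [coeff_tay, h2, PowerSeries.coeff_one]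

theorem tay_id : tay (id : ℂ → ℂ) = PowerSeries.X := by
  ext m
  rw [coeff_tay, PowerSeries.coeff_X]
  rcases m with _ | _ | m
  · simp
  · simp [iteratedDeriv_succ]
  · have : iteratedDeriv (m + 1 + 1) (id : ℂ → ℂ) = 0 := by
      rw [iteratedDeriv_succ', iteratedDeriv_succ']
      have h1 : deriv (id : ℂ → ℂ) = fun _ => 1 := by ext; simp
      rw [h1]
      have h2 : deriv (fun _ : ℂ => (1 : ℂ)) = fun _ => 0 := by ext; simp
      rw [h2]
      ext x
      simp
    rw [this]; simp

theorem tay_pow {f : ℂ → ℂ} (hf : AnalyticAt ℂ f 0) (n : ℕ) : tay (f ^ n) = tay f ^ n := by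
  induction n with
  | zero => simpa using tay_one
  | succ n ih => rw [pow_succ, pow_succ, tay_mul (hf.pow n) hf, ih]

theorem tendsto_iteratedDeriv {ι : Type*} {φ : Filter ι} {F : ι → ℂ → ℂ} {f : ℂ → ℂ}
    {U : Set ℂ} (hU : IsOpen U) (hf : TendstoLocallyUniformlyOn F f φ U)
    (hF : ∀ᶠ n in φ, DifferentiableOn ℂ (F n) U) (m : ℕ) :
    TendstoLocallyUniformlyOn (fun n => iteratedDeriv m (F n)) (iteratedDeriv m f) φ U ∧
      ∀ᶠ n in φ, DifferentiableOn ℂ (iteratedDeriv m (F n)) U := by
  induction m with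
  | zero => simpa [iteratedDeriv_zero] using ⟨hf, hF⟩
  | succ m ih =>
    refine ⟨?_, ?_⟩
    · have := ih.1.deriv ih.2 hU
      simpa [iteratedDeriv_succ, Function.comp_def] using this
    · filter_upwards [ih.2] with n hn
      rw [iteratedDeriv_succ]
      exact hn.deriv hU

/-- The finite partial products. -/
def part (s : Finset ℕ) : ℂ → ℂ := fun q => ∏ n ∈ s, (1 - q ^ (n + 1))

/-- The Euler function. -/
def euler : ℂ → ℂ := fun q => ∏' n : ℕ, (1 - q ^ (n + 1))

theorem analyticAt_part (s : Finset ℕ) : AnalyticAt ℂ (part s) 0 := by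
  unfold part
  fun_prop

theorem tay_part (s : Finset ℕ) :
    tay (part s) = ∏ n ∈ s, (1 - PowerSeries.X ^ (n + 1)) := by
  classical
  induction s using Finset.induction_on with
  | empty =>
    have : part ∅ = 1 := by ext q; simp [part]
    rw [this, tay_one]; simp
  | insert a s ha ih =>
    have : part (insert a s) = (1 - id ^ (a + 1)) * part s := by
      ext q; simp [part, Finset.prod_insert ha]
    have h1 : AnalyticAt ℂ (1 : ℂ → ℂ) 0 := analyticAt_const
    have h2 : AnalyticAt ℂ (id : ℂ → ℂ) 0 := analyticAt_id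
    rw [this, tay_mul (h1.sub (h2.pow _)) (analyticAt_part s), ih, Finset.prod_insert ha,
      tay_sub h1 (h2.pow _), tay_one, tay_pow h2, tay_id]

theorem tendsto_part :
    TendstoLocallyUniformlyOn part euler atTop (Metric.ball (0 : ℂ) 1) := by
  have h := ModularForm.multipliableLocallyUniformlyOn_one_sub_pow.hasProdLocallyUniformlyOn
  rw [hasProdLocallyUniformlyOn_iff_tendstoLocallyUniformlyOn] at h
  exact h

theorem differentiableOn_part (s : Finset ℕ) :
    DifferentiableOn ℂ (part s) (Metric.ball (0 : ℂ) 1) := by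
  unfold part
  fun_prop

theorem tay_euler : tay euler = etaProd.map (Int.castRingHom ℂ) := by
  ext m
  have h1 : Tendsto (fun s => iteratedDeriv m (part s) 0) atTop
      (𝓝 (iteratedDeriv m euler 0)) :=
    ((tendsto_iteratedDeriv Metric.isOpen_ball tendsto_part
      (.of_forall differentiableOn_part) m).1).tendsto_at (by simp)
  have h2 : Tendsto (fun s => (tay (part s)).coeff m) atTop (𝓝 ((tay euler).coeff m)) := by
    simp only [coeff_tay]
    exact h1.const_mul _
  have h3 : HasProd (fun n : ℕ => (1 - PowerSeries.X ^ (n + 1) : PowerSeries ℤ)) etaProd :=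
    (PowerSeries.WithPiTopology.multipliable_one_sub_X_pow ℤ).hasProd
  have h4 : Tendsto (fun s : Finset ℕ =>
      (∏ n ∈ s, (1 - PowerSeries.X ^ (n + 1) : PowerSeries ℤ)).coeff m) atTop
      (𝓝 (etaProd.coeff m)) :=
    ((PowerSeries.WithPiTopology.continuous_coeff ℤ m).tendsto _).comp h3
  have h5 : Tendsto (fun s : Finset ℕ =>
      (((∏ n ∈ s, (1 - PowerSeries.X ^ (n + 1) : PowerSeries ℤ)).coeff m : ℤ) : ℂ)) atTop
      (𝓝 ((etaProd.coeff m : ℤ) : ℂ)) :=
    ((continuous_of_discreteTopology (f := fun z : ℤ => (z : ℂ))).tendsto _).comp h4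
  have h6 : ∀ s : Finset ℕ, (tay (part s)).coeff m =
      (((∏ n ∈ s, (1 - PowerSeries.X ^ (n + 1) : PowerSeries ℤ)).coeff m : ℤ) : ℂ) := by
    intro s
    rw [tay_part]
    have : (∏ n ∈ s, (1 - PowerSeries.X ^ (n + 1)) : PowerSeries ℂ) =
        (∏ n ∈ s, (1 - PowerSeries.X ^ (n + 1) : PowerSeries ℤ)).map (Int.castRingHom ℂ) := by
      simp [map_prod]
    rw [this, PowerSeries.coeff_map]
    simp
  simp only [h6] at h2
  rw [tendsto_nhds_unique h2 h5, PowerSeries.coeff_map]
  simp

theorem analyticAt_euler : AnalyticAt ℂ euler 0 :=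
  ModularForm.differentiableOn_tprod_one_sub_pow.analyticAt (Metric.ball_mem_nhds 0 one_pos)

end QExpDelta

open QExpDelta in
/-- **WP-A2**: the `q`-expansion of the modular discriminant is the formal `q ∏ (1 - q^n)^24`. -/
theorem qExpansion_discriminant :
    qExpansion 1 (ModularForm.discriminant : ℍ → ℂ) = DC := by
  unfold DC
  have h0 : qExpansion 1 ModularForm.discriminant =
      tay (cuspFunction 1 ModularForm.discriminant) := by
    ext m
    rw [qExpansion_coeff, coeff_tay]
  have h1 : cuspFunction 1 ModularForm.discriminant =ᶠ[𝓝 0] (id * euler ^ 24) := by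
    filter_upwards [Metric.ball_mem_nhds (0 : ℂ) one_pos] with q hq
    rw [ModularForm.discriminant_cuspFunction_eqOn hq]
    simp only [Pi.mul_apply, id, Pi.pow_apply, euler]
    rw [(ModularForm.multipliable_one_sub_pow (by simpa using hq)).tprod_pow 24]
  rw [h0, tay_congr h1, tay_mul (by fun_prop) (analyticAt_euler.pow 24), tay_id,
    tay_pow analyticAt_euler, tay_euler, dedekindEtaUnit]
  simp

end Fermat.Agent.S28
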