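import Fermat.Agent.S28.Defs
import Mathlib.NumberTheory.ModularForms.EisensteinSeries.QExpansion

set_option autoImplicit false
noncomputable section

namespace Fermat.Agent.S28

open ModularCurve UpperHalfPlane

/-- **WP-A1**: the `q`-expansion of the normalised Eisenstein series `E₄` is the formal
`1 + 240 ∑ σ₃(n) q^n`. -/
theorem qExpansion_E4 :
    qExpansion 1 (ModularForm.E₄ : ℍ → ℂ) =
      eisenstein4.map (Int.castRingHom ℂ) := by
  ext m
  rw [EisensteinSeries.E_qExpansion_coeff (by norm_num) (by decide) m, PowerSeries.coeff_map,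
    eisenstein4, PowerSeries.coeff_mk]
  split_ifs with h
  · simp
  · have hb : bernoulli 4 = -1 / 30 := by
      rw [bernoulli_eq_bernoulli'_of_ne_one (by norm_num), bernoulli'_four]
    rw [hb]
    simp [ArithmeticFunction.sigma_apply]
    norm_num

end Fermat.Agent.S28
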