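import Mathlib

set_option autoImplicit false
noncomputable section

namespace Fermat.Agent.S28

open Polynomial
open scoped IntermediateField

variable {K L : Type*} [Field K] [Field L] [Algebra K L]

theorem exists_lift_of_coeff_mem (E : IntermediateField K L) (f : L[X]) (h : ∀ n, f.coeff n ∈ E) :
    ∃ g : (↥E)[X], g.map (algebraMap E L) = f := by
  have : f ∈ Polynomial.lifts (algebraMap E L) :=
    (Polynomial.lifts_iff_coeff_lifts f).mpr fun n => ⟨⟨f.coeff n, h n⟩, rfl⟩
  exact (Polynomial.mem_lifts f).mp this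

/-- gcd lemma: a common root `y` of `f₁, f₂ ∈ E[X]` which is the only common root and is a simple
root of the split polynomial `f₁` lies in `E`. -/
theorem mem_of_common_root (E : IntermediateField K L) (f₁ f₂ : L[X])
    (h₁ : ∀ n, f₁.coeff n ∈ E) (h₂ : ∀ n, f₂.coeff n ∈ E) (y : L)
    {ι : Type*} (s : Finset ι) (α : ι → L)
    (hf₁ : f₁ = (X - C y) * ∏ i ∈ s, (X - C (α i)))
    (hy : f₂.eval y = 0) (hα : ∀ i ∈ s, f₂.eval (α i) ≠ 0) : y ∈ E := by
  obtain ⟨g₁, hg₁⟩ := exists_lift_of_coeff_mem E f₁ h₁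
  obtain ⟨g₂, hg₂⟩ := exists_lift_of_coeff_mem E f₂ h₂
  have hf₁monic : f₁.Monic := by
    rw [hf₁]
    exact (monic_X_sub_C y).mul (monic_prod_of_monic _ _ fun i _ => monic_X_sub_C _)
  have hg₁monic : g₁.Monic := by
    rw [← hg₁] at hf₁monic
    exact Polynomial.monic_of_injective (algebraMap E L).injective hf₁monic
  have hroot₁ : aeval y g₁ = 0 := by
    rw [aeval_def, ← eval_map, hg₁, hf₁]
    simp
  have hroot₂ : aeval y g₂ = 0 := by
    rw [aeval_def, ← eval_map, hg₂, hy]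
  have hint : IsIntegral E y := ⟨g₁, hg₁monic, by rwa [aeval_def] at hroot₁⟩
  set P := minpoly E y with hP
  have hd₁ : P ∣ g₁ := minpoly.dvd E y hroot₁
  have hd₂ : P ∣ g₂ := minpoly.dvd E y hroot₂
  by_contra hyE
  have hdeg : 2 ≤ P.natDegree := by
    rw [minpoly.two_le_natDegree_iff hint]
    rintro ⟨z, hz⟩
    exact hyE (hz ▸ z.2)
  -- factor out `X - C y`
  have hPy : (P.map (algebraMap E L)).IsRoot y := by
    rw [IsRoot.def, eval_map, ← aeval_def, minpoly.aeval]
  obtain ⟨P₁, hP₁⟩ := dvd_iff_isRoot.mpr hPy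
  have hd₁' : P.map (algebraMap E L) ∣ f₁ := hg₁ ▸ Polynomial.map_dvd _ hd₁
  rw [hP₁, hf₁] at hd₁'
  have hP₁dvd : P₁ ∣ ∏ i ∈ s, (X - C (α i)) :=
    (mul_dvd_mul_iff_left (X_sub_C_ne_zero y)).mp hd₁'
  have hP₁deg : P₁.natDegree ≠ 0 := by
    have h := congrArg natDegree hP₁
    have hP₁0 : P₁ ≠ 0 := by
      rintro rfl
      rw [mul_zero] at hP₁
      exact (Polynomial.map_ne_zero (minpoly.ne_zero hint)) hP₁
    rw [natDegree_map, natDegree_mul (X_sub_C_ne_zero y) hP₁0, natDegree_X_sub_C] at h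
    omega
  have hsplit : (∏ i ∈ s, (X - C (α i))).Splits := by
    apply Polynomial.Splits.prod
    intro i _
    exact Polynomial.Splits.X_sub_C _
  have hprod0 : (∏ i ∈ s, (X - C (α i))) ≠ 0 :=
    (monic_prod_of_monic _ _ fun i _ => monic_X_sub_C _).ne_zero
  have hP₁split : P₁.Splits := hsplit.of_dvd hprod0 hP₁dvd
  obtain ⟨z, hz⟩ := hP₁split.exists_eval_eq_zero (fun h0 =>
    hP₁deg (Polynomial.natDegree_eq_of_degree_eq_some h0))
  have hz' : (∏ i ∈ s, (X - C (α i))).eval z = 0 := by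
    obtain ⟨Q, hQ⟩ := hP₁dvd
    rw [hQ, eval_mul, hz, zero_mul]
  rw [eval_prod, Finset.prod_eq_zero_iff] at hz'
  obtain ⟨i, hi, hzi⟩ := hz'
  simp only [eval_sub, eval_X, eval_C, sub_eq_zero] at hzi
  subst hzi
  apply hα i hi
  obtain ⟨Q, hQ⟩ := hd₂
  rw [← hg₂, hQ, Polynomial.map_mul, hP₁, eval_mul, eval_mul, hz]
  simp

theorem relfinrank_sup_simple (A : IntermediateField K L) (x : L) (hx : IsIntegral A x) :
    A.relfinrank (A ⊔ K⟮x⟯) = (minpoly A x).natDegree := by
  rw [IntermediateField.relfinrank_eq_finrank_of_le le_sup_left,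
    ← IntermediateField.adjoin.finrank hx]
  have : IntermediateField.extendScalars (le_sup_left : A ≤ A ⊔ K⟮x⟯) = (↥A)⟮x⟯ := by
    apply IntermediateField.restrictScalars_injective K
    rw [IntermediateField.extendScalars_restrictScalars, IntermediateField.restrictScalars_adjoin,
      IntermediateField.adjoin_union, IntermediateField.adjoin_self]
  rw [this]

end Fermat.Agent.S28
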