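import Fermat.Agent.S28.DegreeBasic
import Fermat.Agent.S28.DegreeAbstract

set_option autoImplicit false
noncomputable section

namespace Fermat.Agent.S28

open ModularCurve HahnSeries Polynomial
open scoped IntermediateField

variable (K : Type*) [Field K]

/-- `j(q^d)`, with junk value `0` at `d = 0`. -/
def jd (d : ℕ) : LaurentSeries K :=
  if h : d = 0 then 0 else @qExpand K _ d ⟨h⟩ (jqModC K)

variable {K}

theorem jd_eq (d : ℕ) [NeZero d] : jd K d = V K d (J K) := by
  rw [jd, dif_neg (NeZero.ne d)]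

theorem jd_one : jd K 1 = J K := by
  rw [jd_eq, V, qExpand_one_apply]

theorem V_jd (m : ℕ) [NeZero m] {d : ℕ} (hd : d ≠ 0) : V K m (jd K d) = jd K (m * d) := by
  have : NeZero d := ⟨hd⟩
  rw [jd_eq, jd_eq, V, V, qExpand_qExpand]

theorem jd_ne_zero {d : ℕ} (hd : d ≠ 0) : jd K d ≠ 0 := by
  have : NeZero d := ⟨hd⟩
  rw [jd_eq]
  exact V_ne_zero d J_ne_zero

theorem order_jd {d : ℕ} (hd : d ≠ 0) : (jd K d).order = -(d : ℤ) := by
  have : NeZero d := ⟨hd⟩
  rw [jd_eq, order_V_J]

theorem jd_mem_full {d N : ℕ} (hd : d ≠ 0) (hdN : d ∣ N) :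
    jd K d ∈ modularFunctionFieldFullC K N := by
  have : NeZero d := ⟨hd⟩
  rw [jd_eq]
  exact jqModCd_mem_full K N hdN

theorem full_le_iff {N : ℕ} (G : IntermediateField K (LaurentSeries K)) :
    modularFunctionFieldFullC K N ≤ G ↔ ∀ d, d ≠ 0 → d ∣ N → jd K d ∈ G := by
  rw [modularFunctionFieldFullC, IntermediateField.adjoin_le_iff]
  constructor
  · intro h d hd hdN
    have : NeZero d := ⟨hd⟩
    rw [jd_eq]
    exact h (mem_divisorExpansionsC K N hdN)
  · rintro h x ⟨d, hne, hdN, rfl⟩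
    have := h d (NeZero.ne d) hdN
    rwa [jd_eq] at this

/-- `V n` as a `K`-algebra hom. -/
abbrev Va (n : ℕ) [NeZero n] : LaurentSeries K →ₐ[K] LaurentSeries K := qExpandAlgHomC K n

theorem Va_apply (n : ℕ) [NeZero n] (x : LaurentSeries K) : Va n x = V K n x := rfl

theorem C_eq_algebraMap (c : K) : (HahnSeries.C c : LaurentSeries K) = algebraMap K _ c := by
  rw [algebraMap_laurentSeries_eq_single]
  rfl

theorem evAt_eq_aeval (x : LaurentSeries K) (Q : K[X]) : evAt x Q = aeval x Q := by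
  rw [evAt, coe_eval₂RingHom, aeval_def]
  congr 1
  ext c : 1
  exact C_eq_algebraMap c

theorem evAt_mem (E : IntermediateField K (LaurentSeries K)) {x : LaurentSeries K} (hx : x ∈ E)
    (Q : K[X]) : evAt x Q ∈ E := by
  rw [evAt_eq_aeval]
  have := (aeval (⟨x, hx⟩ : E) Q).2
  rwa [← IntermediateField.aeval_coe] at this

theorem coeff_map_evAt_mem (E : IntermediateField K (LaurentSeries K)) {x : LaurentSeries K}
    (hx : x ∈ E) (Φ : K[X][X]) (n : ℕ) : (Φ.map (evAt x)).coeff n ∈ E := by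
  rw [coeff_map]
  exact evAt_mem E hx _

theorem V_comp_evAt (e : ℕ) [NeZero e] (x : LaurentSeries K) :
    (V K e).comp (evAt x) = evAt (V K e x) := by
  apply Polynomial.ringHom_ext
  · intro a
    simp [evAt]
  · simp [evAt]

theorem map_map_evAt (e : ℕ) [NeZero e] (x : LaurentSeries K) (Φ : K[X][X]) :
    (Φ.map (evAt x)).map (V K e) = Φ.map (evAt (V K e x)) := by
  rw [Polynomial.map_map, V_comp_evAt]

end Fermat.Agent.S28
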