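import Mathlib
import Fermat.Prelude.Def_ModularCurve_IgusaScheme

set_option autoImplicit false
open AlgebraicGeometry CategoryTheory CategoryTheory.Limits

namespace Fermat.Agent.S28

universe u

/-- A scheme covered by integral open subschemes all meeting a fixed one is integral. -/
theorem isIntegral_of_openCover {X : Scheme.{u}} (𝒰 : X.OpenCover) [∀ i, IsIntegral (𝒰.X i)]
    (i₀ : 𝒰.I₀) (h : ∀ i, (Set.range (𝒰.f i) ∩ Set.range (𝒰.f i₀)).Nonempty) :
    IsIntegral X := by
  have : IsReduced X := IsReduced.of_openCover X 𝒰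
  have hirr : ∀ i, IsIrreducible (Set.range (𝒰.f i)) := by
    intro i
    rw [← Set.image_univ]
    exact (IrreducibleSpace.isIrreducible_univ _).image _ (𝒰.f i).continuous.continuousOn
  have hopen : ∀ i, IsOpen (Set.range (𝒰.f i)) := fun i => (𝒰.f i).isOpenEmbedding.isOpen_range
  have hsub : ∀ i, Set.range (𝒰.f i) ⊆ closure (Set.range (𝒰.f i₀)) := by
    intro i
    refine (subset_closure_inter_of_isPreirreducible_of_isOpen (hirr i).2 (hopen i₀) (h i)).trans ?_
    exact closure_mono Set.inter_subset_right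
  have huniv : (Set.univ : Set X) = closure (Set.range (𝒰.f i₀)) := by
    refine (Set.eq_univ_of_forall fun x => ?_).symm
    obtain ⟨i, y, hy⟩ := 𝒰.exists_eq x
    exact hsub i ⟨y, hy⟩
  have : IrreducibleSpace X := by
    rw [irreducibleSpace_def, Set.top_eq_univ, huniv]
    exact (hirr i₀).closure
  exact isIntegral_of_irreducibleSpace_of_isReduced X

/-- If one chart of a cover factors through another, the same holds after base change. -/
theorem range_openCoverOfLeft_subset {X Y S : Scheme.{u}} (f : X ⟶ S) (g : Y ⟶ S)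
    (𝒰 : X.OpenCover) (i j : 𝒰.I₀) (e : 𝒰.X i ⟶ 𝒰.X j) (he : e ≫ 𝒰.f j = 𝒰.f i) :
    Set.range ((Scheme.Pullback.openCoverOfLeft 𝒰 f g).f i) ⊆
      Set.range ((Scheme.Pullback.openCoverOfLeft 𝒰 f g).f j) := by
  let m : pullback (𝒰.f i ≫ f) g ⟶ pullback (𝒰.f j ≫ f) g :=
    pullback.map _ _ _ _ e (𝟙 _) (𝟙 _) (by rw [Category.comp_id, ← he, Category.assoc]) (by simp)
  have hm : (Scheme.Pullback.openCoverOfLeft 𝒰 f g).f i =
      m ≫ (Scheme.Pullback.openCoverOfLeft 𝒰 f g).f j := by
    simp only [Scheme.Pullback.openCoverOfLeft_f, m]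
    rw [pullback.map_comp]
    congr 1
    exact he.symm
  rintro _ ⟨x, rfl⟩
  exact ⟨m x, by rw [hm]; rfl⟩

end Fermat.Agent.S28
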