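import Mathlib
import Fermat.Prelude.Def_ModularCurve_IgusaScheme
import Fermat.Prelude.Def_ModularCurve_LaurentCoeff

set_option autoImplicit false
open TensorProduct ModularCurve

namespace Fermat.Agent.S28

variable (ℓ : ℕ) [Fact ℓ.Prime]

set_option quotPrecheck false in
local notation "ℤℓ" => ↥(GaloisRep.ratLocalizedAt ℓ)

omit [Fact ℓ.Prime] in
/-- Ring homs out of `ℤ_(ℓ)` are unique. -/
theorem ratLocalizedAt_ringHom_ext {R : Type*} [CommRing R] (f g : ℤℓ →+* R) : f = g := by
  ext x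
  obtain ⟨q, hq⟩ := x
  have hq' : q.den.Coprime ℓ := hq
  let d : ℤℓ := (q.den : ℤℓ)
  let n : ℤℓ := (q.num : ℤℓ)
  let dinv : ℤℓ := ⟨(q.den : ℚ)⁻¹, by
    show ((q.den : ℚ)⁻¹).den.Coprime ℓ
    rw [Rat.inv_natCast_den, if_neg q.den_nz]
    exact hq'⟩
  have h1 : (⟨q, hq⟩ : ℤℓ) * d = n := by
    apply Subtype.ext
    simp [d, n, Rat.mul_den_eq_num]
  have h2 : d * dinv = 1 := by
    apply Subtype.ext
    have : (q.den : ℚ) ≠ 0 := by exact_mod_cast q.den_nz
    simp [d, dinv, this]
  have hd : f d = g d := by simp [d]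
  have hn : f n = g n := by simp [n]
  calc f ⟨q, hq⟩ = f ⟨q, hq⟩ * (g d * g dinv) := by rw [← map_mul, h2, map_one, mul_one]
    _ = (f ⟨q, hq⟩ * f d) * g dinv := by rw [hd]; ring
    _ = g n * g dinv := by rw [← map_mul, h1, hn]
    _ = g ⟨q, hq⟩ * (g d * g dinv) := by rw [← h1, map_mul]; ring
    _ = g ⟨q, hq⟩ := by rw [← map_mul, h2, map_one, mul_one]

/-- If `A / ℓ A` embeds in `𝔽_ℓ((q))`, then `A ⊗ K` is a domain for every field `K` of
characteristic `ℓ`. -/
theorem isDomain_tensor {A : Type} [CommRing A] [Algebra ℤℓ A]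
    (φ : A →+* LaurentSeries (ZMod ℓ)) (hφ : RingHom.ker φ = Ideal.span {(ℓ : A)})
    (K : Type) [Field K] [CharP K ℓ] [Algebra ℤℓ K] : IsDomain (A ⊗[ℤℓ] K) := by
  let _ : Algebra (ZMod ℓ) K := ZMod.algebra K ℓ
  let φK : A →+* LaurentSeries K := (coeffMap (algebraMap (ZMod ℓ) K)).comp φ
  let φA : A →ₐ[ℤℓ] LaurentSeries K :=
    { φK with
      commutes' := fun r => by
        exact congrFun (congrArg DFunLike.coe (ratLocalizedAt_ringHom_ext ℓ
          (φK.comp (algebraMap ℤℓ A)) (algebraMap ℤℓ (LaurentSeries K)))) r }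
  let cK : K →ₐ[ℤℓ] LaurentSeries K :=
    { (HahnSeries.C : K →+* LaurentSeries K) with
      commutes' := fun r => by
        exact congrFun (congrArg DFunLike.coe (ratLocalizedAt_ringHom_ext ℓ
          ((HahnSeries.C : K →+* LaurentSeries K).comp (algebraMap ℤℓ K))
          (algebraMap ℤℓ (LaurentSeries K)))) r }
  let Ψ : A ⊗[ℤℓ] K →ₐ[ℤℓ] LaurentSeries K :=
    Algebra.TensorProduct.productMap φA cK
  let b := Module.Basis.ofVectorSpace (ZMod ℓ) K
  -- every tensor is a finite sum `∑ aᵢ ⊗ bᵢ`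
  have hrep : ∀ z : A ⊗[ℤℓ] K, ∃ c : (Module.Basis.ofVectorSpaceIndex (ZMod ℓ) K) →₀ A,
      z = c.sum fun i a => a ⊗ₜ[ℤℓ] (b i) := by
    intro z
    induction z using TensorProduct.induction_on with
    | zero => exact ⟨0, by simp⟩
    | tmul a k =>
      refine ⟨(b.repr k).mapRange (fun n => ((n.val : ℕ) : A) * a) (by simp), ?_⟩
      rw [Finsupp.sum_mapRange_index (by simp)]
      conv_lhs => rw [← b.linearCombination_repr k, Finsupp.linearCombination_apply]
      rw [Finsupp.sum, Finsupp.sum, TensorProduct.tmul_sum]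
      refine Finset.sum_congr rfl fun i _ => ?_
      have h1 : (b.repr k i) • b i = ((b.repr k i).val : ℕ) • b i := by
        rw [Algebra.smul_def, nsmul_eq_mul]
        congr 1
        conv_lhs => rw [← ZMod.natCast_zmod_val (b.repr k i)]
        rw [map_natCast]
      rw [h1, TensorProduct.tmul_smul, TensorProduct.smul_tmul', nsmul_eq_mul]
    | add x y hx hy =>
      obtain ⟨c, rfl⟩ := hx
      obtain ⟨d, rfl⟩ := hy
      refine ⟨c + d, ?_⟩
      rw [Finsupp.sum_add_index' (by simp) (by intro i a a'; rw [TensorProduct.add_tmul])]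
  have hinj : Function.Injective Ψ := by
    rw [injective_iff_map_eq_zero]
    intro z hz
    obtain ⟨c, rfl⟩ := hrep z
    have hΨ : ∀ n : ℤ, Finsupp.linearCombination (ZMod ℓ) b
        (c.mapRange (fun a => (φ a).coeff n) (by simp)) = 0 := by
      intro n
      have := congrArg (fun f => HahnSeries.coeff f n) hz
      simp only [Finsupp.sum, map_sum, HahnSeries.coeff_zero] at this
      rw [Finsupp.linearCombination_apply, Finsupp.sum_mapRange_index (by simp), Finsupp.sum]
      rw [HahnSeries.coeff_sum] at this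
      rw [← this]
      refine Finset.sum_congr rfl fun i _ => ?_
      simp only [Ψ, Algebra.TensorProduct.productMap_apply_tmul]
      show _ = (φK (c i) * HahnSeries.C (b i)).coeff n
      rw [mul_comm, HahnSeries.C_mul_eq_smul, HahnSeries.coeff_smul, Algebra.smul_def, smul_eq_mul,
        mul_comm]
      rfl
    have hc : ∀ i, φ (c i) = 0 := by
      intro i
      ext n
      have := (linearIndependent_iff.mp b.linearIndependent) _ (hΨ n)
      have h2 := DFunLike.congr_fun this i
      simpa using h2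
    rw [Finsupp.sum]
    refine Finset.sum_eq_zero fun i _ => ?_
    have hmem : c i ∈ RingHom.ker φ := hc i
    rw [hφ, Ideal.mem_span_singleton] at hmem
    obtain ⟨a', ha'⟩ := hmem
    have hℓ : (ℓ : ℕ) • b i = 0 := by
      rw [nsmul_eq_mul, CharP.cast_eq_zero K ℓ, zero_mul]
    rw [ha', ← nsmul_eq_mul, ← TensorProduct.smul_tmul', ← TensorProduct.tmul_smul, hℓ,
      TensorProduct.tmul_zero]
  exact hinj.isDomain Ψ

end Fermat.Agent.S28
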