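import Mathlib
import Fermat.Prelude.Def_ModularCurve_IgusaScheme
import Fermat.Agent.S28.Glue
import Fermat.Agent.S28.Tensor

set_option autoImplicit false
open AlgebraicGeometry CategoryTheory CategoryTheory.Limits ModularCurve ModularCurve.IgusaScheme
open TensorProduct

noncomputable section

namespace Fermat.Agent.S28

variable (N : ℕ) [NeZero N] (ℓ : ℕ) [Fact ℓ.Prime]

set_option quotPrecheck false in
local notation "ℤℓ" => ↥(GaloisRep.ratLocalizedAt ℓ)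

theorem natCast_laurent_zmod_eq_zero : ((ℓ : ℕ) : LaurentSeries (ZMod ℓ)) = 0 := by
  rw [← map_natCast (HahnSeries.C : ZMod ℓ →+* LaurentSeries (ZMod ℓ)) ℓ, ZMod.natCast_self,
    map_zero]

/-- The reduction map on the middle chart, from the one on the finite chart. -/
theorem exists_phiMid (φ : chartAlgFin N ℓ →+* LaurentSeries (ZMod ℓ))
    (hφ : RingHom.ker φ = Ideal.span {(ℓ : chartAlgFin N ℓ)}) (hj : φ (jChartFin N ℓ) ≠ 0) :
    ∃ ψ : chartAlgMid N ℓ →+* LaurentSeries (ZMod ℓ),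
      RingHom.ker ψ = Ideal.span {(ℓ : chartAlgMid N ℓ)} := by
  letI := (inclFin N ℓ).toRingHom.toAlgebra
  haveI := isLocalization_away_inclFin N ℓ
  have hunit : ∀ y : Submonoid.powers (jChartFin N ℓ), IsUnit (φ y) := by
    rintro ⟨_, n, rfl⟩
    rw [map_pow]
    exact (hj.isUnit).pow n
  refine ⟨IsLocalization.lift hunit, le_antisymm ?_ ?_⟩
  · intro x hx
    obtain ⟨y, s, rfl⟩ := IsLocalization.exists_mk'_eq (Submonoid.powers (jChartFin N ℓ)) x
    rw [RingHom.mem_ker, IsLocalization.lift_mk'_spec, mul_zero] at hx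
    have hy : y ∈ RingHom.ker φ := hx
    rw [hφ, Ideal.mem_span_singleton] at hy
    obtain ⟨y', rfl⟩ := hy
    rw [Ideal.mem_span_singleton]
    refine ⟨IsLocalization.mk' _ y' s, ?_⟩
    rw [← IsLocalization.mul_mk'_eq_mk'_of_mul, map_natCast]
  · rw [Ideal.span_singleton_le_iff_mem, RingHom.mem_ker, map_natCast]
    exact natCast_laurent_zmod_eq_zero ℓ

omit [Fact ℓ.Prime] in
/-- Base change of an affine chart whose tensor product with `K` is a domain. -/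
theorem isIntegral_pullback_chart (A : Type) [CommRing A] [Algebra ℤℓ A]
    (K : Type) [Field K] [Algebra ℤℓ K] [IsDomain (A ⊗[ℤℓ] K)]
    (h : Spec (CommRingCat.of A) ⟶ Spec (CommRingCat.of ℤℓ))
    (hh : h = Spec.map (CommRingCat.ofHom (algebraMap ℤℓ A))) :
    IsIntegral (pullback h (Spec.map (CommRingCat.ofHom (algebraMap ℤℓ K)))) := by
  subst hh
  exact IsIntegral.of_isIso (pullbackSpecIso ℤℓ A K).inv

set_option maxHeartbeats 4000000 in
set_option synthInstance.maxHeartbeats 400000 in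
theorem isIntegral_pullback_of_phi
    (hFin : ∃ φ : chartAlgFin N ℓ →+* LaurentSeries (ZMod ℓ),
      RingHom.ker φ = Ideal.span {(ℓ : chartAlgFin N ℓ)} ∧ φ (jChartFin N ℓ) ≠ 0)
    (hInf : ∃ φ : chartAlgInf N ℓ →+* LaurentSeries (ZMod ℓ),
      RingHom.ker φ = Ideal.span {(ℓ : chartAlgInf N ℓ)})
    (K : Type) [Field K] [CharP K ℓ] [Algebra ℤℓ K] :
    IsIntegral ↑(pullback (igusaTo N ℓ)
      (Spec.map (CommRingCat.ofHom (algebraMap ℤℓ K)))) := by
  obtain ⟨φF, hφF, hj⟩ := hFin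
  obtain ⟨φI, hφI⟩ := hInf
  obtain ⟨φM, hφM⟩ := exists_phiMid N ℓ φF hφF hj
  have dF : IsDomain (chartAlgFin N ℓ ⊗[ℤℓ] K) := isDomain_tensor ℓ φF hφF K
  have dI : IsDomain (chartAlgInf N ℓ ⊗[ℤℓ] K) := isDomain_tensor ℓ φI hφI K
  have dM : IsDomain (chartAlgMid N ℓ ⊗[ℤℓ] K) := isDomain_tensor ℓ φM hφM K
  let g := Spec.map (CommRingCat.ofHom (algebraMap ℤℓ K))
  let 𝒰 : (ModularCurve.IgusaScheme N ℓ).OpenCover :=
    Scheme.IsLocallyDirected.openCover (span (fFin N ℓ) (fInf N ℓ))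
  let 𝒱 := Scheme.Pullback.openCoverOfLeft 𝒰 (igusaTo N ℓ) g
  have hL : 𝒰.f WalkingSpan.left = ιFin N ℓ := rfl
  have hR : 𝒰.f WalkingSpan.right = ιInf N ℓ := rfl
  have hZL : 𝒰.f WalkingSpan.zero = fFin N ℓ ≫ ιFin N ℓ :=
    (colimit.w (span (fFin N ℓ) (fInf N ℓ)) WalkingSpan.Hom.fst).symm
  have hZR : 𝒰.f WalkingSpan.zero = fInf N ℓ ≫ ιInf N ℓ :=
    (colimit.w (span (fFin N ℓ) (fInf N ℓ)) WalkingSpan.Hom.snd).symm
  have hbaseM : fFin N ℓ ≫ Spec.map (CommRingCat.ofHom (algebraMap ℤℓ (chartAlgFin N ℓ))) =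
      Spec.map (CommRingCat.ofHom (algebraMap ℤℓ (chartAlgMid N ℓ))) := by
    rw [← Spec.map_comp, ← CommRingCat.ofHom_comp]
    congr 2
  have hint : ∀ i, IsIntegral (𝒱.X i) := by
    intro i
    rcases i with (_ | _ | _)
    · exact isIntegral_pullback_chart ℓ (chartAlgMid N ℓ) K (𝒰.f WalkingSpan.zero ≫ igusaTo N ℓ)
        (by rw [hZL, Category.assoc, ιFin_igusaTo, hbaseM])
    · exact isIntegral_pullback_chart ℓ (chartAlgFin N ℓ) K (𝒰.f WalkingSpan.left ≫ igusaTo N ℓ)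
        (by rw [hL, ιFin_igusaTo])
    · exact isIntegral_pullback_chart ℓ (chartAlgInf N ℓ) K (𝒰.f WalkingSpan.right ≫ igusaTo N ℓ)
        (by rw [hR, ιInf_igusaTo])
  refine isIntegral_of_openCover 𝒱 WalkingSpan.zero ?_
  obtain ⟨x⟩ : Nonempty (𝒱.X WalkingSpan.zero) := (hint WalkingSpan.zero).nonempty
  intro i
  refine ⟨𝒱.f WalkingSpan.zero x, ?_, ⟨x, rfl⟩⟩
  rcases i with (_ | _ | _)
  · exact ⟨x, rfl⟩
  · exact range_openCoverOfLeft_subset (igusaTo N ℓ) g 𝒰 WalkingSpan.zero WalkingSpan.left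
      (fFin N ℓ) hZL.symm ⟨x, rfl⟩
  · exact range_openCoverOfLeft_subset (igusaTo N ℓ) g 𝒰 WalkingSpan.zero WalkingSpan.right
      (fInf N ℓ) hZR.symm ⟨x, rfl⟩

end Fermat.Agent.S28
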