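import Mathlib

set_option autoImplicit false
open Polynomial

namespace Fermat.Agent.S28

/-- Descent of integrality: `C` integrally closed with fraction field `Kf`, `O` a valuation subring
of `Kf` with `π^i O ∩ C = π^i C`.  If `π • y` is integral over `C` and `y` is integral over `O`,
then `y` is integral over `C`. -/
theorem isIntegral_of_smul_of_valuationSubring
    {C Kf L : Type*} [CommRing C] [IsDomain C] [IsIntegrallyClosed C] [Field Kf] [Algebra C Kf]
    [IsFractionRing C Kf] [Field L] [Algebra Kf L] [Algebra C L] [IsScalarTower C Kf L]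
    (O : ValuationSubring Kf) (π : C) (hπ : π ≠ 0)
    (hO : ∀ (c : C) (i : ℕ), algebraMap C Kf c / (algebraMap C Kf π) ^ i ∈ O → π ^ i ∣ c)
    (y : L) (hy1 : IsIntegral C (π • y)) (hy2 : IsIntegral O y) : IsIntegral C y := by
  have hπK : algebraMap C Kf π ≠ 0 := by
    simpa using (IsFractionRing.injective C Kf).ne hπ
  have hyK : IsIntegral Kf y := hy2.tower_top
  set ν := minpoly Kf y with hν
  have hν1 : ν = (minpoly O y).map (algebraMap O Kf) :=
    minpoly.isIntegrallyClosed_eq_field_fractions' Kf hy2
  have hμ1 : minpoly Kf (π • y) = (minpoly C (π • y)).map (algebraMap C Kf) :=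
    minpoly.isIntegrallyClosed_eq_field_fractions' Kf hy1
  have hμ2 : minpoly Kf (π • y) = ν.scaleRoots (algebraMap C Kf π) := by
    have : π • y = (algebraMap C Kf π) • y := by
      rw [algebraMap_smul]
    rw [this, IsIntegrallyClosed.minpoly_smul hπK hyK]
  have hlift : ν ∈ Polynomial.lifts (algebraMap C Kf) := by
    rw [Polynomial.lifts_iff_coeff_lifts]
    intro i
    have h1 : algebraMap C Kf ((minpoly C (π • y)).coeff i) =
        ν.coeff i * (algebraMap C Kf π) ^ (ν.natDegree - i) := by
      rw [← Polynomial.coeff_map, ← hμ1, hμ2, Polynomial.coeff_scaleRoots]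
    have h2 : ν.coeff i ∈ O := by
      rw [hν1, Polynomial.coeff_map]
      exact ((minpoly O y).coeff i).2
    have h3 : π ^ (ν.natDegree - i) ∣ (minpoly C (π • y)).coeff i := by
      apply hO
      rw [h1, mul_div_assoc, div_self (pow_ne_zero _ hπK), mul_one]
      exact h2
    obtain ⟨c, hc⟩ := h3
    refine ⟨c, ?_⟩
    rw [hc, map_mul, map_pow, mul_comm] at h1
    exact mul_right_cancel₀ (pow_ne_zero _ hπK) h1
  obtain ⟨q, hq, -, hqm⟩ := Polynomial.lifts_and_natDegree_eq_and_monic hlift (minpoly.monic hyK)
  refine ⟨q, hqm, ?_⟩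
  have : Polynomial.aeval y ν = 0 := minpoly.aeval Kf y
  rw [← hq, Polynomial.aeval_map_algebraMap] at this
  exact this

/-- Transitivity of integrality through a subring that need not contain the base. -/
theorem isIntegral_of_isIntegral_subring {R B : Type*} [CommRing R] [CommRing B] [Algebra R B]
    (S : Subring B) (hS : ∀ s ∈ S, IsIntegral R s) {x : B} (hx : IsIntegral S x) :
    IsIntegral R x := by
  let A := integralClosure R B
  have hSA : S ≤ A.toSubring := fun s hs => hS s hs
  have hxA : IsIntegral A x :=
    hx.map_of_comp_eq (Subring.inclusion hSA) (RingHom.id B) (by ext; rfl)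
  exact isIntegral_trans x hxA

end Fermat.Agent.S28
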