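import Mathlib
import Fermat.Prelude.Def_ModularCurve_IgusaScheme
import Fermat.Prelude.Def_ModularCurve_LaurentCoeff

set_option autoImplicit false
open ModularCurve

noncomputable section

namespace Fermat.Agent.S28

variable (ℓ : ℕ) [Fact ℓ.Prime]

set_option quotPrecheck false in
local notation "ℤℓ" => ↥(GaloisRep.ratLocalizedAt ℓ)

theorem den_cast_ne_zero (x : ℤℓ) : (((x : ℚ).den : ℕ) : ZMod ℓ) ≠ 0 := by
  intro h
  rw [ZMod.natCast_eq_zero_iff] at h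
  have hx : (x : ℚ).den.Coprime ℓ := x.2
  have h1 : ℓ ∣ 1 := by
    have := Nat.dvd_gcd h (dvd_refl ℓ)
    rwa [hx] at this
  exact (Fact.out : ℓ.Prime).one_lt.ne' (Nat.dvd_one.mp h1)

/-- The residue map `ℤ_(ℓ) → 𝔽_ℓ`. -/
def resZ : ℤℓ →+* ZMod ℓ where
  toFun x := ((x : ℚ) : ZMod ℓ)
  map_one' := by simp
  map_zero' := by simp
  map_add' x y := Rat.cast_add_of_ne_zero (den_cast_ne_zero ℓ x) (den_cast_ne_zero ℓ y)
  map_mul' x y := Rat.cast_mul_of_ne_zero (den_cast_ne_zero ℓ x) (den_cast_ne_zero ℓ y)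

theorem resZ_apply (x : ℤℓ) : resZ ℓ x = ((x : ℚ) : ZMod ℓ) := rfl

theorem resZ_surjective : Function.Surjective (resZ ℓ) := by
  intro n
  refine ⟨((n.val : ℕ) : ℤℓ), ?_⟩
  rw [map_natCast, ZMod.natCast_zmod_val]

theorem exists_eq_mul_of_resZ_eq_zero {x : ℤℓ} (hx : resZ ℓ x = 0) : ∃ y : ℤℓ, x = (ℓ : ℤℓ) * y := by
  have hℓ : (ℓ : ℚ) ≠ 0 := by exact_mod_cast (Fact.out : ℓ.Prime).ne_zero
  rw [resZ_apply, Rat.cast_def, div_eq_zero_iff] at hx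
  have hnum : ((x : ℚ).num : ZMod ℓ) = 0 := hx.resolve_right (den_cast_ne_zero ℓ x)
  rw [ZMod.intCast_zmod_eq_zero_iff_dvd] at hnum
  obtain ⟨k, hk⟩ := hnum
  have hxk : (x : ℚ) = (ℓ : ℚ) * ((k : ℚ) / ((x : ℚ).den : ℚ)) := by
    conv_lhs => rw [← Rat.num_div_den (x : ℚ), hk]
    push_cast
    ring
  refine ⟨⟨(k : ℚ) / ((x : ℚ).den : ℚ), ?_⟩, Subtype.ext ?_⟩
  · show ((k : ℚ) / ((x : ℚ).den : ℚ)).den.Coprime ℓ
    have hdvd : ((k : ℚ) / ((x : ℚ).den : ℚ)).den ∣ (x : ℚ).den := by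
      have := Rat.den_dvd k ((x : ℚ).den : ℤ)
      rw [Rat.divInt_eq_div] at this
      exact_mod_cast this
    exact Nat.Coprime.coprime_dvd_left hdvd x.2
  · simpa using hxk

/-- Coefficientwise inclusion `ℤ_(ℓ)((q)) → ℚ((q))`. -/
def ιR : LaurentSeries ℤℓ →+* LaurentSeries ℚ := coeffMap (GaloisRep.ratLocalizedAt ℓ).subtype

/-- Coefficientwise reduction `ℤ_(ℓ)((q)) → 𝔽_ℓ((q))`. -/
def red : LaurentSeries ℤℓ →+* LaurentSeries (ZMod ℓ) := coeffMap (resZ ℓ)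

omit [Fact ℓ.Prime] in
theorem ιR_injective : Function.Injective (ιR ℓ) := by
  intro f g h
  ext n
  have := congrArg (fun s => HahnSeries.coeff s n) h
  exact this

theorem red_surjective : Function.Surjective (red ℓ) := by
  intro f
  let z : ZeroHom (ZMod ℓ) ℤℓ := ⟨fun n => ((n.val : ℕ) : ℤℓ), by simp⟩
  refine ⟨f.map z, ?_⟩
  ext n
  show resZ ℓ (((f.coeff n).val : ℕ) : ℤℓ) = f.coeff n
  rw [map_natCast, ZMod.natCast_zmod_val]

/-- A valuation subring of `ℚ((q))` dominating the localisation of `ℤ_(ℓ)((q))` at `(ℓ)`. -/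
theorem exists_gaussB : ∃ B : ValuationSubring (LaurentSeries ℚ),
    (∀ f, ιR ℓ f ∈ B) ∧ (∀ f, ιR ℓ f ∈ B.nonunits ↔ red ℓ f = 0) := by
  let A : Subring (LaurentSeries ℚ) := (ιR ℓ).range
  let I : Ideal A := (RingHom.ker (red ℓ)).map (ιR ℓ).rangeRestrict
  have hI : I ≠ ⊤ := by
    intro h
    have h1 : (1 : A) ∈ I := by rw [h]; trivial
    rw [Ideal.mem_map_iff_of_surjective _ (ιR ℓ).rangeRestrict_surjective] at h1
    obtain ⟨f, hf, hf1⟩ := h1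
    have : ιR ℓ f = ιR ℓ 1 := by
      rw [map_one]
      exact congrArg Subtype.val hf1
    rw [ιR_injective ℓ this, RingHom.mem_ker, map_one] at hf
    exact one_ne_zero hf
  obtain ⟨B, hAB, hIB⟩ := Ideal.image_subset_nonunits_valuationSubring I hI
  have hmem : ∀ f, ιR ℓ f ∈ B := fun f => hAB ⟨f, rfl⟩
  have hnon : ∀ f, red ℓ f = 0 → ιR ℓ f ∈ B.nonunits := by
    intro f hf
    refine hIB ⟨(ιR ℓ).rangeRestrict f, ?_, rfl⟩
    exact Ideal.mem_map_of_mem _ hf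
  refine ⟨B, hmem, fun f => ⟨fun hf => ?_, hnon f⟩⟩
  by_contra hne
  obtain ⟨g, hg⟩ := red_surjective ℓ (red ℓ f)⁻¹
  have h0 : red ℓ (f * g - 1) = 0 := by
    rw [map_sub, map_mul, hg, mul_inv_cancel₀ hne, map_one, sub_self]
  have h1 := hnon _ h0
  rw [map_sub, map_mul, map_one] at h1
  -- `ι f * ι g` is a nonunit, and so is `ι f * ι g - 1`: contradiction
  rw [ValuationSubring.mem_nonunits_iff_exists_mem_maximalIdeal] at hf h1
  obtain ⟨hf', hfm⟩ := hf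
  obtain ⟨h1', h1m⟩ := h1
  have h2 : (⟨ιR ℓ f, hf'⟩ : B) * ⟨ιR ℓ g, hmem g⟩ ∈ IsLocalRing.maximalIdeal B :=
    Ideal.mul_mem_right _ _ hfm
  have h3 : (1 : B) ∈ IsLocalRing.maximalIdeal B := by
    have := Ideal.sub_mem _ h2 h1m
    convert this using 1
    apply Subtype.ext
    simp
  exact (Ideal.ne_top_iff_one _).mp (IsLocalRing.maximalIdeal.isMaximal B).ne_top h3

/-- The chosen "Gauss" valuation subring of `ℚ((q))`. -/
def gaussB : ValuationSubring (LaurentSeries ℚ) := (exists_gaussB ℓ).choose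

theorem ιR_mem_gaussB (f : LaurentSeries ℤℓ) : ιR ℓ f ∈ gaussB ℓ := (exists_gaussB ℓ).choose_spec.1 f

theorem ιR_mem_nonunits_iff (f : LaurentSeries ℤℓ) :
    ιR ℓ f ∈ (gaussB ℓ).nonunits ↔ red ℓ f = 0 := (exists_gaussB ℓ).choose_spec.2 f

/-- residue field of the Gauss valuation ring -/
abbrev gaussK : Type := IsLocalRing.ResidueField (gaussB ℓ)

/-- residue map -/
def gaussρ : gaussB ℓ →+* gaussK ℓ := IsLocalRing.residue (gaussB ℓ)

/-- `ℤ_(ℓ)((q)) → 𝔹`. -/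
def ιB : LaurentSeries ℤℓ →+* gaussB ℓ := (ιR ℓ).codRestrict (gaussB ℓ).toSubring (ιR_mem_gaussB ℓ)

theorem gaussρ_eq_zero_iff (x : gaussB ℓ) : gaussρ ℓ x = 0 ↔ (x : LaurentSeries ℚ) ∈ (gaussB ℓ).nonunits := by
  rw [gaussρ, IsLocalRing.residue_eq_zero_iff, ValuationSubring.mem_nonunits_iff_exists_mem_maximalIdeal]
  exact ⟨fun h => ⟨x.2, h⟩, fun ⟨_, h⟩ => h⟩

/-- The embedding `𝔽_ℓ((q)) → 𝔹/𝔪`. -/
def gaussι : LaurentSeries (ZMod ℓ) →+* gaussK ℓ :=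
  RingHom.liftOfSurjective (red ℓ) (red_surjective ℓ) ⟨(gaussρ ℓ).comp (ιB ℓ), by
    intro f hf
    rw [RingHom.mem_ker, RingHom.comp_apply, gaussρ_eq_zero_iff]
    exact (ιR_mem_nonunits_iff ℓ f).mpr hf⟩

theorem gaussι_red (f : LaurentSeries ℤℓ) : gaussι ℓ (red ℓ f) = gaussρ ℓ (ιB ℓ f) := by
  rw [gaussι]
  exact RingHom.liftOfRightInverse_comp_apply _ _ _ _ f

theorem gaussι_injective : Function.Injective (gaussι ℓ) := (gaussι ℓ).injective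

end Fermat.Agent.S28
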