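import Mathlib
import Fermat.Agent.S28.Val
import Fermat.Agent.S28.IntLemma

set_option autoImplicit false
open ModularCurve Polynomial IntermediateField

noncomputable section

namespace Fermat.Agent.S28

variable (ℓ : ℕ) [Fact ℓ.Prime]

set_option quotPrecheck false in
local notation "ℤℓ" => ↥(GaloisRep.ratLocalizedAt ℓ)

/-- A subfield `E` of `ℚ((q))` on which the Gauss valuation ring is well behaved. -/
structure Good (E : IntermediateField ℚ (LaurentSeries ℚ))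
    (𝔣 : Subfield (LaurentSeries (ZMod ℓ))) (O : Subring (LaurentSeries ℚ)) : Prop where
  unif : ∀ x ∈ E, x ∈ (gaussB ℓ).nonunits → ((ℓ : ℕ) : LaurentSeries ℚ)⁻¹ * x ∈ gaussB ℓ
  res : ∀ x ∈ E, ∀ hx : x ∈ gaussB ℓ, ∃ xb ∈ 𝔣, gaussρ ℓ ⟨x, hx⟩ = gaussι ℓ xb
  int : ∀ x ∈ E, x ∈ gaussB ℓ → IsIntegral O x

/-- evaluation `ℤ_(ℓ)[X] → ℤ_(ℓ)((q))` at `ŝ`. -/
def evHat (s : LaurentSeries ℤℓ) : ℤℓ[X] →+* LaurentSeries ℤℓ :=
  Polynomial.eval₂RingHom (HahnSeries.C : ℤℓ →+* LaurentSeries ℤℓ) s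

/-- evaluation `ℤ_(ℓ)[X] → ℚ((q))` at `ι ŝ`. -/
def evS (s : LaurentSeries ℤℓ) : ℤℓ[X] →+* LaurentSeries ℚ := (ιR ℓ).comp (evHat ℓ s)

theorem red_evHat (s : LaurentSeries ℤℓ) (c : ℤℓ[X]) :
    red ℓ (evHat ℓ s c) = Polynomial.aeval (red ℓ s) (c.map (resZ ℓ)) := by
  rw [evHat, Polynomial.coe_eval₂RingHom, Polynomial.hom_eval₂, Polynomial.aeval_def,
    Polynomial.eval₂_map]
  congr 1
  ext a n
  simp [red, algebraMap_laurentSeries_eq_single]

theorem natCast_mem_nonunits : ((ℓ : ℕ) : LaurentSeries ℚ) ∈ (gaussB ℓ).nonunits := by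
  have h : ((ℓ : ℕ) : LaurentSeries ℚ) = ιR ℓ ((ℓ : ℕ) : LaurentSeries ℤℓ) := by rw [map_natCast]
  rw [h, ιR_mem_nonunits_iff, map_natCast,
    ← map_natCast (HahnSeries.C : ZMod ℓ →+* LaurentSeries (ZMod ℓ)) ℓ, ZMod.natCast_self, map_zero]

theorem natCast_ne_zero' : ((ℓ : ℕ) : LaurentSeries ℚ) ≠ 0 := by
  rw [← map_natCast (HahnSeries.C : ℚ →+* LaurentSeries ℚ) ℓ]
  exact HahnSeries.C_ne_zero (by exact_mod_cast (Fact.out : ℓ.Prime).ne_zero)

theorem mul_mem_nonunits {a b : LaurentSeries ℚ} (ha : a ∈ (gaussB ℓ).nonunits)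
    (hb : b ∈ gaussB ℓ) : a * b ∈ (gaussB ℓ).nonunits := by
  rw [ValuationSubring.mem_nonunits_iff] at ha ⊢
  rw [← ValuationSubring.valuation_le_one_iff] at hb
  rw [map_mul]
  exact (mul_le_of_le_one_right' hb).trans_lt ha

/-- If `c(s)` is a non-unit then `ℓ ∣ c`. -/
theorem natCast_dvd_of_evS_mem_nonunits (s : LaurentSeries ℤℓ)
    (htr : Transcendental (ZMod ℓ) (red ℓ s)) (c : ℤℓ[X])
    (hc : evS ℓ s c ∈ (gaussB ℓ).nonunits) : ((ℓ : ℕ) : ℤℓ[X]) ∣ c := by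
  rw [evS, RingHom.comp_apply, ιR_mem_nonunits_iff, red_evHat] at hc
  have h0 : c.map (resZ ℓ) = 0 := (transcendental_iff.mp htr) _ hc
  rw [← Polynomial.C_eq_natCast, Polynomial.C_dvd_iff_dvd_coeff]
  intro i
  have : resZ ℓ (c.coeff i) = 0 := by
    rw [← Polynomial.coeff_map, h0, Polynomial.coeff_zero]
  obtain ⟨y, hy⟩ := exists_eq_mul_of_resZ_eq_zero ℓ this
  exact ⟨y, hy⟩

omit [Fact ℓ.Prime] in
theorem evS_natCast (s : LaurentSeries ℤℓ) : evS ℓ s ((ℓ : ℕ) : ℤℓ[X]) = ((ℓ : ℕ) : LaurentSeries ℚ) :=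
  map_natCast _ _

theorem pow_dvd_of_evS_div_mem (s : LaurentSeries ℤℓ)
    (htr : Transcendental (ZMod ℓ) (red ℓ s)) (i : ℕ) : ∀ (c : ℤℓ[X]),
    evS ℓ s c / ((ℓ : ℕ) : LaurentSeries ℚ) ^ i ∈ gaussB ℓ → ((ℓ : ℕ) : ℤℓ[X]) ^ i ∣ c := by
  induction i with
  | zero => intro c _; simp
  | succ i ih =>
    intro c hc
    have hℓ := natCast_ne_zero' ℓ
    have h1 : evS ℓ s c ∈ (gaussB ℓ).nonunits := by
      have : evS ℓ s c = ((ℓ : ℕ) : LaurentSeries ℚ) *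
          (((ℓ : ℕ) : LaurentSeries ℚ) ^ i * (evS ℓ s c / ((ℓ : ℕ) : LaurentSeries ℚ) ^ (i + 1))) := by
        field_simp
        ring
      rw [this]
      refine mul_mem_nonunits ℓ (natCast_mem_nonunits ℓ) (mul_mem (pow_mem ?_ i) hc)
      exact natCast_mem _ _
    obtain ⟨c', rfl⟩ := natCast_dvd_of_evS_mem_nonunits ℓ s htr c h1
    have h2 : evS ℓ s c' / ((ℓ : ℕ) : LaurentSeries ℚ) ^ i ∈ gaussB ℓ := by
      convert hc using 1
      rw [map_mul, evS_natCast]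
      field_simp
      ring
    obtain ⟨d, rfl⟩ := ih c' h2
    exact ⟨d, by ring⟩

/-- `ℤ_(ℓ)` as a valuation subring of `ℚ`. -/
def zlValuationSubring : ValuationSubring ℚ :=
  { GaloisRep.ratLocalizedAt ℓ with
    mem_or_inv_mem' := fun x => by
      by_cases h : x.den.Coprime ℓ
      · exact Or.inl h
      · right
        show (x⁻¹).den.Coprime ℓ
        have hp : ℓ.Prime := Fact.out
        have hdvd : ℓ ∣ x.den := by
          by_contra hnd
          exact h ((Nat.Prime.coprime_iff_not_dvd hp).mpr hnd).symm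
        rw [Rat.den_inv]
        split_ifs with h0
        · simp
        · refine ((Nat.Prime.coprime_iff_not_dvd hp).mpr fun hn => ?_).symm
          have := Nat.dvd_gcd hn hdvd
          rw [x.reduced] at this
          exact hp.one_lt.ne' (Nat.dvd_one.mp this) }

instance instIsIntegrallyClosedZl : IsIntegrallyClosed ℤℓ :=
  inferInstanceAs (IsIntegrallyClosed (zlValuationSubring ℓ).toSubring)

theorem eq_zero_of_forall_pow_dvd_zl (a : ℤℓ) (h : ∀ i : ℕ, ((ℓ : ℕ) : ℤℓ) ^ i ∣ a) : a = 0 := by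
  by_contra ha
  have hp : ℓ.Prime := Fact.out
  have haq : (a : ℚ) ≠ 0 := fun h0 => ha (Subtype.ext h0)
  have hnum : (a : ℚ).num ≠ 0 := Rat.num_ne_zero.mpr haq
  obtain ⟨b, hb⟩ := h (a : ℚ).num.natAbs
  set i := (a : ℚ).num.natAbs with hi
  have hbq : (a : ℚ) = (ℓ : ℚ) ^ i * (b : ℚ) := by
    have := congrArg Subtype.val hb
    simpa using this
  have h1 : (a : ℚ).num * ((b : ℚ).den : ℤ) = (ℓ : ℤ) ^ i * (b : ℚ).num * ((a : ℚ).den : ℤ) := by
    have hbd : ((b : ℚ).den : ℚ) ≠ 0 := by exact_mod_cast (b : ℚ).den_nz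
    have had : ((a : ℚ).den : ℚ) ≠ 0 := by exact_mod_cast (a : ℚ).den_nz
    have h2 : ((a : ℚ).num : ℚ) / ((a : ℚ).den : ℚ) =
        (ℓ : ℚ) ^ i * (((b : ℚ).num : ℚ) / ((b : ℚ).den : ℚ)) := by
      rw [Rat.num_div_den, Rat.num_div_den]; exact hbq
    field_simp at h2
    have h3 : (a : ℚ).num * ((b : ℚ).den : ℤ) = (((a : ℚ).den * ℓ ^ i : ℕ) : ℤ) * (b : ℚ).num := by
      exact_mod_cast h2
    rw [h3]
    push_cast
    ring
  have hcop : IsCoprime ((ℓ : ℤ) ^ i) ((b : ℚ).den : ℤ) := by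
    apply IsCoprime.pow_left
    rw [Nat.isCoprime_iff_coprime]
    exact (Nat.Coprime.symm b.2)
  have hdvd : (ℓ : ℤ) ^ i ∣ (a : ℚ).num :=
    hcop.dvd_of_dvd_mul_right ⟨(b : ℚ).num * ((a : ℚ).den : ℤ), by rw [h1]; ring⟩
  have hle := Int.natAbs_dvd_natAbs.mpr hdvd
  have hle' : ℓ ^ i ≤ i := by
    have := Nat.le_of_dvd (Int.natAbs_pos.mpr hnum) hle
    simpa [Int.natAbs_pow] using this
  exact absurd hle' (not_le.mpr (Nat.lt_pow_self hp.one_lt))

theorem eq_zero_of_forall_pow_dvd (c : ℤℓ[X]) (h : ∀ i : ℕ, ((ℓ : ℕ) : ℤℓ[X]) ^ i ∣ c) : c = 0 := by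
  refine Polynomial.ext fun n => ?_
  rw [Polynomial.coeff_zero]
  apply eq_zero_of_forall_pow_dvd_zl
  intro i
  have := h i
  rw [← Polynomial.C_eq_natCast, ← Polynomial.C_pow, Polynomial.C_dvd_iff_dvd_coeff] at this
  exact this n

theorem evS_injective (s : LaurentSeries ℤℓ) (htr : Transcendental (ZMod ℓ) (red ℓ s)) :
    Function.Injective (evS ℓ s) := by
  rw [injective_iff_map_eq_zero]
  intro c hc
  apply eq_zero_of_forall_pow_dvd
  intro i
  apply pow_dvd_of_evS_div_mem ℓ s htr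
  rw [hc, zero_div]
  exact zero_mem _

omit [Fact ℓ.Prime] in
theorem evS_eq_aeval (s : LaurentSeries ℤℓ) (c : ℤℓ[X]) :
    evS ℓ s c = Polynomial.aeval (ιR ℓ s) (c.map (GaloisRep.ratLocalizedAt ℓ).subtype) := by
  have : evS ℓ s = ((Polynomial.aeval (R := ℚ) (ιR ℓ s)).toRingHom).comp
      (Polynomial.mapRingHom (GaloisRep.ratLocalizedAt ℓ).subtype) := by
    apply Polynomial.ringHom_ext
    · intro a
      show ιR ℓ (Polynomial.eval₂ HahnSeries.C s (Polynomial.C a)) =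
        Polynomial.aeval (ιR ℓ s) ((Polynomial.C a).map (GaloisRep.ratLocalizedAt ℓ).subtype)
      rw [Polynomial.eval₂_C, Polynomial.map_C, Polynomial.aeval_C,
        algebraMap_laurentSeries_eq_single]
      exact coeffMap_single _ _ _
    · simp [evS, evHat]
  rw [this]
  rfl

omit [Fact ℓ.Prime] in
theorem evS_mem_adjoin (s : LaurentSeries ℤℓ) (c : ℤℓ[X]) : evS ℓ s c ∈ ℚ⟮ιR ℓ s⟯ := by
  rw [evS_eq_aeval]
  exact IntermediateField.algebra_adjoin_le_adjoin ℚ _ (Polynomial.aeval_mem_adjoin_singleton ℚ _)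

omit [Fact ℓ.Prime] in
/-- clearing denominators -/
theorem exists_evS_eq_smul_aeval (s : LaurentSeries ℤℓ) (r : ℚ[X]) :
    ∃ (b : ℤ) (r' : ℤℓ[X]), b ≠ 0 ∧ evS ℓ s r' = (b : LaurentSeries ℚ) * Polynomial.aeval (ιR ℓ s) r := by
  obtain ⟨b, hb, hr⟩ := IsLocalization.integerNormalization_spec (nonZeroDivisors ℤ) r
  refine ⟨b, (IsLocalization.integerNormalization (nonZeroDivisors ℤ) r).map (Int.castRingHom ℤℓ),
    nonZeroDivisors.ne_zero hb, ?_⟩
  rw [evS_eq_aeval, Polynomial.map_map]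
  have : (GaloisRep.ratLocalizedAt ℓ).subtype.comp (Int.castRingHom ℤℓ) = algebraMap ℤ ℚ :=
    RingHom.ext_int _ _
  rw [this, hr, map_zsmul, zsmul_eq_mul]

/-- Core of T4: dividing by `ℓ` preserves integrality over `ℤ_(ℓ)[s]`. -/
theorem isIntegralElem_of_good (E : IntermediateField ℚ (LaurentSeries ℚ))
    (𝔣 : Subfield (LaurentSeries (ZMod ℓ))) (s : LaurentSeries ℤℓ)
    (htr : Transcendental (ZMod ℓ) (red ℓ s))
    (hg : Good ℓ E 𝔣 ((gaussB ℓ).toSubring ⊓ (ℚ⟮ιR ℓ s⟯).toSubring))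
    (y : LaurentSeries ℚ) (hyE : y ∈ E)
    (hy1 : (evS ℓ s).IsIntegralElem (((ℓ : ℕ) : LaurentSeries ℚ) * y))
    (hy2 : ((ℓ : ℕ) : LaurentSeries ℚ) * y ∈ (gaussB ℓ).nonunits) :
    (evS ℓ s).IsIntegralElem y := by
  have hℓ := natCast_ne_zero' ℓ
  let Kf : IntermediateField ℚ (LaurentSeries ℚ) := ℚ⟮ιR ℓ s⟯
  let evK : ℤℓ[X] →+* Kf := (evS ℓ s).codRestrict Kf.toSubring (evS_mem_adjoin ℓ s)
  letI : Algebra ℤℓ[X] (LaurentSeries ℚ) := (evS ℓ s).toAlgebra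
  letI : Algebra ℤℓ[X] Kf := evK.toAlgebra
  haveI : IsScalarTower ℤℓ[X] Kf (LaurentSeries ℚ) := IsScalarTower.of_algebraMap_eq' rfl
  have hinjK : Function.Injective (algebraMap ℤℓ[X] Kf) := by
    intro a b hab
    exact evS_injective ℓ s htr (congrArg Subtype.val hab)
  haveI : FaithfulSMul ℤℓ[X] Kf := (faithfulSMul_iff_algebraMap_injective _ _).mpr hinjK
  haveI : IsFractionRing ℤℓ[X] Kf := by
    refine IsFractionRing.of_field _ _ fun z => ?_
    obtain ⟨r, t, hz⟩ := (IntermediateField.mem_adjoin_simple_iff ℚ (z : LaurentSeries ℚ)).mp z.2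
    obtain ⟨b, r', hb, hr'⟩ := exists_evS_eq_smul_aeval ℓ s r
    obtain ⟨b', t', hb', ht'⟩ := exists_evS_eq_smul_aeval ℓ s t
    refine ⟨(b' : ℤℓ[X]) * r', (b : ℤℓ[X]) * t', Subtype.ext ?_⟩
    have hbL : (b : LaurentSeries ℚ) ≠ 0 := by
      rw [← map_intCast (HahnSeries.C : ℚ →+* LaurentSeries ℚ) b]
      exact HahnSeries.C_ne_zero (by exact_mod_cast hb)
    have hbL' : (b' : LaurentSeries ℚ) ≠ 0 := by
      rw [← map_intCast (HahnSeries.C : ℚ →+* LaurentSeries ℚ) b']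
      exact HahnSeries.C_ne_zero (by exact_mod_cast hb')
    show (z : LaurentSeries ℚ) = evS ℓ s ((b' : ℤℓ[X]) * r') / evS ℓ s ((b : ℤℓ[X]) * t')
    rw [map_mul, map_mul, map_intCast, map_intCast, hr', ht', hz]
    by_cases ht0 : Polynomial.aeval (ιR ℓ s) t = 0
    · simp [ht0]
    · field_simp
  let O : ValuationSubring Kf := (gaussB ℓ).comap (algebraMap Kf (LaurentSeries ℚ))
  have hyB : y ∈ gaussB ℓ := by
    have := hg.unif _ (E.mul_mem (_root_.natCast_mem E ℓ) hyE) hy2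
    rwa [inv_mul_cancel_left₀ hℓ] at this
  have hyO : IsIntegral O y := by
    have h1 := hg.int y hyE hyB
    let φ : ↥((gaussB ℓ).toSubring ⊓ (ℚ⟮ιR ℓ s⟯).toSubring) →+* O :=
      { toFun := fun x => ⟨⟨x.1, x.2.2⟩, x.2.1⟩
        map_one' := rfl
        map_mul' := fun _ _ => rfl
        map_zero' := rfl
        map_add' := fun _ _ => rfl }
    exact h1.map_of_comp_eq φ (RingHom.id _) (by ext; rfl)
  have key : IsIntegral ℤℓ[X] y := by
    refine isIntegral_of_smul_of_valuationSubring (Kf := Kf) O ((ℓ : ℕ) : ℤℓ[X]) ?_ ?_ y ?_ hyO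
    · exact_mod_cast (Fact.out : ℓ.Prime).ne_zero
    · intro c i hc
      apply pow_dvd_of_evS_div_mem ℓ s htr
      have : (algebraMap Kf (LaurentSeries ℚ))
          (algebraMap ℤℓ[X] Kf c / (algebraMap ℤℓ[X] Kf ((ℓ : ℕ) : ℤℓ[X])) ^ i) ∈ gaussB ℓ := hc
      rw [map_div₀, map_pow, map_natCast, map_natCast] at this
      exact this
    · have : ((ℓ : ℕ) : ℤℓ[X]) • y = ((ℓ : ℕ) : LaurentSeries ℚ) * y := by
        rw [Algebra.smul_def]
        congr 1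
        exact map_natCast _ _
      rw [this]
      exact hy1
  exact key

end Fermat.Agent.S28
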