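import Mathlib
import Fermat.Agent.S28.Good

set_option autoImplicit false
set_option linter.unusedSectionVars false
open ModularCurve ModularCurve.IgusaScheme Polynomial IntermediateField

noncomputable section

namespace Fermat.Agent.S28

variable (ℓ : ℕ) [Fact ℓ.Prime]

set_option quotPrecheck false in
local notation "ℤℓ" => ↥(GaloisRep.ratLocalizedAt ℓ)

theorem evS_mem_gaussB (s : LaurentSeries ℤℓ) (c : ℤℓ[X]) : evS ℓ s c ∈ gaussB ℓ :=
  ιR_mem_gaussB ℓ _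

/-- Elements integral over `ℤ_(ℓ)[s]` lie in the Gauss valuation ring. -/
theorem mem_gaussB_of_isIntegralElem (s : LaurentSeries ℤℓ) {x : LaurentSeries ℚ}
    (hx : (evS ℓ s).IsIntegralElem x) : x ∈ gaussB ℓ := by
  obtain ⟨p, hp, hroot⟩ := hx
  let evB : ℤℓ[X] →+* gaussB ℓ := (ιB ℓ).comp (evHat ℓ s)
  have hint : IsIntegral (gaussB ℓ) x := by
    refine ⟨p.map evB, hp.map _, ?_⟩
    rw [Polynomial.eval₂_map]
    exact hroot
  obtain ⟨y, hy⟩ := (isIntegrallyClosed_iff (LaurentSeries ℚ)).mp inferInstance hint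
  rw [← hy]
  exact y.2

/-- Reduction homomorphism out of any ring mapping to `𝔹` with residues in `𝔽_ℓ((q))`. -/
theorem exists_redHom {A' : Type*} [CommRing A'] (θ : A' →+* gaussB ℓ)
    (h : ∀ a, ∃ xb, gaussρ ℓ (θ a) = gaussι ℓ xb) :
    ∃ φ : A' →+* LaurentSeries (ZMod ℓ), ∀ a, gaussι ℓ (φ a) = gaussρ ℓ (θ a) := by
  let e : LaurentSeries (ZMod ℓ) ≃+* (gaussι ℓ).range :=
    RingEquiv.ofBijective (gaussι ℓ).rangeRestrict
      ⟨fun a b hab => gaussι_injective ℓ (congrArg Subtype.val hab),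
        (gaussι ℓ).rangeRestrict_surjective⟩
  let θ' : A' →+* (gaussι ℓ).range := ((gaussρ ℓ).comp θ).codRestrict (gaussι ℓ).range
    (fun a => by obtain ⟨xb, hxb⟩ := h a; exact ⟨xb, hxb.symm⟩)
  refine ⟨e.symm.toRingHom.comp θ', fun a => ?_⟩
  have : (e (e.symm (θ' a)) : gaussK ℓ) = gaussρ ℓ (θ a) := by
    rw [RingEquiv.apply_symm_apply]; rfl
  exact this

variable (N : ℕ) [NeZero N]

set_option quotPrecheck false in
local notation "F" => ↥(modularFunctionFieldFull N)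

/-- evaluation `ℤ_(ℓ)[X] → F` at `sF`. -/
def evF (sF : F) : ℤℓ[X] →+* F := (Polynomial.aeval (R := ℤℓ) sF).toRingHom

theorem coe_evF (sF : F) (s : LaurentSeries ℤℓ) (hs : (sF : LaurentSeries ℚ) = ιR ℓ s) (c : ℤℓ[X]) :
    ((evF ℓ N sF c : F) : LaurentSeries ℚ) = evS ℓ s c := by
  have : (algebraMap F (LaurentSeries ℚ)).comp (evF ℓ N sF) = evS ℓ s := by
    apply Polynomial.ringHom_ext
    · intro a
      show (((Polynomial.aeval (R := ℤℓ) sF) (Polynomial.C a) : F) : LaurentSeries ℚ) =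
        ιR ℓ (Polynomial.eval₂ HahnSeries.C s (Polynomial.C a))
      rw [Polynomial.aeval_C, Polynomial.eval₂_C]
      have h1 : ((algebraMap ℤℓ F a : F) : LaurentSeries ℚ) =
          algebraMap ℚ (LaurentSeries ℚ) (a : ℚ) := by
        rw [IsScalarTower.algebraMap_apply ℤℓ ℚ F, eq_ratCast, eq_ratCast]
        rfl
      rw [h1, algebraMap_laurentSeries_eq_single]
      exact (coeffMap_single (GaloisRep.ratLocalizedAt ℓ).subtype 0 a).symm
    · show (((Polynomial.aeval (R := ℤℓ) sF) Polynomial.X : F) : LaurentSeries ℚ) =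
        ιR ℓ (Polynomial.eval₂ HahnSeries.C s Polynomial.X)
      rw [Polynomial.aeval_X, Polynomial.eval₂_X, hs]
  exact congrFun (congrArg DFunLike.coe this) c

theorem evF_mem_adjoin (sF : F) (c : ℤℓ[X]) : evF ℓ N sF c ∈ Algebra.adjoin ℤℓ {sF} :=
  Polynomial.aeval_mem_adjoin_singleton ℤℓ sF

/-- `ℤ_(ℓ)[X] → ℤ_(ℓ)[sF]`. -/
def evAdj (sF : F) : ℤℓ[X] →+* Algebra.adjoin ℤℓ {sF} :=
  (evF ℓ N sF).codRestrict (Algebra.adjoin ℤℓ {sF}).toSubring (evF_mem_adjoin ℓ N sF)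

theorem evAdj_surjective (sF : F) : Function.Surjective (evAdj ℓ N sF) := by
  rintro ⟨x, hx⟩
  rw [Algebra.adjoin_singleton_eq_range_aeval] at hx
  obtain ⟨c, hc⟩ := hx
  exact ⟨c, Subtype.ext hc⟩

theorem mem_chartAlg_iff_isIntegralElem (sF : F) (s : LaurentSeries ℤℓ)
    (hs : (sF : LaurentSeries ℚ) = ιR ℓ s) (x : F) :
    x ∈ chartAlg N ℓ {sF} ↔ (evS ℓ s).IsIntegralElem (x : LaurentSeries ℚ) := by
  have hcomp : evS ℓ s = (algebraMap F (LaurentSeries ℚ)).comp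
      ((algebraMap (Algebra.adjoin ℤℓ {sF}) F).comp (evAdj ℓ N sF)) := by
    refine RingHom.ext fun c => ?_
    exact (coe_evF ℓ N sF s hs c).symm
  rw [mem_chartAlg_iff]
  constructor
  · rintro ⟨p, hp, hroot⟩
    have hlift : p ∈ Polynomial.lifts (evAdj ℓ N sF) := by
      rw [Polynomial.lifts_iff_coeff_lifts]
      intro i
      exact evAdj_surjective ℓ N sF _
    obtain ⟨q, hq, -, hqm⟩ := Polynomial.lifts_and_natDegree_eq_and_monic hlift hp
    refine ⟨q, hqm, ?_⟩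
    rw [hcomp, ← Polynomial.eval₂_map, ← Polynomial.map_map, hq, Polynomial.eval₂_map]
    have := congrArg (algebraMap F (LaurentSeries ℚ)) hroot
    rw [Polynomial.hom_eval₂, map_zero] at this
    exact this
  · rintro ⟨q, hqm, hroot⟩
    refine ⟨q.map (evAdj ℓ N sF), hqm.map _, ?_⟩
    apply (algebraMap F (LaurentSeries ℚ)).injective
    rw [map_zero, Polynomial.hom_eval₂, Polynomial.eval₂_map, RingHom.comp_assoc]
    rw [hcomp] at hroot
    exact hroot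

/-- **T4.** The reduction map on a chart, with kernel `(ℓ)`. -/
theorem exists_phi_chart (𝔣 : Subfield (LaurentSeries (ZMod ℓ))) (sF : F) (s : LaurentSeries ℤℓ)
    (hs : (sF : LaurentSeries ℚ) = ιR ℓ s) (htr : Transcendental (ZMod ℓ) (red ℓ s))
    (hg : Good ℓ (modularFunctionFieldFull N) 𝔣
      ((gaussB ℓ).toSubring ⊓ (ℚ⟮ιR ℓ s⟯).toSubring)) :
    ∃ φ : chartAlg N ℓ {sF} →+* LaurentSeries (ZMod ℓ),
      RingHom.ker φ = Ideal.span {((ℓ : ℕ) : chartAlg N ℓ {sF})} ∧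
      φ ⟨sF, subset_chartAlg N ℓ _ rfl⟩ = red ℓ s := by
  have hmemB : ∀ x : chartAlg N ℓ {sF}, ((x : F) : LaurentSeries ℚ) ∈ gaussB ℓ := fun x =>
    mem_gaussB_of_isIntegralElem ℓ s ((mem_chartAlg_iff_isIntegralElem ℓ N sF s hs x).mp x.2)
  let θ : chartAlg N ℓ {sF} →+* gaussB ℓ :=
    ((algebraMap F (LaurentSeries ℚ)).comp (algebraMap (chartAlg N ℓ {sF}) F)).codRestrict
      (gaussB ℓ).toSubring hmemB
  obtain ⟨φ, hφ⟩ := exists_redHom ℓ θ (fun a => by
    obtain ⟨xb, -, hxb⟩ := hg.res ((a : F) : LaurentSeries ℚ) (a : F).2 (hmemB a)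
    exact ⟨xb, hxb⟩)
  refine ⟨φ, le_antisymm ?_ ?_, ?_⟩
  · intro x hx
    rw [RingHom.mem_ker] at hx
    have h1 : gaussρ ℓ (θ x) = 0 := by rw [← hφ, hx, map_zero]
    rw [gaussρ_eq_zero_iff] at h1
    have h1' : ((x : F) : LaurentSeries ℚ) ∈ (gaussB ℓ).nonunits := h1
    have hℓF : ((ℓ : ℕ) : F) ≠ 0 := by exact_mod_cast (Fact.out : ℓ.Prime).ne_zero
    let y : F := ((ℓ : ℕ) : F)⁻¹ * (x : F)
    have hxy : ((ℓ : ℕ) : F) * y = x := mul_inv_cancel_left₀ hℓF _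
    have hxy' : ((ℓ : ℕ) : LaurentSeries ℚ) * (y : LaurentSeries ℚ) = ((x : F) : LaurentSeries ℚ) := by
      rw [← hxy]; simp
    have hy : y ∈ chartAlg N ℓ {sF} := by
      rw [mem_chartAlg_iff_isIntegralElem ℓ N sF s hs]
      apply isIntegralElem_of_good ℓ _ 𝔣 s htr hg _ y.2
      · rw [hxy']
        exact (mem_chartAlg_iff_isIntegralElem ℓ N sF s hs x).mp x.2
      · rw [hxy']; exact h1'
    rw [Ideal.mem_span_singleton]
    refine ⟨⟨y, hy⟩, Subtype.ext ?_⟩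
    rw [← hxy]
    simp
  · rw [Ideal.span_singleton_le_iff_mem, RingHom.mem_ker, map_natCast,
      ← map_natCast (HahnSeries.C : ZMod ℓ →+* LaurentSeries (ZMod ℓ)) ℓ, ZMod.natCast_self, map_zero]
  · apply gaussι_injective ℓ
    rw [hφ, gaussι_red]
    congr 1
    exact Subtype.ext hs

end Fermat.Agent.S28
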