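import Mathlib
import Fermat.Agent.S28.Chart
import Fermat.Agent.S28.Assemble
import Fermat.Prelude.Def_ModularCurve_X0ModL

set_option autoImplicit false
set_option linter.unusedSectionVars false
open ModularCurve ModularCurve.IgusaScheme Polynomial IntermediateField
open AlgebraicGeometry CategoryTheory CategoryTheory.Limits

noncomputable section

namespace Fermat.Agent.S28

/-- `j` is transcendental over the coefficient ring. -/
theorem transcendental_jqModC (K : Type*) [Field K] :
    Transcendental K (jqModC K) := by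
  rw [transcendental_iff]
  intro P hP
  by_contra hne
  have hcoef := congrArg (fun f => HahnSeries.coeff f (-(P.natDegree : ℤ))) hP
  simp only [HahnSeries.coeff_zero] at hcoef
  rw [Polynomial.aeval_eq_sum_range, HahnSeries.coeff_sum] at hcoef
  rw [Finset.sum_eq_single P.natDegree] at hcoef
  · rw [Algebra.smul_def, algebraMap_laurentSeries_eq_single, HahnSeries.coeff_single_zero_mul,
      coeff_jqModC_pow_self, mul_one] at hcoef
    exact hne (Polynomial.leadingCoeff_eq_zero.mp hcoef)
  · intro i hi hine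
    rw [Algebra.smul_def, algebraMap_laurentSeries_eq_single, HahnSeries.coeff_single_zero_mul,
      coeff_jqModC_pow_of_lt, mul_zero]
    have : i < P.natDegree := lt_of_le_of_ne (Nat.lt_succ_iff.mp (Finset.mem_range.mp hi)) hine
    omega
  · intro h
    exact absurd (Finset.mem_range.mpr (Nat.lt_succ_self _)) h

variable (ℓ : ℕ) [Fact ℓ.Prime]

set_option quotPrecheck false in
local notation "ℤℓ" => ↥(GaloisRep.ratLocalizedAt ℓ)

theorem ιR_jqModC : ιR ℓ (jqModC ℤℓ) = jq := coeffMap_jqModC _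

theorem red_jqModC : red ℓ (jqModC ℤℓ) = jqModC (ZMod ℓ) := coeffMap_jqModC _

/-- The inverse of `j` with integral coefficients. -/
def jInvModC (K : Type*) [CommRing K] : LaurentSeries K :=
  HahnSeries.single (1 : ℤ) 1 *
    HahnSeries.ofPowerSeries ℤ K ((jNum.map (Int.castRingHom K)).invOfUnit 1)

theorem jqModC_mul_jInvModC (K : Type*) [CommRing K] : jqModC K * jInvModC K = 1 := by
  rw [jqModC, jInvModC, mul_mul_mul_comm, HahnSeries.single_mul_single, ← map_mul,
    PowerSeries.mul_invOfUnit]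
  · simp
  · rw [← PowerSeries.coeff_zero_eq_constantCoeff_apply, PowerSeries.coeff_map,
      PowerSeries.coeff_zero_eq_constantCoeff_apply, constantCoeff_jNum]
    simp

theorem ιR_jInvModC : ιR ℓ (jInvModC ℤℓ) = jq⁻¹ := by
  have h := congrArg (ιR ℓ) (jqModC_mul_jInvModC ℤℓ)
  rw [map_mul, map_one, ιR_jqModC] at h
  exact eq_inv_of_mul_eq_one_right h

theorem red_jInvModC : red ℓ (jInvModC ℤℓ) = (jqModC (ZMod ℓ))⁻¹ := by
  have h := congrArg (red ℓ) (jqModC_mul_jInvModC ℤℓ)
  rw [map_mul, map_one, red_jqModC] at h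
  exact eq_inv_of_mul_eq_one_right h

theorem adjoin_jq_inv : ℚ⟮jq⁻¹⟯ = ℚ⟮jq⟯ := by
  apply le_antisymm
  · rw [IntermediateField.adjoin_simple_le_iff]
    exact inv_mem (IntermediateField.mem_adjoin_simple_self ℚ jq)
  · rw [IntermediateField.adjoin_simple_le_iff]
    have := inv_mem (IntermediateField.mem_adjoin_simple_self ℚ jq⁻¹)
    rwa [inv_inv] at this

variable (N : ℕ) [NeZero N]

/-- **Reduction of S28 to the valuation-theoretic statement `Good`.** -/
theorem isIntegral_pullback_of_good (𝔣 : Subfield (LaurentSeries (ZMod ℓ)))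
    (hg : Good ℓ (modularFunctionFieldFull N) 𝔣 ((gaussB ℓ).toSubring ⊓ (ℚ⟮jq⟯).toSubring))
    (K : Type) [Field K] [CharP K ℓ] [Algebra ℤℓ K] :
    IsIntegral ↑(pullback (igusaTo N ℓ)
      (Spec.map (CommRingCat.ofHom (algebraMap ℤℓ K)))) := by
  apply isIntegral_pullback_of_phi N ℓ
  · obtain ⟨φ, hker, hφ⟩ := exists_phi_chart ℓ N 𝔣 (jFull N) (jqModC ℤℓ) (ιR_jqModC ℓ).symm
      (by rw [red_jqModC]; exact transcendental_jqModC _) (by rw [ιR_jqModC]; exact hg)
    refine ⟨φ, hker, ?_⟩
    have : φ (jChartFin N ℓ) = red ℓ (jqModC ℤℓ) := hφ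
    rw [this, red_jqModC]
    exact jqModC_ne_zero_of_nontrivial _
  · obtain ⟨φ, hker, -⟩ := exists_phi_chart ℓ N 𝔣 (jFull N)⁻¹ (jInvModC ℤℓ)
      (by rw [ιR_jInvModC]; rfl)
      (by
        rw [red_jInvModC]
        intro h
        exact transcendental_jqModC (ZMod ℓ) (IsAlgebraic.inv_iff.mp h))
      (by rw [ιR_jInvModC, adjoin_jq_inv]; exact hg)
    exact ⟨φ, hker⟩

end Fermat.Agent.S28
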