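import Fermat.Agent.S28.BuildData

set_option autoImplicit false

open ModularCurve HahnSeries Polynomial

noncomputable section

namespace Fermat.Agent.S28

namespace Transfer

open Build

section Map

variable {A B : Type*} [CommRing A] [CommRing B] (f : A →+* B)

theorem map_map_evAt (x : LaurentSeries A) (P : Polynomial (Polynomial A)) :
    (P.map (evAt x)).map (coeffMap f) =
      (P.map (Polynomial.mapRingHom f)).map (evAt (coeffMap f x)) := by
  rw [Polynomial.map_map, Polynomial.map_map, coeffMap_comp_evAt]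

theorem coeffMap_eval_map (x y : LaurentSeries A) (P : Polynomial (Polynomial A)) :
    coeffMap f ((P.map (evAt x)).eval y) =
      ((P.map (Polynomial.mapRingHom f)).map (evAt (coeffMap f x))).eval (coeffMap f y) := by
  rw [← map_map_evAt, Polynomial.eval_map, Polynomial.eval_map, Polynomial.hom_eval₂,
    Polynomial.eval₂_map]

end Map

end Transfer

open Build Transfer in
/-- Transport of a modular-equation package along a ring homomorphism. -/
def ModEqData.map {A B : Type*} [CommRing A] [CommRing B] (f : A →+* B) {p : ℕ} [NeZero p]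
    (D : ModEqData A p) : ModEqData B p where
  ζ := Units.map (f : A →* B) D.ζ
  Φ := D.Φ.map (Polynomial.mapRingHom f)
  Ψ := D.Ψ.map (Polynomial.mapRingHom f)
  Λ := D.Λ.map (Polynomial.mapRingHom f)
  hΦ := by
    have h := congrArg (Polynomial.map (coeffMap f)) D.hΦ
    rw [map_map_evAt, coeffMap_V, coeffMap_J] at h
    rw [h, Polynomial.map_mul, Polynomial.map_prod]
    simp only [Polynomial.map_sub, Polynomial.map_X, Polynomial.map_C, coeffMap_V, coeffMap_J,
      coeffMap_scale, map_pow]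
  hΦmonic := D.hΦmonic.map _
  hΨmonic := D.hΨmonic.map _
  hΨ := by
    have h := congrArg (coeffMap f) D.hΨ
    rw [coeffMap_eval_map, coeffMap_J, coeffMap_uInf, map_zero] at h
    exact h
  hΛ := by
    have h := congrArg (coeffMap f) D.hΛ
    rw [map_mul, Polynomial.derivative_map, coeffMap_eval_map, coeffMap_eval_map, coeffMap_J,
      coeffMap_uInf, coeffMap_V, coeffMap_J, ← Polynomial.derivative_map,
      ← Polynomial.derivative_map] at h
    exact h

namespace Transfer

/-- the ring `ℤ[ζ_p] ⊆ ℂ` -/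
abbrev Oz (p : ℕ) : Type := ↥(Algebra.adjoin ℤ {Complex.exp (2 * Real.pi * Complex.I / p)})

theorem isIntegral_zeta (p : ℕ) [NeZero p] :
    IsIntegral ℤ (Complex.exp (2 * Real.pi * Complex.I / p)) :=
  (Complex.isPrimitiveRoot_exp p (NeZero.ne p)).isIntegral (Nat.pos_of_ne_zero (NeZero.ne p))

/-- a ring homomorphism `ℤ[ζ_p] → K` for every algebraically closed field `K` -/
theorem exists_ringHom (K : Type) [Field K] [IsAlgClosed K] (p : ℕ) [Fact p.Prime] [NeZero p] :
    Nonempty (Oz p →+* K) := by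
  have hprim := Complex.isPrimitiveRoot_exp p (NeZero.ne p)
  have hpos : 0 < p := Nat.pos_of_ne_zero (NeZero.ne p)
  have hmin : Polynomial.cyclotomic p ℤ = minpoly ℤ (Complex.exp (2 * Real.pi * Complex.I / p)) :=
    Polynomial.cyclotomic_eq_minpoly hprim hpos
  obtain ⟨r, hr⟩ := IsAlgClosed.exists_root (Polynomial.cyclotomic p K) (by
    rw [Polynomial.degree_cyclotomic]
    have : 0 < Nat.totient p := Nat.totient_pos.mpr hpos
    exact_mod_cast this.ne')
  have hr' : (minpoly ℤ (Complex.exp (2 * Real.pi * Complex.I / p))).eval₂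
      (Int.castRingHom K) r = 0 := by
    rw [← hmin, ← Polynomial.eval_map, Polynomial.map_cyclotomic_int]
    exact hr
  exact ⟨(AdjoinRoot.lift (Int.castRingHom K) r hr').comp
    (minpoly.equivAdjoin (isIntegral_zeta p)).symm.toRingEquiv.toRingHom⟩

instance isIntegral_Oz (p : ℕ) [NeZero p] : Algebra.IsIntegral ℤ (Oz p) :=
  Algebra.IsIntegral.adjoin (by
    intro x hx
    rw [Set.mem_singleton_iff] at hx
    rw [hx]
    exact isIntegral_zeta p)

open Build in
/-- Descent of an integral equation from `ℤ[ζ_p]((q))` to `ℤ((q))`. -/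
theorem exists_monic_descent (p : ℕ) [NeZero p] (x₀ y₀ : LaurentSeries ℤ)
    (Φ : Polynomial (Polynomial (Oz p))) (hΦ : Φ.Monic)
    (h : (Φ.map (evAt (coeffMap (Int.castRingHom (Oz p)) x₀))).eval
      (coeffMap (Int.castRingHom (Oz p)) y₀) = 0) :
    ∃ P : Polynomial (Polynomial ℤ), P.Monic ∧ (P.map (evAt x₀)).eval y₀ = 0 := by
  set ι : ℤ →+* Oz p := Int.castRingHom (Oz p) with hι
  set x := coeffMap ι x₀ with hx
  set y := coeffMap ι y₀ with hy
  let φ0 : Polynomial ℤ →+* LaurentSeries (Oz p) := (evAt x).comp (Polynomial.mapRingHom ι)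
  let _ : Algebra (Polynomial ℤ) (LaurentSeries (Oz p)) := φ0.toAlgebra
  have halg : algebraMap (Polynomial ℤ) (LaurentSeries (Oz p)) = φ0 := rfl
  have hC : ∀ a : Oz p, IsIntegral (Polynomial ℤ) (HahnSeries.C a : LaurentSeries (Oz p)) := by
    intro a
    obtain ⟨q, hq, hqa⟩ : IsIntegral ℤ a := Algebra.IsIntegral.isIntegral a
    refine ⟨q.map Polynomial.C, hq.map _, ?_⟩
    rw [Polynomial.eval₂_map]
    have h1 : (algebraMap (Polynomial ℤ) (LaurentSeries (Oz p))).comp Polynomial.C =
        (HahnSeries.C : Oz p →+* LaurentSeries (Oz p)).comp (algebraMap ℤ (Oz p)) := by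
      ext n
      simp [halg, φ0]
    rw [h1, ← Polynomial.hom_eval₂, hqa, map_zero]
  have hxi : IsIntegral (Polynomial ℤ) x := by
    have h1 : x = algebraMap (Polynomial ℤ) (LaurentSeries (Oz p)) Polynomial.X := by
      simp [halg, φ0]
    rw [h1]
    exact isIntegral_algebraMap
  have h1 : ∀ Q : Polynomial (Oz p), IsIntegral (Polynomial ℤ) (evAt x Q) := by
    intro Q
    rw [evAt_apply, Polynomial.eval₂_eq_sum_range]
    exact IsIntegral.sum _ fun i _ => (hC _).mul (hxi.pow i)
  have hyi : IsIntegral (Polynomial ℤ) y := by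
    refine IsIntegral.of_aeval_monic_of_isIntegral_coeff (p := Φ.map (evAt x)) (hΦ.map _) ?_
      (by rw [h]; exact isIntegral_zero) (fun i => by rw [Polynomial.coeff_map]; exact h1 _)
    intro hdeg
    have h2 : Φ.map (evAt x) = 1 := (hΦ.map (evAt x)).natDegree_eq_zero.mp hdeg
    rw [h2, Polynomial.eval_one] at h
    exact one_ne_zero h
  obtain ⟨P, hP, hPy⟩ := hyi
  refine ⟨P, hP, ?_⟩
  apply coeffMap_injective ι Int.cast_injective
  rw [coeffMap_eval_map, map_zero, Polynomial.eval_map, Polynomial.eval₂_map]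
  exact hPy

end Transfer

theorem exists_modEqData (K : Type) [Field K] [IsAlgClosed K] (p : ℕ) [Fact p.Prime] [NeZero p] :
    Nonempty (ModEqData K p) := by
  obtain ⟨D⟩ := exists_modEqData_adjoin p
  obtain ⟨f⟩ := Transfer.exists_ringHom K p
  exact ⟨D.map f⟩

open Build Transfer in
theorem exists_monic_J_over_VJ (p : ℕ) [Fact p.Prime] [NeZero p] :
    ∃ P : Polynomial (Polynomial ℤ), P.Monic ∧ (P.map (evAt (V ℤ p (J ℤ)))).eval (J ℤ) = 0 := by
  obtain ⟨D⟩ := exists_modEqData_adjoin p
  refine exists_monic_descent p _ _ D.Φ D.hΦmonic ?_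
  rw [coeffMap_V, coeffMap_J, D.hΦ, Polynomial.eval_mul, Polynomial.eval_prod]
  have h0 : 0 ∈ Finset.range p := Finset.mem_range.mpr (Nat.pos_of_ne_zero (NeZero.ne p))
  rw [Finset.prod_eq_zero h0 (by simp), mul_zero]

open Build Transfer in
theorem exists_monic_VJ_over_J (p : ℕ) [Fact p.Prime] [NeZero p] :
    ∃ P : Polynomial (Polynomial ℤ), P.Monic ∧ (P.map (evAt (J ℤ))).eval (V ℤ p (J ℤ)) = 0 := by
  obtain ⟨D⟩ := exists_modEqData_adjoin p
  refine exists_monic_descent p _ _ D.Φ D.hΦmonic ?_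
  rw [coeffMap_V, coeffMap_J]
  apply qExpand_injective (R := Oz p) (N := p)
  have h1 : (D.Φ.map (evAt (V (Oz p) p (J (Oz p))))).eval (V (Oz p) p (V (Oz p) p (J (Oz p)))) = 0 := by
    rw [D.hΦ, Polynomial.eval_mul]
    simp
  rw [map_zero, ← h1, ← V_comp_evAt, ← Polynomial.map_map, Polynomial.eval_map,
    Polynomial.eval_map, Polynomial.hom_eval₂, Polynomial.eval₂_map]

end Fermat.Agent.S28
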