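import Fermat.Agent.S28.DegreeTower

set_option autoImplicit false
noncomputable section

namespace Fermat.Agent.S28

open ModularCurve Polynomial
open scoped IntermediateField

variable {K : Type*} [Field K]

theorem T_mul_of_not_dvd {N p : ℕ} (hp : p.Prime) [NeZero p] (hN : N ≠ 0) (Dp : ModEqData K p)
    (hD : HasData K N) (hU : V K p (J K) ∉ K⟮J K⟯) (hpN : ¬ p ∣ N) (hT : 0 < T K N) :
    T K (N * p) = T K N * (p + 1) := by
  have : NeZero N := ⟨hN⟩
  rw [T_mul hp hN Dp hD]
  congr 1
  refine natDegree_minpoly_J_of_not_mem Dp _ jd_p_mem_EV EV_range hp.two_le ?_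
  intro hmem
  -- then `T (N p) = T N * p`
  have hTp : T K (N * p) = T K N * p := by
    rw [T_mul hp hN Dp hD, natDegree_minpoly_J_of_mem Dp _ jd_p_mem_EV EV_range hp.two_le hmem]
  -- `j_p ∈ F_N`
  have hjp : jd K p ∈ modularFunctionFieldFullC K N := by
    rw [← V_jd p hp.ne_zero] at hmem
    exact mem_of_Va_mem_map p _ hmem
  -- `F_{Np} ≤ F_N`
  have hle : modularFunctionFieldFullC K (N * p) ≤ modularFunctionFieldFullC K N := by
    rw [full_le_iff]
    intro d hd0 hd
    by_cases hpd : p ∣ d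
    · obtain ⟨d', rfl⟩ := hpd
      have hd'0 : d' ≠ 0 := by
        rintro rfl
        exact hd0 (mul_zero _)
      have hd'N : d' ∣ N := by
        rw [mul_comm N p] at hd
        exact Nat.dvd_of_mul_dvd_mul_left hp.pos hd
      rw [mul_comm]
      exact gen_high hp hpN Dp hD _ hjp (fun d hd hdN => jd_mem_full hd hdN) d' hd'0 hd'N
    · exact jd_mem_full hd0 (Nat.Coprime.dvd_of_dvd_mul_right
        ((Nat.Prime.coprime_iff_not_dvd hp).mpr hpd).symm hd)
  -- the degree count
  set F' := modularFunctionFieldFullC K (N * p) with hF'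
  set M : IntermediateField K (LaurentSeries K) := K⟮jd K N⟯ ⊔ K⟮jd K (N * p)⟯ with hM
  have hNmem : jd K N ∈ F' := jd_mem_full hN (dvd_mul_right _ _)
  have hNpmem : jd K (N * p) ∈ F' := jd_mem_full (mul_ne_zero hN hp.ne_zero) dvd_rfl
  have hMF : M ≤ F' := sup_le (IntermediateField.adjoin_simple_le_iff.mpr hNmem)
    (IntermediateField.adjoin_simple_le_iff.mpr hNpmem)
  have e1 : (K⟮jd K (N * p)⟯).relfinrank M = p + 1 := by
    have := relfinrank_low hp Dp hU
    rw [← IntermediateField.relfinrank_map_map _ _ (Va N), IntermediateField.map_sup,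
      map_adjoin_jd N hp.ne_zero, ← jd_one, map_adjoin_jd N one_ne_zero, mul_one, sup_comm] at this
    exact this
  have e2 : (K⟮jd K N⟯).relfinrank M = p + 1 := by
    have := relfinrank_high hp Dp hU
    rw [← IntermediateField.relfinrank_map_map _ _ (Va N), IntermediateField.map_sup,
      map_adjoin_jd N hp.ne_zero, ← jd_one, map_adjoin_jd N one_ne_zero, mul_one] at this
    exact this
  have c1 : T K (N * p) = (p + 1) * M.relfinrank F' := by
    rw [T, ← IntermediateField.relfinrank_mul_relfinrank (le_sup_right : _ ≤ M) hMF, e1]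
  have c2 : (K⟮jd K N⟯).relfinrank F' = (p + 1) * M.relfinrank F' := by
    rw [← IntermediateField.relfinrank_mul_relfinrank (le_sup_left : _ ≤ M) hMF, e2]
  have c3 : (K⟮jd K N⟯).relfinrank F' = T K N := by
    have hNF : K⟮jd K N⟯ ≤ modularFunctionFieldFullC K N :=
      IntermediateField.adjoin_simple_le_iff.mpr (jd_mem_full hN dvd_rfl)
    have hFF : modularFunctionFieldFullC K N ≤ F' := by
      have : NeZero (N * p) := ⟨mul_ne_zero hN hp.ne_zero⟩
      exact full_degeneracyC_le K (dvd_mul_right N p)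
    rw [← IntermediateField.relfinrank_mul_relfinrank hNF hFF,
      IntermediateField.relfinrank_eq_one_iff.mpr hle, mul_one, T]
  have : T K N * p = T K N * 1 := by rw [mul_one, ← hTp, c1, ← c2, c3]
  have := Nat.eq_of_mul_eq_mul_left hT this
  exact absurd this hp.one_lt.ne'

/-- The full hypothesis at level `N`. -/
def HasDataU (K : Type*) [Field K] (N : ℕ) : Prop :=
  ∀ r : ℕ, r.Prime → r ∣ N → ∀ [NeZero r], Nonempty (ModEqData K r) ∧ V K r (J K) ∉ K⟮J K⟯

theorem HasDataU.hasData {N : ℕ} (h : HasDataU K N) : HasData K N :=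
  fun r hr hrN => (h r hr hrN).1

theorem HasDataU.of_dvd {M N : ℕ} (h : HasDataU K N) (hMN : M ∣ N) : HasDataU K M :=
  fun r hr hrM => h r hr (hrM.trans hMN)

theorem exists_T (N : ℕ) : N ≠ 0 → ∃ c : ℕ, 0 < c ∧
    ∀ (K : Type) [Field K], HasDataU K N → T K N = c := by
  induction N using induction_on_primes with
  | zero => intro h; exact absurd rfl h
  | one => intro _; exact ⟨1, one_pos, fun K _ _ => T_one⟩
  | prime_mul p a hp ih =>
    intro hpa
    have ha : a ≠ 0 := right_ne_zero_of_mul hpa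
    obtain ⟨c, hc, hK⟩ := ih ha
    have : NeZero p := ⟨hp.ne_zero⟩
    by_cases hpd : p ∣ a
    · refine ⟨c * p, Nat.mul_pos hc hp.pos, fun K _ hD => ?_⟩
      obtain ⟨⟨Dp⟩, -⟩ := hD p hp (dvd_mul_right _ _)
      have hDa := hD.of_dvd (dvd_mul_left a p)
      rw [mul_comm p a, T_mul_of_dvd hp ha Dp hDa.hasData hpd, hK K hDa]
    · refine ⟨c * (p + 1), Nat.mul_pos hc (Nat.succ_pos _), fun K _ hD => ?_⟩
      obtain ⟨⟨Dp⟩, hU⟩ := hD p hp (dvd_mul_right _ _)
      have hDa := hD.of_dvd (dvd_mul_left a p)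
      rw [mul_comm p a, T_mul_of_not_dvd hp ha Dp hDa.hasData hU hpd (by rw [hK K hDa]; exact hc),
        hK K hDa]

/-- WP-D, with the unit statement (U) as a hypothesis. -/
theorem exists_degree' (N : ℕ) [NeZero N] : ∃ c : ℕ, 0 < c ∧
    ∀ (K : Type) [Field K],
      (∀ p : ℕ, p.Prime → p ∣ N → ∀ [NeZero p],
        Nonempty (ModEqData K p) ∧ V K p (J K) ∉ K⟮J K⟯) →
      (K⟮V K N (J K)⟯).relfinrank (modularFunctionFieldFullC K N) = c := by
  obtain ⟨c, hc, h⟩ := exists_T N (NeZero.ne N)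
  refine ⟨c, hc, fun K _ hD => ?_⟩
  have := h K hD
  rwa [T, jd_eq] at this

end Fermat.Agent.S28
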