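import Fermat.Statements.S28

set_option autoImplicit false
noncomputable section

namespace Fermat.Agent.S28

open ModularCurve HahnSeries Polynomial

section Scale

variable {A : Type*} [CommRing A]

/-- The underlying function of the substitution `q ↦ c q` on Laurent series. -/
def scaleFun (c : Aˣ) (x : LaurentSeries A) : LaurentSeries A where
  coeff n := ((c ^ n : Aˣ) : A) * x.coeff n
  isPWO_support' := x.isPWO_support.mono (by
    intro n hn
    simp only [Function.mem_support, ne_eq] at hn
    simp only [HahnSeries.mem_support, ne_eq]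
    intro h
    exact hn (by rw [h, mul_zero]))

@[simp] theorem scaleFun_coeff (c : Aˣ) (x : LaurentSeries A) (n : ℤ) :
    (scaleFun c x).coeff n = ((c ^ n : Aˣ) : A) * x.coeff n := rfl

theorem scaleFun_support (c : Aˣ) (x : LaurentSeries A) :
    (scaleFun c x).support = x.support := by
  ext n
  simp only [HahnSeries.mem_support, scaleFun_coeff, ne_eq]
  exact not_congr (Units.mul_right_eq_zero _)

/-- The substitution `q ↦ c q` on Laurent series, as a ring homomorphism. -/
def scale (c : Aˣ) : LaurentSeries A →+* LaurentSeries A where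
  toFun := scaleFun c
  map_zero' := by ext n; simp
  map_one' := by
    ext n
    rw [scaleFun_coeff, HahnSeries.coeff_one]
    split_ifs with h
    · subst h; simp
    · simp
  map_add' x y := by ext n; simp [mul_add]
  map_mul' x y := by
    ext n
    rw [scaleFun_coeff, HahnSeries.coeff_mul,
      HahnSeries.coeff_mul_left' (x := scaleFun c x) x.isPWO_support (scaleFun_support c x).le,
      Finset.mul_sum]
    rw [show (Finset.antidiagonal x.isPWO_support (scaleFun c y).isPWO_support n)
        = Finset.antidiagonal x.isPWO_support y.isPWO_support n from by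
      ext ij
      simp only [Finset.mem_antidiagonal, scaleFun_support]]
    refine Finset.sum_congr rfl fun ij hij => ?_
    have h : ij.1 + ij.2 = n := (Finset.mem_antidiagonal.mp hij).2.2
    rw [scaleFun_coeff, scaleFun_coeff, ← h, zpow_add, Units.val_mul]
    ring

@[simp] theorem scale_coeff (c : Aˣ) (x : LaurentSeries A) (n : ℤ) :
    (scale c x).coeff n = ((c ^ n : Aˣ) : A) * x.coeff n := rfl

@[simp] theorem scale_one (x : LaurentSeries A) : scale (1 : Aˣ) x = x := by
  ext n; simp

theorem scale_injective (c : Aˣ) : Function.Injective (scale c : LaurentSeries A → _) := by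
  intro x y h
  ext n
  have := congrArg (fun z => z.coeff n) h
  simpa using this

end Scale

section Formal

variable (A : Type*) [CommRing A]

/-- `V n : q ↦ q ^ n` on Laurent series (Prelude's `qExpand`). -/
abbrev V (n : ℕ) [NeZero n] : LaurentSeries A →+* LaurentSeries A := qExpand A n

/-- The formal `j`-invariant over `A` (Prelude's `jqModC`). -/
abbrev J : LaurentSeries A := jqModC A

/-- The formal discriminant `Δ = q ∏ (1 - q^n)^24` over `A`. -/
def deltaC : LaurentSeries A :=
  HahnSeries.single (1 : ℤ) 1 *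
    HahnSeries.ofPowerSeries ℤ A (dedekindEtaUnit.map (Int.castRingHom A))

/-- The formal inverse discriminant `Δ⁻¹` over `A`. -/
def deltaInvC : LaurentSeries A :=
  HahnSeries.single (-1 : ℤ) 1 *
    HahnSeries.ofPowerSeries ℤ A (dedekindEtaUnitInv.map (Int.castRingHom A))

/-- The modular unit `p^12 Δ(q^p) / Δ(q)` over `A`. -/
def uInf (p : ℕ) [NeZero p] : LaurentSeries A :=
  HahnSeries.C ((p : A) ^ 12) * (V A p (deltaC A) * deltaInvC A)

variable {A}

/-- Evaluate a polynomial with coefficients in `A` at a Laurent series. -/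
def evAt (x : LaurentSeries A) : Polynomial A →+* LaurentSeries A :=
  Polynomial.eval₂RingHom HahnSeries.C x

end Formal

/-- The modular-equation package of prime level `p` over a commutative ring `A`:
* `Φ(X, j(q^p)) = (X - j(q^{p^2})) ∏_b (X - j(ζ^b q))`,
* `Ψ` monic with `Ψ(u, j) = 0` for `u = p^12 Δ(q^p)/Δ(q)`,
* `u * (∂_X Φ)(j(q^p), j(q)) = Λ(j(q^p), j(q))`. -/
structure ModEqData (A : Type*) [CommRing A] (p : ℕ) [NeZero p] where
  ζ : Aˣ
  Φ : Polynomial (Polynomial A)
  Ψ : Polynomial (Polynomial A)
  Λ : Polynomial (Polynomial A)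
  hΦ : Φ.map (evAt (V A p (J A))) =
    (X - Polynomial.C (V A p (V A p (J A)))) *
      ∏ b ∈ Finset.range p, (X - Polynomial.C (scale (ζ ^ b) (J A)))
  hΦmonic : Φ.Monic
  hΨmonic : Ψ.Monic
  hΨ : (Ψ.map (evAt (J A))).eval (uInf A p) = 0
  hΛ : uInf A p * (derivative (Φ.map (evAt (J A)))).eval (V A p (J A)) =
    (Λ.map (evAt (J A))).eval (V A p (J A))

section Base

variable (ℓ : ℕ)

/-- `ℤ_(ℓ)`. -/
abbrev Rl : Type := ↥(GaloisRep.ratLocalizedAt ℓ)

/-- The residue ring `ℤ_(ℓ)/ℓ` (a field when `ℓ` is prime). -/
abbrev kl : Type := Rl ℓ ⧸ Ideal.span {((ℓ : ℕ) : Rl ℓ)}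

end Base

end Fermat.Agent.S28
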