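import Fermat.Agent.S28.Reduce
import Fermat.Agent.S28.Defs

set_option autoImplicit false
set_option linter.unusedSectionVars false
noncomputable section

namespace Fermat.Agent.S28

open ModularCurve Polynomial
open scoped IntermediateField

variable (ℓ : ℕ) [Fact ℓ.Prime]

set_option quotPrecheck false in
local notation "ℤℓ" => ↥(GaloisRep.ratLocalizedAt ℓ)

/-- A nonzero polynomial over `ℤ_(ℓ)` is a power of `ℓ` times a polynomial not divisible by `ℓ`. -/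
theorem exists_eq_pow_mul_not_dvd (G : ℤℓ[X]) (hG : G ≠ 0) :
    ∃ (n : ℕ) (G' : ℤℓ[X]), G = ((ℓ : ℕ) : ℤℓ[X]) ^ n * G' ∧ ¬ ((ℓ : ℕ) : ℤℓ[X]) ∣ G' := by
  have hfin : FiniteMultiplicity ((ℓ : ℕ) : ℤℓ[X]) G := by
    by_contra h
    apply hG
    apply eq_zero_of_forall_pow_dvd ℓ
    intro i
    by_contra hi
    apply h
    refine ⟨i, fun hd => hi ((pow_dvd_pow _ (Nat.le_succ i)).trans hd)⟩
  exact ⟨_, hfin.exists_eq_pow_mul_and_not_dvd⟩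

theorem evS_not_mem_nonunits (t : LaurentSeries ℤℓ) (htr : Transcendental (ZMod ℓ) (red ℓ t))
    (G : ℤℓ[X]) (hG : ¬ ((ℓ : ℕ) : ℤℓ[X]) ∣ G) : evS ℓ t G ∉ (gaussB ℓ).nonunits :=
  fun h => hG (natCast_dvd_of_evS_mem_nonunits ℓ t htr G h)

theorem evS_inv_mem (t : LaurentSeries ℤℓ) (htr : Transcendental (ZMod ℓ) (red ℓ t))
    (G : ℤℓ[X]) (hG : ¬ ((ℓ : ℕ) : ℤℓ[X]) ∣ G) : (evS ℓ t G)⁻¹ ∈ gaussB ℓ := by
  have h := evS_not_mem_nonunits ℓ t htr G hG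
  rw [ValuationSubring.mem_nonunits_iff, not_lt] at h
  rw [← ValuationSubring.valuation_le_one_iff, map_inv₀]
  exact inv_le_one_of_one_le₀ h

theorem evS_ne_zero (t : LaurentSeries ℤℓ) (htr : Transcendental (ZMod ℓ) (red ℓ t))
    (G : ℤℓ[X]) (hG : ¬ ((ℓ : ℕ) : ℤℓ[X]) ∣ G) : evS ℓ t G ≠ 0 := by
  intro h
  apply hG
  have : G = 0 := evS_injective ℓ t htr (by rw [h, map_zero])
  rw [this]
  exact dvd_zero _

/-- Every element of `ℚ(t)` is a quotient of values of polynomials over `ℤ_(ℓ)`. -/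
theorem exists_evS_div (t : LaurentSeries ℤℓ) (d : LaurentSeries ℚ) (hd : d ∈ ℚ⟮ιR ℓ t⟯) :
    ∃ G H : ℤℓ[X], d = evS ℓ t G / evS ℓ t H := by
  obtain ⟨r, s, hz⟩ := (IntermediateField.mem_adjoin_simple_iff ℚ d).mp hd
  obtain ⟨b, r', hb, hr'⟩ := exists_evS_eq_smul_aeval ℓ t r
  obtain ⟨b', s', hb', hs'⟩ := exists_evS_eq_smul_aeval ℓ t s
  refine ⟨(b' : ℤℓ[X]) * r', (b : ℤℓ[X]) * s', ?_⟩
  have hbL : (b : LaurentSeries ℚ) ≠ 0 := by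
    rw [← map_intCast (HahnSeries.C : ℚ →+* LaurentSeries ℚ) b]
    exact HahnSeries.C_ne_zero (by exact_mod_cast hb)
  have hbL' : (b' : LaurentSeries ℚ) ≠ 0 := by
    rw [← map_intCast (HahnSeries.C : ℚ →+* LaurentSeries ℚ) b']
    exact HahnSeries.C_ne_zero (by exact_mod_cast hb')
  rw [map_mul, map_mul, map_intCast, map_intCast, hr', hs', hz]
  by_cases ht0 : Polynomial.aeval (ιR ℓ t) s = 0
  · simp [ht0]
  · field_simp

theorem pow_natCast_mem_nonunits {n : ℕ} (hn : n ≠ 0) :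
    ((ℓ : ℕ) : LaurentSeries ℚ) ^ n ∈ (gaussB ℓ).nonunits := by
  have h := natCast_mem_nonunits ℓ
  rw [ValuationSubring.mem_nonunits_iff] at h ⊢
  rw [map_pow]
  exact pow_lt_one₀ zero_le h hn

/-- Normal form of the elements of `𝔹 ∩ ℚ(t)`. -/
theorem exists_normal_form (t : LaurentSeries ℤℓ) (htr : Transcendental (ZMod ℓ) (red ℓ t))
    (d : LaurentSeries ℚ) (hd : d ∈ ℚ⟮ιR ℓ t⟯) (hB : d ∈ gaussB ℓ) :
    ∃ g h : ℤℓ[X], ¬ ((ℓ : ℕ) : ℤℓ[X]) ∣ h ∧ d * evS ℓ t h = evS ℓ t g := by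
  have hℓ := natCast_ne_zero' ℓ
  have h1 : ¬ ((ℓ : ℕ) : ℤℓ[X]) ∣ 1 := by
    intro h
    have h2 := evS_not_mem_nonunits ℓ t htr
    have : evS ℓ t 1 ∈ (gaussB ℓ).nonunits := by
      obtain ⟨c, hc⟩ := h
      rw [hc, map_mul, evS_natCast]
      exact mul_mem_nonunits ℓ (natCast_mem_nonunits ℓ) (evS_mem_gaussB ℓ t c)
    rw [map_one, ValuationSubring.mem_nonunits_iff, map_one] at this
    exact lt_irrefl _ this
  obtain ⟨G, H, hGH⟩ := exists_evS_div ℓ t d hd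
  by_cases hG : G = 0
  · refine ⟨0, 1, h1, ?_⟩
    rw [hGH, hG]; simp
  by_cases hH : H = 0
  · refine ⟨0, 1, h1, ?_⟩
    rw [hGH, hH]; simp
  obtain ⟨a, G', rfl, hG'⟩ := exists_eq_pow_mul_not_dvd ℓ G hG
  obtain ⟨b, H', rfl, hH'⟩ := exists_eq_pow_mul_not_dvd ℓ H hH
  have hH0 := evS_ne_zero ℓ t htr H' hH'
  have hG0 := evS_ne_zero ℓ t htr G' hG'
  rw [map_mul, map_mul, map_pow, map_pow, evS_natCast] at hGH
  rcases le_or_gt b a with hab | hab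
  · refine ⟨((ℓ : ℕ) : ℤℓ[X]) ^ (a - b) * G', H', hH', ?_⟩
    rw [hGH, map_mul, map_pow, evS_natCast]
    obtain ⟨k, rfl⟩ := Nat.exists_eq_add_of_le hab
    rw [Nat.add_sub_cancel_left, pow_add]
    field_simp
  · exfalso
    obtain ⟨k, rfl⟩ := Nat.exists_eq_add_of_lt hab
    have h2 : ((ℓ : ℕ) : LaurentSeries ℚ) ^ (k + 1) * (d * evS ℓ t H') = evS ℓ t G' := by
      rw [hGH, show a + k + 1 = a + (k + 1) from by ring, pow_add]
      field_simp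
      ring
    apply evS_not_mem_nonunits ℓ t htr G' hG'
    rw [← h2]
    exact mul_mem_nonunits ℓ (pow_natCast_mem_nonunits ℓ (Nat.succ_ne_zero k))
      (mul_mem hB (evS_mem_gaussB ℓ t H'))

theorem map_resZ_ne_zero (h : ℤℓ[X]) (hh : ¬ ((ℓ : ℕ) : ℤℓ[X]) ∣ h) : h.map (resZ ℓ) ≠ 0 := by
  intro h0
  apply hh
  rw [← Polynomial.C_eq_natCast, Polynomial.C_dvd_iff_dvd_coeff]
  intro i
  have : resZ ℓ (h.coeff i) = 0 := by
    rw [← Polynomial.coeff_map, h0, Polynomial.coeff_zero]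
  obtain ⟨y, hy⟩ := exists_eq_mul_of_resZ_eq_zero ℓ this
  exact ⟨y, hy⟩

theorem exists_res_of_mem_adjoin (t : LaurentSeries (Rl ℓ)) (htr : Transcendental (ZMod ℓ) (red ℓ t))
    (d : LaurentSeries ℚ) (hd : d ∈ ℚ⟮ιR ℓ t⟯) (hB : d ∈ gaussB ℓ) :
    ∃ δ ∈ (ZMod ℓ)⟮red ℓ t⟯, gaussρ ℓ ⟨d, hB⟩ = gaussι ℓ δ := by
  obtain ⟨g, h, hh, hgh⟩ := exists_normal_form ℓ t htr d hd hB
  have hmem : ∀ c : ℤℓ[X], red ℓ (evHat ℓ t c) ∈ (ZMod ℓ)⟮red ℓ t⟯ := by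
    intro c
    rw [red_evHat]
    exact IntermediateField.algebra_adjoin_le_adjoin _ _
      (Polynomial.aeval_mem_adjoin_singleton _ _)
  have hne : red ℓ (evHat ℓ t h) ≠ 0 := by
    rw [red_evHat]
    intro h0
    exact map_resZ_ne_zero ℓ h hh ((transcendental_iff.mp htr) _ h0)
  refine ⟨red ℓ (evHat ℓ t g) / red ℓ (evHat ℓ t h), div_mem (hmem g) (hmem h), ?_⟩
  have h1 : (⟨d, hB⟩ : gaussB ℓ) * ιB ℓ (evHat ℓ t h) = ιB ℓ (evHat ℓ t g) := Subtype.ext hgh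
  have h2 := congrArg (gaussρ ℓ) h1
  rw [map_mul, ← gaussι_red, ← gaussι_red] at h2
  rw [map_div₀, eq_div_iff ((_root_.map_ne_zero _).mpr hne)]
  exact h2

theorem inv_natCast_mul_mem (t : LaurentSeries (Rl ℓ)) (htr : Transcendental (ZMod ℓ) (red ℓ t))
    (d : LaurentSeries ℚ) (hd : d ∈ ℚ⟮ιR ℓ t⟯) (hB : d ∈ (gaussB ℓ).nonunits) :
    ((ℓ : ℕ) : LaurentSeries ℚ)⁻¹ * d ∈ gaussB ℓ := by
  have hℓ := natCast_ne_zero' ℓ
  have hB' : d ∈ gaussB ℓ := (gaussB ℓ).nonunits_subset hB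
  obtain ⟨g, h, hh, hgh⟩ := exists_normal_form ℓ t htr d hd hB'
  have h1 : evS ℓ t g ∈ (gaussB ℓ).nonunits := by
    rw [← hgh]
    exact mul_mem_nonunits ℓ hB (evS_mem_gaussB ℓ t h)
  obtain ⟨g', rfl⟩ := natCast_dvd_of_evS_mem_nonunits ℓ t htr g h1
  have hh0 := evS_ne_zero ℓ t htr h hh
  have h2 : ((ℓ : ℕ) : LaurentSeries ℚ)⁻¹ * d = evS ℓ t g' * (evS ℓ t h)⁻¹ := by
    rw [map_mul, evS_natCast] at hgh
    field_simp
    rw [hgh]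
  rw [h2]
  exact mul_mem (evS_mem_gaussB ℓ t g') (evS_inv_mem ℓ t htr h hh)

theorem mem_nonunits_of_sum_mem_aux (t : LaurentSeries (Rl ℓ))
    (htr : Transcendental (ZMod ℓ) (red ℓ t))
    {ι : Type} [Fintype ι] (b : ι → LaurentSeries (Rl ℓ))
    (hind : LinearIndependent (ZMod ℓ)⟮red ℓ t⟯ (fun i => red ℓ (b i)))
    (c : ι → LaurentSeries ℚ) (hc : ∀ i, c i ∈ ℚ⟮ιR ℓ t⟯) (hcB : ∀ i, c i ∈ gaussB ℓ)
    (hx : ∑ i, c i * ιR ℓ (b i) ∈ (gaussB ℓ).nonunits) : ∀ i, c i ∈ (gaussB ℓ).nonunits := by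
  have h2 : ∀ i, ∃ δ ∈ (ZMod ℓ)⟮red ℓ t⟯, gaussρ ℓ ⟨c i, hcB i⟩ = gaussι ℓ δ :=
    fun i => exists_res_of_mem_adjoin ℓ t htr _ (hc i) (hcB i)
  choose δ hδmem hδ using h2
  have hxB : ∑ i, c i * ιR ℓ (b i) ∈ gaussB ℓ := (gaussB ℓ).nonunits_subset hx
  have h3 : (⟨∑ i, c i * ιR ℓ (b i), hxB⟩ : gaussB ℓ) = ∑ i, ⟨c i, hcB i⟩ * ιB ℓ (b i) := by
    apply Subtype.ext
    push_cast
    rfl
  have h4 : gaussρ ℓ ⟨∑ i, c i * ιR ℓ (b i), hxB⟩ = 0 := (gaussρ_eq_zero_iff ℓ _).mpr hx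
  have h5 : gaussι ℓ (∑ i, δ i * red ℓ (b i)) = 0 := by
    rw [← h4, h3, map_sum, map_sum]
    refine Finset.sum_congr rfl fun i _ => ?_
    rw [map_mul, map_mul, hδ, gaussι_red]
  have h6 : ∑ i, δ i * red ℓ (b i) = 0 := gaussι_injective ℓ (by rw [h5, map_zero])
  have h7 := (Fintype.linearIndependent_iff.mp hind) (fun i => ⟨δ i, hδmem i⟩) h6
  intro i
  rw [← gaussρ_eq_zero_iff ℓ ⟨c i, hcB i⟩, hδ]
  have := congrArg Subtype.val (h7 i)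
  simp only at this
  rw [this]
  simp

theorem mem_gaussB_of_sum_mem (t : LaurentSeries (Rl ℓ)) (htr : Transcendental (ZMod ℓ) (red ℓ t))
    {ι : Type} [Fintype ι] (b : ι → LaurentSeries (Rl ℓ))
    (hind : LinearIndependent (ZMod ℓ)⟮red ℓ t⟯ (fun i => red ℓ (b i)))
    (c : ι → LaurentSeries ℚ) (hc : ∀ i, c i ∈ ℚ⟮ιR ℓ t⟯)
    (hx : ∑ i, c i * ιR ℓ (b i) ∈ gaussB ℓ) : ∀ i, c i ∈ gaussB ℓ := by
  by_contra hcon
  push Not at hcon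
  obtain ⟨i₀, hi₀⟩ := hcon
  obtain ⟨k, -, hk⟩ := Finset.exists_max_image Finset.univ
    (fun i => (gaussB ℓ).valuation (c i)) ⟨i₀, Finset.mem_univ _⟩
  have hk1 : 1 < (gaussB ℓ).valuation (c k) := by
    rw [← ValuationSubring.valuation_le_one_iff, not_le] at hi₀
    exact hi₀.trans_le (hk i₀ (Finset.mem_univ _))
  have hck : c k ≠ 0 := by
    intro h0
    rw [h0, map_zero] at hk1
    exact not_lt_zero hk1
  have hvk : (gaussB ℓ).valuation (c k) ≠ 0 := (Valuation.ne_zero_iff _).mpr hck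
  have hdB : ∀ i, c i * (c k)⁻¹ ∈ gaussB ℓ := by
    intro i
    rw [← ValuationSubring.valuation_le_one_iff, map_mul, map_inv₀]
    rw [← div_eq_mul_inv]
    exact div_le_one_of_le₀ (hk i (Finset.mem_univ _)) zero_le
  have hinv : (c k)⁻¹ ∈ (gaussB ℓ).nonunits := by
    rw [ValuationSubring.mem_nonunits_iff, map_inv₀]
    exact inv_lt_one_of_one_lt₀ hk1
  have hsum : ∑ i, (c i * (c k)⁻¹) * ιR ℓ (b i) ∈ (gaussB ℓ).nonunits := by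
    have : ∑ i, (c i * (c k)⁻¹) * ιR ℓ (b i) = (c k)⁻¹ * ∑ i, c i * ιR ℓ (b i) := by
      rw [Finset.mul_sum]
      exact Finset.sum_congr rfl fun i _ => by ring
    rw [this]
    exact mul_mem_nonunits ℓ hinv hx
  have := mem_nonunits_of_sum_mem_aux ℓ t htr b hind _
    (fun i => mul_mem (hc i) (inv_mem (hc k))) hdB hsum k
  rw [mul_inv_cancel₀ hck, ValuationSubring.mem_nonunits_iff, map_one] at this
  exact lt_irrefl _ this

theorem mem_nonunits_of_sum_mem (t : LaurentSeries (Rl ℓ)) (htr : Transcendental (ZMod ℓ) (red ℓ t))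
    {ι : Type} [Fintype ι] (b : ι → LaurentSeries (Rl ℓ))
    (hind : LinearIndependent (ZMod ℓ)⟮red ℓ t⟯ (fun i => red ℓ (b i)))
    (c : ι → LaurentSeries ℚ) (hc : ∀ i, c i ∈ ℚ⟮ιR ℓ t⟯)
    (hx : ∑ i, c i * ιR ℓ (b i) ∈ (gaussB ℓ).nonunits) : ∀ i, c i ∈ (gaussB ℓ).nonunits :=
  mem_nonunits_of_sum_mem_aux ℓ t htr b hind c hc
    (mem_gaussB_of_sum_mem ℓ t htr b hind c hc ((gaussB ℓ).nonunits_subset hx)) hx

theorem eq_zero_of_forall_inv_pow_mul_mem (t : LaurentSeries (Rl ℓ))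
    (htr : Transcendental (ZMod ℓ) (red ℓ t))
    (d : LaurentSeries ℚ) (hd : d ∈ ℚ⟮ιR ℓ t⟯)
    (h : ∀ n : ℕ, (((ℓ : ℕ) : LaurentSeries ℚ) ^ n)⁻¹ * d ∈ gaussB ℓ) : d = 0 := by
  have hℓ := natCast_ne_zero' ℓ
  have hB : d ∈ gaussB ℓ := by simpa using h 0
  obtain ⟨g, h', hh, hgh⟩ := exists_normal_form ℓ t htr d hd hB
  have hg : g = 0 := by
    apply eq_zero_of_forall_pow_dvd ℓ
    intro n
    apply pow_dvd_of_evS_div_mem ℓ t htr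
    rw [← hgh]
    have : d * evS ℓ t h' / ((ℓ : ℕ) : LaurentSeries ℚ) ^ n =
        ((((ℓ : ℕ) : LaurentSeries ℚ) ^ n)⁻¹ * d) * evS ℓ t h' := by
      field_simp
    rw [this]
    exact mul_mem (h n) (evS_mem_gaussB ℓ t h')
  rw [hg, map_zero] at hgh
  exact (mul_eq_zero.mp hgh).resolve_right (evS_ne_zero ℓ t htr h' hh)

theorem linearIndependent_ιR (t : LaurentSeries (Rl ℓ)) (htr : Transcendental (ZMod ℓ) (red ℓ t))
    {ι : Type} [Fintype ι] (b : ι → LaurentSeries (Rl ℓ))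
    (hind : LinearIndependent (ZMod ℓ)⟮red ℓ t⟯ (fun i => red ℓ (b i))) :
    LinearIndependent ℚ⟮ιR ℓ t⟯ (fun i => ιR ℓ (b i)) := by
  rw [Fintype.linearIndependent_iff]
  intro g hg i
  apply Subtype.ext
  apply eq_zero_of_forall_inv_pow_mul_mem ℓ t htr _ (g i).2
  intro n
  have hmem : (((ℓ : ℕ) : LaurentSeries ℚ) ^ n)⁻¹ ∈ ℚ⟮ιR ℓ t⟯ :=
    inv_mem (pow_mem (natCast_mem _ _) _)
  refine mem_gaussB_of_sum_mem ℓ t htr b hind
    (fun i => (((ℓ : ℕ) : LaurentSeries ℚ) ^ n)⁻¹ * (g i : LaurentSeries ℚ))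
    (fun i => mul_mem hmem (g i).2) ?_ i
  have : ∑ i, (((ℓ : ℕ) : LaurentSeries ℚ) ^ n)⁻¹ * (g i : LaurentSeries ℚ) * ιR ℓ (b i) =
      (((ℓ : ℕ) : LaurentSeries ℚ) ^ n)⁻¹ * ∑ i, g i • ιR ℓ (b i) := by
    rw [Finset.mul_sum]
    refine Finset.sum_congr rfl fun i _ => ?_
    rw [mul_assoc]
    rfl
  rw [this, hg, mul_zero]
  exact zero_mem _

end Fermat.Agent.S28
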