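import Fermat.Agent.S28.Transfer
import Fermat.Agent.S28.IntLemma

set_option autoImplicit false
noncomputable section

namespace Fermat.Agent.S28

open ModularCurve Polynomial

namespace IntTower

open Build Transfer

variable {A : Type*} [CommRing A]

/-- reflexivity -/
theorem isIntegralElem_self (x : LaurentSeries A) : (evAt x).IsIntegralElem x := by
  have := (evAt x).isIntegralElem_map (x := (Polynomial.X : Polynomial A))
  simpa using this

/-- transitivity of integrality through the polynomial rings `A[x]`, `A[y]`. -/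
theorem isIntegralElem_trans {x y z : LaurentSeries A} (hxy : (evAt x).IsIntegralElem y)
    (hyz : (evAt y).IsIntegralElem z) : (evAt x).IsIntegralElem z := by
  let _ : Algebra (Polynomial A) (LaurentSeries A) := (evAt x).toAlgebra
  have hy : IsIntegral (Polynomial A) y := hxy
  show IsIntegral (Polynomial A) z
  refine isIntegral_of_isIntegral_subring (evAt y).range ?_ ?_
  · rintro s ⟨Q, rfl⟩
    induction Q using Polynomial.induction_on' with
    | add P Q hP hQ => rw [map_add]; exact hP.add hQ
    | monomial n a =>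
      rw [← Polynomial.C_mul_X_pow_eq_monomial, map_mul, map_pow, evAt_C, evAt_X]
      refine IsIntegral.mul ?_ (hy.pow n)
      have : (HahnSeries.C a : LaurentSeries A) = algebraMap (Polynomial A) _ (Polynomial.C a) := by
        show _ = evAt x (Polynomial.C a)
        rw [evAt_C]
      rw [this]
      exact isIntegral_algebraMap
  · obtain ⟨P, hP, hPz⟩ := hyz
    refine ⟨P.map (evAt y).rangeRestrict, hP.map _, ?_⟩
    rw [Polynomial.eval₂_map]
    exact hPz

/-- push an integrality relation along `V d`. -/
theorem isIntegralElem_V (d : ℕ) [NeZero d] {x y : LaurentSeries A}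
    (h : (evAt x).IsIntegralElem y) : (evAt (V A d x)).IsIntegralElem (V A d y) := by
  obtain ⟨P, hP, hPy⟩ := h
  refine ⟨P, hP, ?_⟩
  rw [← V_comp_evAt, ← Polynomial.hom_eval₂, hPy, map_zero]

/-- push an integrality relation along a change of coefficients. -/
theorem isIntegralElem_coeffMap {B : Type*} [CommRing B] (f : A →+* B) {x y : LaurentSeries A}
    (h : (evAt x).IsIntegralElem y) : (evAt (coeffMap f x)).IsIntegralElem (coeffMap f y) := by
  obtain ⟨P, hP, hPy⟩ := h
  refine ⟨P.map (Polynomial.mapRingHom f), hP.map _, ?_⟩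
  rw [Polynomial.eval₂_map, ← coeffMap_comp_evAt, ← Polynomial.hom_eval₂, hPy, map_zero]

theorem prime_step (A : Type*) [CommRing A] (p : ℕ) (hp : p.Prime) [NeZero p] :
    (evAt (J A)).IsIntegralElem (V A p (J A)) ∧ (evAt (V A p (J A))).IsIntegralElem (J A) := by
  have : Fact p.Prime := ⟨hp⟩
  constructor
  · obtain ⟨P, hP, h⟩ := exists_monic_VJ_over_J p
    have h0 : (evAt (J ℤ)).IsIntegralElem (V ℤ p (J ℤ)) := ⟨P, hP, by rwa [Polynomial.eval_map] at h⟩
    have := isIntegralElem_coeffMap (Int.castRingHom A) h0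
    rwa [coeffMap_V, coeffMap_J] at this
  · obtain ⟨P, hP, h⟩ := exists_monic_J_over_VJ p
    have h0 : (evAt (V ℤ p (J ℤ))).IsIntegralElem (J ℤ) := ⟨P, hP, by rwa [Polynomial.eval_map] at h⟩
    have := isIntegralElem_coeffMap (Int.castRingHom A) h0
    rwa [coeffMap_V, coeffMap_J] at this

theorem tower (A : Type*) [CommRing A] (c : ℕ) : c ≠ 0 → ∀ (a : ℕ) [NeZero a] [NeZero (a * c)],
    (evAt (V A a (J A))).IsIntegralElem (V A (a * c) (J A)) ∧
    (evAt (V A (a * c) (J A))).IsIntegralElem (V A a (J A)) := by
  induction c using induction_on_primes with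
  | zero => intro h; exact absurd rfl h
  | one =>
    intro _ a _ _
    have h : V A (a * 1) (J A) = V A a (J A) := qExpand_congr (mul_one a) _
    rw [h]
    exact ⟨isIntegralElem_self _, isIntegralElem_self _⟩
  | prime_mul p c hp ih =>
    intro hpc a _ _
    have hc : c ≠ 0 := fun h => hpc (by rw [h, mul_zero])
    have : NeZero p := ⟨hp.ne_zero⟩
    have : NeZero (a * p) := ⟨mul_ne_zero (NeZero.ne a) hp.ne_zero⟩
    have : NeZero (a * p * c) := ⟨mul_ne_zero (NeZero.ne (a * p)) hc⟩
    have h1 := ih hc (a * p)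
    have h2 := prime_step A p hp
    have e1 : V A a (V A p (J A)) = V A (a * p) (J A) := qExpand_qExpand p a _
    have e2 : V A (a * (p * c)) (J A) = V A (a * p * c) (J A) :=
      qExpand_congr (mul_assoc a p c).symm _
    have h3 := isIntegralElem_V a h2.1
    have h4 := isIntegralElem_V a h2.2
    rw [e1] at h3 h4
    rw [e2]
    exact ⟨isIntegralElem_trans h3 h1.1, isIntegralElem_trans h1.2 h4⟩

end IntTower

theorem isIntegralElem_V_of_dvd (A : Type*) [CommRing A] (a b : ℕ) [NeZero a] [NeZero b]
    (h : a ∣ b) :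
    (evAt (V A a (J A))).IsIntegralElem (V A b (J A)) ∧
    (evAt (V A b (J A))).IsIntegralElem (V A a (J A)) := by
  obtain ⟨c, rfl⟩ := h
  have hc : c ≠ 0 := fun h => NeZero.ne (a * c) (by rw [h, mul_zero])
  exact IntTower.tower A c hc a

end Fermat.Agent.S28
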