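import Fermat.Agent.S28.Reduce
import Fermat.Agent.S28.GaussBasis

set_option autoImplicit false
set_option linter.unusedSectionVars false
noncomputable section

namespace Fermat.Agent.S28

open ModularCurve Polynomial
open scoped IntermediateField

namespace IntVal

/-- An element lying in every valuation subring containing `O` is integral over `O`. -/
theorem isIntegral_of_forall_valuationSubring {K : Type*} [Field K] (O : Subring K) (x : K)
    (h : ∀ W : ValuationSubring K, O ≤ W.toSubring → x ∈ W) : IsIntegral O x := by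
  have key := iInf_valuationSubring_superset (K := K) (s := (O : Set K))
  have hx : x ∈ (⨅ V : {V : ValuationSubring K // (O : Set K) ⊆ V.toSubring}, V.1.toSubring) := by
    rw [Subring.mem_iInf]
    intro V
    exact h V.1 V.2
  rw [key] at hx
  have hx' : IsIntegral (Subring.closure (O : Set K)) x := hx
  have hle : Subring.closure (O : Set K) ≤ O := Subring.closure_le.mpr le_rfl
  exact hx'.map_of_comp_eq (Subring.inclusion hle) (RingHom.id K) (by ext; rfl)

/-- Elements integral over a ring mapping into a valuation subring lie in it. -/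
theorem mem_of_isIntegralElem {K R : Type*} [Field K] [CommRing R] (W : ValuationSubring K)
    (f : R →+* K) (hf : ∀ c, f c ∈ W) {x : K} (hx : f.IsIntegralElem x) : x ∈ W := by
  obtain ⟨p, hp, hroot⟩ := hx
  let fW : R →+* W := f.codRestrict W.toSubring hf
  have hint : IsIntegral W x := by
    refine ⟨p.map fW, hp.map _, ?_⟩
    rw [Polynomial.eval₂_map]
    exact hroot
  obtain ⟨y, hy⟩ := (isIntegrallyClosed_iff K).mp inferInstance hint
  rw [← hy]
  exact y.2

variable (ℓ : ℕ) [Fact ℓ.Prime]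

set_option quotPrecheck false in
local notation "ℤℓ" => ↥(GaloisRep.ratLocalizedAt ℓ)

/-- Transfer of algebraicity over `𝔽_ℓ`. -/
theorem isAlgebraic_transfer {B : Type*} [Field B] [Algebra (ZMod ℓ) B]
    (φt : ℤℓ[X] →+* B) (σ τ : B)
    (hφt : ∀ c, φt c = aeval τ (c.map (resZ ℓ)))
    (hroot : φt.IsIntegralElem σ)
    (hτ : IsAlgebraic (ZMod ℓ) τ) : IsAlgebraic (ZMod ℓ) σ := by
  obtain ⟨P, hP, hroot⟩ := hroot
  have hτi : IsIntegral (ZMod ℓ) τ := hτ.isIntegral
  have hS : ∀ b ∈ φt.range, IsIntegral (ZMod ℓ) b := by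
    rintro _ ⟨c, rfl⟩
    rw [hφt]
    have hle : Algebra.adjoin (ZMod ℓ) {τ} ≤ integralClosure (ZMod ℓ) B :=
      Algebra.adjoin_le (Set.singleton_subset_iff.mpr hτi)
    exact hle (Polynomial.aeval_mem_adjoin_singleton _ _)
  have hσ : IsIntegral φt.range σ := by
    refine ⟨P.map φt.rangeRestrict, hP.map _, ?_⟩
    rw [Polynomial.eval₂_map]
    exact hroot
  exact (isIntegral_of_isIntegral_subring φt.range hS hσ).isAlgebraic

/-- `red s` integral over `𝔽_ℓ[red t]`. -/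
theorem red_isIntegralElem (s t : LaurentSeries ℤℓ) (hst : (evS ℓ t).IsIntegralElem (ιR ℓ s)) :
    ((red ℓ).comp (evHat ℓ t)).IsIntegralElem (red ℓ s) := by
  obtain ⟨P, hP, hroot⟩ := hst
  refine ⟨P, hP, ?_⟩
  have h1 : ιR ℓ (P.eval₂ (evHat ℓ t) s) = 0 := by
    rw [Polynomial.hom_eval₂]
    exact hroot
  have h2 : P.eval₂ (evHat ℓ t) s = 0 := ιR_injective ℓ (by rw [h1, map_zero])
  rw [← Polynomial.hom_eval₂, h2, map_zero]

theorem transcendental_red (s t : LaurentSeries ℤℓ) (hs : Transcendental (ZMod ℓ) (red ℓ s))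
    (hst : (evS ℓ t).IsIntegralElem (ιR ℓ s)) : Transcendental (ZMod ℓ) (red ℓ t) := by
  intro halg
  exact hs (isAlgebraic_transfer ℓ ((red ℓ).comp (evHat ℓ t)) (red ℓ s) (red ℓ t)
    (fun c => red_evHat ℓ t c) (red_isIntegralElem ℓ s t hst) halg)

/-- `evS t c ∈ W` as soon as `W` contains the constants and `t`. -/
theorem evS_mem_of (W : ValuationSubring (LaurentSeries ℚ)) (t : LaurentSeries ℤℓ)
    (hC : ∀ a : ℤℓ, ιR ℓ (HahnSeries.C a) ∈ W) (ht : ιR ℓ t ∈ W) (c : ℤℓ[X]) :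
    evS ℓ t c ∈ W := by
  induction c using Polynomial.induction_on' with
  | add p q hp hq => rw [map_add]; exact add_mem hp hq
  | monomial n a =>
    have : evS ℓ t (Polynomial.monomial n a) = ιR ℓ (HahnSeries.C a) * (ιR ℓ t) ^ n := by
      rw [evS, RingHom.comp_apply, evHat, Polynomial.coe_eval₂RingHom, Polynomial.eval₂_monomial,
        map_mul, map_pow]
    rw [this]
    exact mul_mem (hC a) (pow_mem ht n)

/-- Any ring hom from `ℤ_(ℓ)[X]` to an `𝔽_ℓ`-algebra factors through reduction mod `ℓ`. -/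
theorem ringHom_eq_aeval {B : Type*} [CommRing B] [Algebra (ZMod ℓ) B] (φ : ℤℓ[X] →+* B)
    (c : ℤℓ[X]) : φ c = aeval (φ X) (c.map (resZ ℓ)) := by
  have : φ = ((aeval (R := ZMod ℓ) (φ X)).toRingHom).comp (Polynomial.mapRingHom (resZ ℓ)) := by
    apply Polynomial.ringHom_ext
    · intro a
      have h := ratLocalizedAt_ringHom_ext ℓ (φ.comp Polynomial.C)
        ((algebraMap (ZMod ℓ) B).comp (resZ ℓ))
      have h' := RingHom.congr_fun h a
      simpa using h'
    · simp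
  conv_lhs => rw [this]
  rfl

theorem residue_eq_zero_iff_mem_nonunits {K : Type*} [Field K] (W : ValuationSubring K) (x : W) :
    IsLocalRing.residue W x = 0 ↔ (x : K) ∈ W.nonunits := by
  rw [IsLocalRing.residue_eq_zero_iff, ValuationSubring.mem_nonunits_iff_exists_mem_maximalIdeal]
  exact ⟨fun h => ⟨x.2, h⟩, fun ⟨_, h⟩ => h⟩

theorem mem_nonunits_of_inv_not_mem {K : Type*} [Field K] (W : ValuationSubring K) {a : K}
    (h : a⁻¹ ∉ W) : a ∈ W.nonunits := by
  rw [ValuationSubring.mem_nonunits_iff]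
  by_contra h1
  rw [not_lt] at h1
  apply h
  rw [← ValuationSubring.valuation_le_one_iff, map_inv₀]
  exact inv_le_one_of_one_le₀ h1

theorem not_mem_nonunits_of_inv_mem {K : Type*} [Field K] (W : ValuationSubring K) {a : K}
    (ha : a ≠ 0) (h : a⁻¹ ∈ W) : a ∉ W.nonunits := by
  intro h1
  rw [ValuationSubring.mem_nonunits_iff] at h1
  rw [← ValuationSubring.valuation_le_one_iff, map_inv₀] at h
  have h2 : W.valuation a ≠ 0 := (Valuation.ne_zero_iff _).mpr ha
  have h3 : (1 : W.ValueGroup) ≤ W.valuation a := by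
    rwa [inv_le_one₀ (zero_lt_iff.mpr h2)] at h
  exact absurd h1 (not_lt.mpr h3)

end IntVal

open IntVal in
/-- `𝔹 ∩ ℚ(t)` is integral over `𝔹 ∩ ℚ(s)` when `s`, `t` are integral over each other's
polynomial rings. -/
theorem isIntegral_gauss_of_mem_adjoin (ℓ : ℕ) [Fact ℓ.Prime] (s t : LaurentSeries (Rl ℓ))
    (hs : Transcendental (ZMod ℓ) (red ℓ s))
    (hst : (evS ℓ t).IsIntegralElem (ιR ℓ s)) (hts : (evS ℓ s).IsIntegralElem (ιR ℓ t))
    (x : LaurentSeries ℚ) (hx : x ∈ gaussB ℓ) (hxt : x ∈ ℚ⟮ιR ℓ t⟯) :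
    IsIntegral ↥((gaussB ℓ).toSubring ⊓ (ℚ⟮ιR ℓ s⟯).toSubring) x := by
  apply isIntegral_of_forall_valuationSubring
  intro W hOW
  have htr : Transcendental (ZMod ℓ) (red ℓ t) := transcendental_red ℓ s t hs hst
  -- basic memberships
  have F1 : ∀ c, evS ℓ s c ∈ W := fun c =>
    hOW ⟨evS_mem_gaussB ℓ s c, evS_mem_adjoin ℓ s c⟩
  have F2 : ∀ g, ¬ ((ℓ : ℕ) : (Rl ℓ)[X]) ∣ g → (evS ℓ s g)⁻¹ ∈ W := fun g hg =>
    hOW ⟨evS_inv_mem ℓ s hs g hg, (ℚ⟮ιR ℓ s⟯).inv_mem (evS_mem_adjoin ℓ s g)⟩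
  have F3 : ιR ℓ t ∈ W := mem_of_isIntegralElem W (evS ℓ s) F1 hts
  have hC : ∀ a : Rl ℓ, ιR ℓ (HahnSeries.C a) ∈ W := by
    intro a
    have := F1 (Polynomial.C a)
    simpa [evS, evHat] using this
  have F4 : ∀ c, evS ℓ t c ∈ W := evS_mem_of ℓ W t hC F3
  have hsW : ιR ℓ s ∈ W := by
    have := F1 Polynomial.X
    simpa [evS, evHat] using this
  have hℓ0 := natCast_ne_zero' ℓ
  have hℓW : ((ℓ : ℕ) : LaurentSeries ℚ) ∈ W := natCast_mem _ _
  by_cases hinv : (((ℓ : ℕ) : LaurentSeries ℚ))⁻¹ ∈ W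
  · -- `ℚ(s) ≤ W`
    have hE : ∀ y ∈ ℚ⟮ιR ℓ s⟯, y ∈ W := by
      intro y hy
      obtain ⟨G, H, rfl⟩ := exists_evS_div ℓ s y hy
      by_cases hH : H = 0
      · rw [hH, map_zero, div_zero]; exact zero_mem _
      obtain ⟨b, H', rfl, hH'⟩ := exists_eq_pow_mul_not_dvd ℓ H hH
      rw [map_mul, map_pow, evS_natCast, div_eq_mul_inv, mul_inv, ← inv_pow]
      exact mul_mem (F1 G) (mul_mem (pow_mem hinv b) (F2 H' hH'))
    have htE : IsIntegral ℚ⟮ιR ℓ s⟯ (ιR ℓ t) := by
      obtain ⟨P, hP, hroot⟩ := hts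
      let f : (Rl ℓ)[X] →+* ℚ⟮ιR ℓ s⟯ :=
        (evS ℓ s).codRestrict (ℚ⟮ιR ℓ s⟯).toSubring (evS_mem_adjoin ℓ s)
      refine ⟨P.map f, hP.map _, ?_⟩
      rw [Polynomial.eval₂_map]
      exact hroot
    have hxE : IsIntegral ℚ⟮ιR ℓ s⟯ x := by
      have haev : ∀ r : ℚ[X], IsIntegral ℚ⟮ιR ℓ s⟯ (aeval (ιR ℓ t) r) := by
        intro r
        induction r using Polynomial.induction_on' with
        | add p q hp hq => rw [map_add]; exact hp.add hq
        | monomial n a =>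
          rw [Polynomial.aeval_monomial]
          refine IsIntegral.mul ?_ (htE.pow n)
          exact isIntegral_algebraMap (R := ℚ⟮ιR ℓ s⟯)
            (x := (⟨algebraMap ℚ (LaurentSeries ℚ) a, (ℚ⟮ιR ℓ s⟯).algebraMap_mem a⟩ : ℚ⟮ιR ℓ s⟯))
      obtain ⟨r, r', hrr⟩ := (IntermediateField.mem_adjoin_simple_iff ℚ x).mp hxt
      rw [hrr, div_eq_mul_inv]
      exact (haev r).mul (haev r').isAlgebraic.inv.isIntegral
    let incl : ℚ⟮ιR ℓ s⟯ →+* W :=
      { toFun := fun y => ⟨y.1, hE y.1 y.2⟩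
        map_one' := rfl
        map_mul' := fun _ _ => rfl
        map_zero' := rfl
        map_add' := fun _ _ => rfl }
    have hxW : IsIntegral W x := hxE.map_of_comp_eq incl (RingHom.id _) (by ext; rfl)
    obtain ⟨y, hy⟩ := (isIntegrallyClosed_iff (LaurentSeries ℚ)).mp inferInstance hxW
    rw [← hy]
    exact y.2
  · -- `ℓ` is a non-unit of `W`
    have hℓn : ((ℓ : ℕ) : LaurentSeries ℚ) ∈ W.nonunits := mem_nonunits_of_inv_not_mem W hinv
    have hchar : CharP (IsLocalRing.ResidueField W) ℓ := by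
      rw [CharP.charP_iff_prime_eq_zero (Fact.out : ℓ.Prime)]
      have h0 : IsLocalRing.residue W ((ℓ : ℕ) : W) = 0 := by
        rw [residue_eq_zero_iff_mem_nonunits]
        simpa using hℓn
      simpa using h0
    let _ : Algebra (ZMod ℓ) (IsLocalRing.ResidueField W) := ZMod.algebra _ ℓ
    let fs : (Rl ℓ)[X] →+* W := (evS ℓ s).codRestrict W.toSubring F1
    let ft : (Rl ℓ)[X] →+* W := (evS ℓ t).codRestrict W.toSubring F4
    let φs : (Rl ℓ)[X] →+* IsLocalRing.ResidueField W := (IsLocalRing.residue W).comp fs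
    let φt : (Rl ℓ)[X] →+* IsLocalRing.ResidueField W := (IsLocalRing.residue W).comp ft
    have hint : φt.IsIntegralElem (φs X) := by
      obtain ⟨P, hP, hroot⟩ := hst
      refine ⟨P, hP, ?_⟩
      have h1 : P.eval₂ ft (fs X) = 0 := by
        apply Subtype.ext
        have h2 : (W.subtype) (P.eval₂ ft (fs X)) = P.eval₂ (evS ℓ t) (ιR ℓ s) := by
          rw [Polynomial.hom_eval₂]
          congr 1
          simp [fs, evS, evHat]
        exact h2.trans hroot
      show P.eval₂ ((IsLocalRing.residue W).comp ft) ((IsLocalRing.residue W) (fs X)) = 0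
      rw [← Polynomial.hom_eval₂, h1, map_zero]
    have key : ∀ h : (Rl ℓ)[X], ¬ ((ℓ : ℕ) : (Rl ℓ)[X]) ∣ h → (evS ℓ t h)⁻¹ ∈ W := by
      intro h hh
      by_contra hcon
      have h1 : evS ℓ t h ∈ W.nonunits := mem_nonunits_of_inv_not_mem W hcon
      have h2 : φt h = 0 := (residue_eq_zero_iff_mem_nonunits W (ft h)).mpr h1
      rw [ringHom_eq_aeval ℓ φt h] at h2
      have hτ : IsAlgebraic (ZMod ℓ) (φt X) := ⟨_, map_resZ_ne_zero ℓ h hh, h2⟩
      obtain ⟨gb, hgb0, hgb⟩ := isAlgebraic_transfer ℓ φt (φs X) (φt X)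
        (ringHom_eq_aeval ℓ φt) hint hτ
      obtain ⟨g, rfl⟩ := Polynomial.map_surjective _ (resZ_surjective ℓ) gb
      have hg : ¬ ((ℓ : ℕ) : (Rl ℓ)[X]) ∣ g := by
        rintro ⟨g', rfl⟩
        apply hgb0
        rw [Polynomial.map_mul, Polynomial.map_natCast]
        have : ((ℓ : ℕ) : (ZMod ℓ)[X]) = 0 := by
          rw [← Polynomial.C_eq_natCast, ZMod.natCast_self, map_zero]
        rw [this, zero_mul]
      rw [← ringHom_eq_aeval ℓ φs g] at hgb
      have h3 : evS ℓ s g ∈ W.nonunits := (residue_eq_zero_iff_mem_nonunits W (fs g)).mp hgb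
      exact not_mem_nonunits_of_inv_mem W (evS_ne_zero ℓ s hs g hg) (F2 g hg) h3
    obtain ⟨g, h, hh, hgh⟩ := exists_normal_form ℓ t htr x hxt hx
    have h0 := evS_ne_zero ℓ t htr h hh
    have hxe : x = evS ℓ t g * (evS ℓ t h)⁻¹ := by
      rw [← hgh, mul_assoc, mul_inv_cancel₀ h0, mul_one]
    rw [hxe]
    exact mul_mem (F4 g) (key h hh)

end Fermat.Agent.S28
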