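import Mathlib
import Fermat.Prelude.Def_ModularCurve_LaurentCoeff

set_option autoImplicit false
noncomputable section

namespace Fermat.Agent.S28

open ModularCurve Polynomial
open scoped IntermediateField

/-- Linear independence over `F(t)`, phrased with polynomials. -/
def PolyIndep (F : Type*) [Field F] (t : LaurentSeries F) {ι : Type*} (x : ι → LaurentSeries F) :
    Prop :=
  ∀ (s : Finset ι) (P : ι → F[X]), ∑ i ∈ s, aeval t (P i) * x i = 0 → ∀ i ∈ s, aeval t (P i) = 0

open scoped IntermediateField.algebraAdjoinAdjoin in
theorem linearIndependent_iff_polyIndep (F : Type*) [Field F] (t : LaurentSeries F) {ι : Type*}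
    (x : ι → LaurentSeries F) : LinearIndependent F⟮t⟯ x ↔ PolyIndep F t x := by
  constructor
  · intro h s P hP i hi
    have hmem : ∀ i, aeval t (P i) ∈ F⟮t⟯ := fun i =>
      IntermediateField.algebra_adjoin_le_adjoin _ _ (Polynomial.aeval_mem_adjoin_singleton _ _)
    have := linearIndependent_iff'.mp h s (fun i => ⟨aeval t (P i), hmem i⟩) hP i hi
    exact congrArg Subtype.val this
  · intro h
    rw [← LinearIndependent.iff_fractionRing (Algebra.adjoin F {t}) F⟮t⟯, linearIndependent_iff']
    intro s g hg i hi
    have hex : ∀ i, ∃ P : F[X], aeval t P = (g i : LaurentSeries F) := by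
      intro i
      have h' : (g i : LaurentSeries F) ∈ (aeval (R := F) t).range := by
        rw [← Algebra.adjoin_singleton_eq_range_aeval]
        exact (g i).2
      exact h'
    choose P hP using hex
    have h1 : ∑ i ∈ s, aeval t (P i) * x i = 0 := by
      rw [← hg]
      refine Finset.sum_congr rfl fun i _ => ?_
      rw [hP]
      rfl
    apply Subtype.ext
    rw [← hP]
    exact h s P h1 i hi

theorem coeffMap_aeval {k K : Type*} [Field k] [Field K] (f : k →+* K) (t : LaurentSeries k)
    (Q : k[X]) : coeffMap f (aeval t Q) = aeval (coeffMap f t) (Q.map f) := by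
  rw [aeval_def, aeval_def, Polynomial.hom_eval₂, Polynomial.eval₂_map]
  congr 1
  ext a : 1
  simp only [RingHom.comp_apply]
  rw [algebraMap_laurentSeries_eq_single, algebraMap_laurentSeries_eq_single, coeffMap_single]

theorem coeffMap_injective' {k K : Type*} [Field k] [Field K] (f : k →+* K) :
    Function.Injective (coeffMap f) := (coeffMap f).injective

theorem polyIndep_of_coeffMap {k K : Type*} [Field k] [Field K] (f : k →+* K)
    (t : LaurentSeries k) {ι : Type*} (x : ι → LaurentSeries k)
    (h : PolyIndep K (coeffMap f t) (fun i => coeffMap f (x i))) : PolyIndep k t x := by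
  intro s Q hQ i hi
  have h1 : ∑ i ∈ s, aeval (coeffMap f t) ((Q i).map f) * coeffMap f (x i) = 0 := by
    have := congrArg (coeffMap f) hQ
    rw [map_sum, map_zero] at this
    rw [← this]
    refine Finset.sum_congr rfl fun i _ => ?_
    rw [map_mul, coeffMap_aeval]
  have h2 := h s (fun i => (Q i).map f) h1 i hi
  apply coeffMap_injective' f
  rw [coeffMap_aeval, map_zero]
  exact h2

section Functional

variable {k K : Type*} [Field k] [Field K] [Algebra k K]

/-- apply a functional to the coefficients of a polynomial -/
def dualPoly (lam : Module.Dual k K) (P : K[X]) : k[X] :=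
  ∑ m ∈ Finset.range (P.natDegree + 1), Polynomial.monomial m (lam (P.coeff m))

theorem dual_coeff_aeval_mul (lam : Module.Dual k K) (t y : LaurentSeries k) (P : K[X]) (n : ℤ) :
    lam ((aeval (coeffMap (algebraMap k K) t) P * coeffMap (algebraMap k K) y).coeff n) =
      (aeval t (dualPoly lam P) * y).coeff n := by
  rw [aeval_eq_sum_range, dualPoly, map_sum, Finset.sum_mul, Finset.sum_mul, HahnSeries.coeff_sum,
    HahnSeries.coeff_sum, map_sum]
  refine Finset.sum_congr rfl fun m _ => ?_
  rw [aeval_monomial, Algebra.smul_def, mul_assoc, ← map_pow, ← map_mul,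
    algebraMap_laurentSeries_eq_single, HahnSeries.coeff_single_zero_mul, coeffMap_coeff,
    mul_assoc, algebraMap_laurentSeries_eq_single, HahnSeries.coeff_single_zero_mul, mul_comm,
    ← Algebra.smul_def, map_smul, smul_eq_mul, mul_comm]

theorem polyIndep_coeffMap_aux (t : LaurentSeries k) {ι : Type*} (x : ι → LaurentSeries k)
    (h : PolyIndep k t x) :
    PolyIndep K (coeffMap (algebraMap k K) t) (fun i => coeffMap (algebraMap k K) (x i)) := by
  intro s P hP i hi
  have h1 : ∀ lam : Module.Dual k K, aeval t (dualPoly lam (P i)) = 0 := by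
    intro lam
    refine h s (fun i => dualPoly lam (P i)) ?_ i hi
    ext n
    rw [HahnSeries.coeff_sum, HahnSeries.coeff_zero]
    have h2 := congrArg (fun z => lam (HahnSeries.coeff z n)) hP
    simp only [HahnSeries.coeff_sum, HahnSeries.coeff_zero, map_sum, map_zero] at h2
    rw [← h2]
    exact Finset.sum_congr rfl fun i _ => (dual_coeff_aeval_mul lam t (x i) (P i) n).symm
  ext n
  rw [HahnSeries.coeff_zero, ← Module.forall_dual_apply_eq_zero_iff k]
  intro lam
  have h3 := dual_coeff_aeval_mul lam t 1 (P i) n
  rw [map_one, mul_one, mul_one, h1 lam, HahnSeries.coeff_zero] at h3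
  exact h3

end Functional

theorem linearIndependent_coeffMap {k K : Type*} [Field k] [Field K] (f : k →+* K)
    (t : LaurentSeries k) {ι : Type*} (x : ι → LaurentSeries k) (h : LinearIndependent k⟮t⟯ x) :
    LinearIndependent K⟮coeffMap f t⟯ (fun i => coeffMap f (x i)) := by
  rw [linearIndependent_iff_polyIndep] at h ⊢
  let _ : Algebra k K := f.toAlgebra
  exact polyIndep_coeffMap_aux t x h

theorem linearIndependent_of_coeffMap {k K : Type*} [Field k] [Field K] (f : k →+* K)
    (t : LaurentSeries k) {ι : Type*} (x : ι → LaurentSeries k)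
    (h : LinearIndependent K⟮coeffMap f t⟯ (fun i => coeffMap f (x i))) :
    LinearIndependent k⟮t⟯ x := by
  rw [linearIndependent_iff_polyIndep] at h ⊢
  exact polyIndep_of_coeffMap f t x h

end Fermat.Agent.S28
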