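import Fermat.Agent.S28.Defs

set_option autoImplicit false
noncomputable section

namespace Fermat.Agent.S28

open ModularCurve Polynomial
open scoped IntermediateField

/-- the generators `j(q^d)`, `d ∣ N`, over any commutative ring -/
def divExp (A : Type*) [CommRing A] (N : ℕ) : Set (LaurentSeries A) :=
  {x | ∃ (d : ℕ) (_ : NeZero d), d ∣ N ∧ x = qExpand A d (jqModC A)}

/-- monomials in the `j(q^d)` -/
def monoS (A : Type*) [CommRing A] (N : ℕ) : Submonoid (LaurentSeries A) :=
  Submonoid.closure (divExp A N)

theorem coeffMap_mem_monoS {A A' : Type*} [CommRing A] [CommRing A'] (f : A →+* A') (N : ℕ)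
    {x : LaurentSeries A} (hx : x ∈ monoS A N) : coeffMap f x ∈ monoS A' N := by
  induction hx using Submonoid.closure_induction with
  | mem y hy =>
    obtain ⟨d, hd, hdN, rfl⟩ := hy
    rw [coeffMap_qExpand, coeffMap_jqModC]
    exact Submonoid.subset_closure ⟨d, hd, hdN, rfl⟩
  | one => rw [map_one]; exact one_mem _
  | mul y z _ _ hy hz => rw [map_mul]; exact mul_mem hy hz

theorem exists_mem_monoS_coeffMap {A A' : Type*} [CommRing A] [CommRing A'] (f : A →+* A') (N : ℕ)
    {y : LaurentSeries A'} (hy : y ∈ monoS A' N) : ∃ x ∈ monoS A N, coeffMap f x = y := by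
  induction hy using Submonoid.closure_induction with
  | mem y hy =>
    obtain ⟨d, hd, hdN, rfl⟩ := hy
    refine ⟨qExpand A d (jqModC A), Submonoid.subset_closure ⟨d, hd, hdN, rfl⟩, ?_⟩
    rw [coeffMap_qExpand, coeffMap_jqModC]
  | one => exact ⟨1, one_mem _, map_one _⟩
  | mul y z _ _ hy hz =>
    obtain ⟨a, ha, rfl⟩ := hy
    obtain ⟨b, hb, rfl⟩ := hz
    exact ⟨a * b, mul_mem ha hb, map_mul _ _ _⟩

theorem monoS_le_full (K : Type*) [Field K] (N : ℕ) {x : LaurentSeries K} (hx : x ∈ monoS K N) :
    x ∈ modularFunctionFieldFullC K N := by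
  induction hx using Submonoid.closure_induction with
  | mem y hy => exact IntermediateField.subset_adjoin K _ hy
  | one => exact one_mem _
  | mul y z _ _ hy hz => exact mul_mem hy hz

theorem adjoin_VJ_le_full (K : Type*) [Field K] (N : ℕ) [NeZero N] :
    K⟮V K N (J K)⟯ ≤ modularFunctionFieldFullC K N := by
  rw [IntermediateField.adjoin_simple_le_iff]
  exact jqModCd_mem_full K N dvd_rfl

theorem not_linearIndependent_of_relfinrank (K : Type*) [Field K] (N : ℕ) [NeZero N] (c : ℕ)
    (hc : 0 < c) (h : (K⟮V K N (J K)⟯).relfinrank (modularFunctionFieldFullC K N) = c)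
    {ι : Type*} [Fintype ι] (hι : c < Fintype.card ι) (x : ι → LaurentSeries K)
    (hx : ∀ i, x i ∈ modularFunctionFieldFullC K N) : ¬ LinearIndependent K⟮V K N (J K)⟯ x := by
  intro hli
  have hle := adjoin_VJ_le_full K N
  rw [IntermediateField.relfinrank_eq_finrank_of_le hle] at h
  haveI : Module.Free K⟮V K N (J K)⟯ (IntermediateField.extendScalars hle) :=
    Module.Free.of_divisionRing _ _
  haveI : Module.Finite K⟮V K N (J K)⟯ (IntermediateField.extendScalars hle) :=
    Module.finite_of_finrank_pos (by rw [h]; exact hc)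
  let x' : ι → IntermediateField.extendScalars hle := fun i => ⟨x i, hx i⟩
  have hli' : LinearIndependent K⟮V K N (J K)⟯ x' :=
    LinearIndependent.of_comp (IntermediateField.extendScalars hle).val.toLinearMap hli
  have := hli'.fintype_card_le_finrank
  omega

theorem exists_basis_monoS (K : Type*) [Field K] (N : ℕ) [NeZero N] (c : ℕ) (hc : 0 < c)
    (h : (K⟮V K N (J K)⟯).relfinrank (modularFunctionFieldFullC K N) = c) :
    ∃ b : Fin c → LaurentSeries K, (∀ i, b i ∈ monoS K N) ∧ LinearIndependent K⟮V K N (J K)⟯ b := by
  have hle := adjoin_VJ_le_full K N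
  rw [IntermediateField.relfinrank_eq_finrank_of_le hle] at h
  set L := K⟮V K N (J K)⟯ with hL
  set F' := IntermediateField.extendScalars hle with hF'
  haveI : Module.Free L F' := Module.Free.of_divisionRing _ _
  haveI : Module.Finite L F' := Module.finite_of_finrank_pos (by rw [h]; exact hc)
  haveI : Algebra.IsAlgebraic L F' := Algebra.IsAlgebraic.of_finite L F'
  have hF'eq : F' = IntermediateField.adjoin L (divExp K N) := by
    apply le_antisymm
    · have h1 : modularFunctionFieldFullC K N ≤
          (IntermediateField.adjoin L (divExp K N)).restrictScalars K := by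
        rw [modularFunctionFieldFullC, IntermediateField.adjoin_le_iff]
        intro y hy
        exact IntermediateField.subset_adjoin L _ hy
      intro y hy
      exact h1 hy
    · rw [IntermediateField.adjoin_le_iff]
      intro y hy
      exact IntermediateField.subset_adjoin K _ hy
  have halg : ∀ y ∈ divExp K N, IsAlgebraic L y := by
    intro y hy
    have hyF : y ∈ F' := IntermediateField.subset_adjoin K _ hy
    have : IsAlgebraic L (⟨y, hyF⟩ : F') := Algebra.IsAlgebraic.isAlgebraic _
    exact (IntermediateField.isAlgebraic_iff (S := F')).mp this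
  have hspan : Subalgebra.toSubmodule F'.toSubalgebra =
      Submodule.span L ((monoS K N : Submonoid (LaurentSeries K)) : Set (LaurentSeries K)) := by
    rw [hF'eq, IntermediateField.adjoin_toSubalgebra_of_isAlgebraic halg, Algebra.adjoin_eq_span]
    rfl
  have hfr : Module.finrank L
      (Submodule.span L ((monoS K N : Submonoid (LaurentSeries K)) : Set (LaurentSeries K))) = c := by
    rw [← hspan]
    exact h
  haveI : Module.Free L
      (Submodule.span L ((monoS K N : Submonoid (LaurentSeries K)) : Set (LaurentSeries K))) :=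
    Module.Free.of_divisionRing _ _
  haveI : Module.Finite L
      (Submodule.span L ((monoS K N : Submonoid (LaurentSeries K)) : Set (LaurentSeries K))) :=
    Module.finite_of_finrank_pos (by rw [hfr]; exact hc)
  obtain ⟨f, hf, -, hli⟩ := Submodule.exists_fun_fin_finrank_span_eq L
    ((monoS K N : Submonoid (LaurentSeries K)) : Set (LaurentSeries K))
  refine ⟨f ∘ Fin.cast hfr.symm, fun i => hf _, ?_⟩
  exact hli.comp _ (Fin.cast_injective _)

end Fermat.Agent.S28
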