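import Fermat.Agent.S28.Reduce
import Fermat.Agent.S28.Degree
import Fermat.Agent.S28.LD
import Fermat.Agent.S28.Mono
import Fermat.Agent.S28.GaussBasis
import Fermat.Agent.S28.IntVal
import Fermat.Agent.S28.IntTower

set_option autoImplicit false
set_option linter.unusedSectionVars false
noncomputable section

namespace Fermat.Agent.S28

open ModularCurve Polynomial
open scoped IntermediateField

/-! ## WP-E6 : Bridge.lean -/

theorem coeffMap_mem_full {k K : Type*} [Field k] [Field K] (f : k →+* K) (N : ℕ)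
    {x : LaurentSeries k} (hx : x ∈ modularFunctionFieldFullC k N) :
    coeffMap f x ∈ modularFunctionFieldFullC K N := by
  rw [modularFunctionFieldFullC] at hx
  induction hx using IntermediateField.adjoin_induction with
  | mem y hy =>
    obtain ⟨d, hd, hdN, rfl⟩ := hy
    rw [coeffMap_qExpand, coeffMap_jqModC]
    exact jqModCd_mem_full K N hdN
  | algebraMap a =>
    rw [algebraMap_laurentSeries_eq_single, coeffMap_single, ← algebraMap_laurentSeries_eq_single]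
    exact IntermediateField.algebraMap_mem _ _
  | add x y _ _ hx hy => rw [map_add]; exact add_mem hx hy
  | inv x _ hx => rw [map_inv₀]; exact inv_mem hx
  | mul x y _ _ hx hy => rw [map_mul]; exact mul_mem hx hy

theorem transcendental_V_J (K : Type*) [Field K] (N : ℕ) [NeZero N] :
    Transcendental K (V K N (J K)) := by
  intro h
  have h' : IsAlgebraic K (qExpandAlgHomC K N (J K)) := h
  rw [isAlgebraic_algHom_iff _ (qExpandAlgHomC K N).injective] at h'
  exact transcendental_jqModC K h'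

section
variable (ℓ : ℕ) [Fact ℓ.Prime]

theorem isIntegral_O_of_isIntegralElem (s : LaurentSeries (Rl ℓ)) {y : LaurentSeries ℚ}
    (hy : (evS ℓ s).IsIntegralElem y) :
    IsIntegral ↥((gaussB ℓ).toSubring ⊓ (ℚ⟮ιR ℓ s⟯).toSubring) y := by
  obtain ⟨p, hp, hroot⟩ := hy
  let e : (Rl ℓ)[X] →+* ↥((gaussB ℓ).toSubring ⊓ (ℚ⟮ιR ℓ s⟯).toSubring) :=
    (evS ℓ s).codRestrict _ (fun c => ⟨evS_mem_gaussB ℓ s c, evS_mem_adjoin ℓ s c⟩)
  refine ⟨p.map e, hp.map _, ?_⟩
  rw [Polynomial.eval₂_map]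
  exact hroot

theorem isIntegralElem_evS_of_evAt (s y : LaurentSeries (Rl ℓ)) (h : (evAt s).IsIntegralElem y) :
    (evS ℓ s).IsIntegralElem (ιR ℓ y) := by
  obtain ⟨p, hp, hroot⟩ := h
  refine ⟨p, hp, ?_⟩
  have := congrArg (ιR ℓ) hroot
  rw [Polynomial.hom_eval₂, map_zero] at this
  exact this

end

theorem good_full (N : ℕ) [NeZero N] (ℓ : ℕ) [Fact ℓ.Prime] (c : ℕ) (hc : 0 < c)
    (hC : (ℂ⟮V ℂ N (J ℂ)⟯).relfinrank (modularFunctionFieldFullC ℂ N) = c)
    (hk : ((AlgebraicClosure (ZMod ℓ))⟮V (AlgebraicClosure (ZMod ℓ)) N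
      (J (AlgebraicClosure (ZMod ℓ)))⟯).relfinrank
        (modularFunctionFieldFullC (AlgebraicClosure (ZMod ℓ)) N) = c) :
    Good ℓ (modularFunctionFieldFull N) ⊤ ((gaussB ℓ).toSubring ⊓ (ℚ⟮jq⟯).toSubring) := by
  obtain ⟨bb, hbbmem, hbbind⟩ := exists_basis_monoS (AlgebraicClosure (ZMod ℓ)) N c hc hk
  have hlift : ∀ i, ∃ x ∈ monoS (Rl ℓ) N,
      coeffMap ((algebraMap (ZMod ℓ) (AlgebraicClosure (ZMod ℓ))).comp (resZ ℓ)) x = bb i :=
    fun i => exists_mem_monoS_coeffMap _ N (hbbmem i)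
  choose b hbmem hb using hlift
  set t : LaurentSeries (Rl ℓ) := V (Rl ℓ) N (J (Rl ℓ)) with ht
  set s : LaurentSeries (Rl ℓ) := J (Rl ℓ) with hs
  have hredt : red ℓ t = V (ZMod ℓ) N (J (ZMod ℓ)) := by
    rw [ht, red, coeffMap_qExpand, coeffMap_jqModC]
  have hιt : ιR ℓ t = V ℚ N (J ℚ) := by
    rw [ht, ιR, coeffMap_qExpand, coeffMap_jqModC]
  have htr : Transcendental (ZMod ℓ) (red ℓ t) := by
    rw [hredt]; exact transcendental_V_J _ N
  have hstr : Transcendental (ZMod ℓ) (red ℓ s) := by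
    rw [hs, red_jqModC]; exact transcendental_jqModC _
  have hind : LinearIndependent (ZMod ℓ)⟮red ℓ t⟯ (fun i => red ℓ (b i)) := by
    apply linearIndependent_of_coeffMap (algebraMap (ZMod ℓ) (AlgebraicClosure (ZMod ℓ)))
    have h1 : coeffMap (algebraMap (ZMod ℓ) (AlgebraicClosure (ZMod ℓ))) (red ℓ t) =
        V (AlgebraicClosure (ZMod ℓ)) N (J (AlgebraicClosure (ZMod ℓ))) := by
      rw [hredt, coeffMap_qExpand, coeffMap_jqModC]
    have h2 : (fun i => coeffMap (algebraMap (ZMod ℓ) (AlgebraicClosure (ZMod ℓ))) (red ℓ (b i)))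
        = bb := by
      funext i
      rw [red, coeffMap_coeffMap, hb]
    rw [h1, h2]
    exact hbbind
  have hlin := linearIndependent_ιR ℓ t htr b hind
  have hspan : ∀ x ∈ modularFunctionFieldFull N, ∃ a : Fin c → LaurentSeries ℚ,
      (∀ i, a i ∈ ℚ⟮ιR ℓ t⟯) ∧ x = ∑ i, a i * ιR ℓ (b i) := by
    intro x hx
    by_cases hxs : x ∈ Submodule.span ℚ⟮ιR ℓ t⟯ (Set.range (fun i => ιR ℓ (b i)))
    · rw [Submodule.mem_span_range_iff_exists_fun] at hxs
      obtain ⟨a, ha⟩ := hxs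
      exact ⟨fun i => (a i : LaurentSeries ℚ), fun i => (a i).2, ha.symm⟩
    · exfalso
      have h1 : LinearIndependent ℚ⟮ιR ℓ t⟯
          (Fin.cons x (fun i => ιR ℓ (b i)) : Fin (c + 1) → LaurentSeries ℚ) :=
        linearIndependent_finCons.mpr ⟨hlin, hxs⟩
      have h2 := linearIndependent_coeffMap (algebraMap ℚ ℂ) (ιR ℓ t) _ h1
      have h3 : coeffMap (algebraMap ℚ ℂ) (ιR ℓ t) = V ℂ N (J ℂ) := by
        rw [hιt, coeffMap_qExpand, coeffMap_jqModC]
      rw [h3] at h2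
      refine not_linearIndependent_of_relfinrank ℂ N c hc hC (by simp) _ ?_ h2
      intro i
      apply coeffMap_mem_full
      refine Fin.cases ?_ (fun i => ?_) i
      · exact hx
      · show ιR ℓ (b i) ∈ _
        exact monoS_le_full ℚ N (coeffMap_mem_monoS _ N (hbmem i))
  have hint1 := isIntegralElem_V_of_dvd (Rl ℓ) 1 N (one_dvd N)
  rw [show V (Rl ℓ) 1 (J (Rl ℓ)) = J (Rl ℓ) from qExpand_one_apply _] at hint1
  have hbint : ∀ y ∈ monoS (Rl ℓ) N,
      IsIntegral ↥((gaussB ℓ).toSubring ⊓ (ℚ⟮ιR ℓ s⟯).toSubring) (ιR ℓ y) := by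
    intro y hy
    induction hy using Submonoid.closure_induction with
    | mem z hz =>
      obtain ⟨d, hd, hdN, rfl⟩ := hz
      have := (isIntegralElem_V_of_dvd (Rl ℓ) 1 d (one_dvd d)).1
      rw [show V (Rl ℓ) 1 (J (Rl ℓ)) = J (Rl ℓ) from qExpand_one_apply _] at this
      exact isIntegral_O_of_isIntegralElem ℓ s (isIntegralElem_evS_of_evAt ℓ s _ this)
    | one => rw [map_one]; exact isIntegral_one
    | mul x y _ _ hx hy => rw [map_mul]; exact hx.mul hy
  rw [← ιR_jqModC ℓ]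
  refine ⟨?_, ?_, ?_⟩
  · intro x hxE hx
    obtain ⟨a, ha, rfl⟩ := hspan x hxE
    have h1 := mem_nonunits_of_sum_mem ℓ t htr b hind a ha hx
    rw [Finset.mul_sum]
    refine sum_mem fun i _ => ?_
    rw [← mul_assoc]
    exact mul_mem (inv_natCast_mul_mem ℓ t htr _ (ha i) (h1 i)) (ιR_mem_gaussB ℓ _)
  · intro x hxE hx
    obtain ⟨a, ha, rfl⟩ := hspan x hxE
    have h1 := mem_gaussB_of_sum_mem ℓ t htr b hind a ha hx
    have h2 : ∀ i, ∃ δ ∈ (ZMod ℓ)⟮red ℓ t⟯, gaussρ ℓ ⟨a i, h1 i⟩ = gaussι ℓ δ :=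
      fun i => exists_res_of_mem_adjoin ℓ t htr _ (ha i) (h1 i)
    choose δ _ hδ using h2
    refine ⟨∑ i, δ i * red ℓ (b i), trivial, ?_⟩
    have h3 : (⟨∑ i, a i * ιR ℓ (b i), hx⟩ : gaussB ℓ) = ∑ i, ⟨a i, h1 i⟩ * ιB ℓ (b i) := by
      apply Subtype.ext
      push_cast
      rfl
    rw [h3, map_sum, map_sum]
    refine Finset.sum_congr rfl fun i _ => ?_
    rw [map_mul, map_mul, hδ, gaussι_red]
  · intro x hxE hx
    obtain ⟨a, ha, rfl⟩ := hspan x hxE
    have h1 := mem_gaussB_of_sum_mem ℓ t htr b hind a ha hx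
    refine IsIntegral.sum _ fun i _ => ?_
    refine IsIntegral.mul ?_ (hbint _ (hbmem i))
    exact isIntegral_gauss_of_mem_adjoin ℓ s t hstr
      (isIntegralElem_evS_of_evAt ℓ t s hint1.2) (isIntegralElem_evS_of_evAt ℓ s t hint1.1)
      _ (h1 i) (ha i)




end Fermat.Agent.S28
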