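import Fermat.Agent.S28.Defs

set_option autoImplicit false

open ModularCurve Polynomial
open scoped IntermediateField

noncomputable section

namespace Fermat.Agent.S28

namespace UnitArg

variable {K : Type} [Field K]

/-- `evAt x` is `aeval x`. -/
theorem evAt_eq_aeval (x : LaurentSeries K) (W : K[X]) : evAt x W = aeval x W := by
  have h : (HahnSeries.C : K →+* LaurentSeries K) = algebraMap K (LaurentSeries K) := by
    ext1 c
    rw [algebraMap_laurentSeries_eq_single]
    rfl
  rw [evAt, Polynomial.coe_eval₂RingHom, Polynomial.aeval_def, h]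

/-- The coefficient of `W(J)` at `-deg W` is the leading coefficient of `W`. -/
theorem coeff_evAt_J (W : K[X]) :
    (evAt (J K) W).coeff (-(W.natDegree : ℤ)) = W.leadingCoeff := by
  rw [evAt, Polynomial.coe_eval₂RingHom, Polynomial.eval₂_eq_sum_range, HahnSeries.coeff_sum,
    Finset.sum_range_succ, Finset.sum_eq_zero, zero_add, HahnSeries.C_mul_eq_smul,
    HahnSeries.coeff_smul, coeff_jqModC_pow_self, smul_eq_mul, mul_one]
  · rfl
  · intro i hi
    rw [HahnSeries.C_mul_eq_smul, HahnSeries.coeff_smul, coeff_jqModC_pow_of_lt, smul_zero]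
    have := Finset.mem_range.mp hi
    omega

theorem evAt_J_ne_zero {W : K[X]} (hW : W ≠ 0) : evAt (J K) W ≠ 0 := by
  intro h
  have := coeff_evAt_J W
  rw [h, HahnSeries.coeff_zero] at this
  exact hW (leadingCoeff_eq_zero.mp this.symm)

theorem evAt_J_injective : Function.Injective (evAt (J K)) := by
  rw [injective_iff_map_eq_zero]
  intro W hW
  by_contra h
  exact evAt_J_ne_zero h hW

theorem order_evAt_J_le (W : K[X]) (hW : W ≠ 0) : (evAt (J K) W).order ≤ 0 := by
  have h : (evAt (J K) W).coeff (-(W.natDegree : ℤ)) ≠ 0 := by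
    rw [coeff_evAt_J]
    exact leadingCoeff_ne_zero.mpr hW
  have := HahnSeries.order_le_of_coeff_ne_zero h
  omega

/-- A Laurent series with constant coefficient `1` and no polar part has order `0`. -/
theorem order_eq_zero_of {x : LaurentSeries K} (h0 : x.coeff 0 = 1) (hneg : ∀ n < 0, x.coeff n = 0) :
    x ≠ 0 ∧ x.order = 0 := by
  have hx : x ≠ 0 := by
    intro h
    rw [h, HahnSeries.coeff_zero] at h0
    exact zero_ne_one h0
  refine ⟨hx, le_antisymm ?_ ?_⟩
  · exact HahnSeries.order_le_of_coeff_ne_zero (by rw [h0]; exact one_ne_zero)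
  · rw [HahnSeries.le_order_iff_forall hx]
    exact hneg

theorem ofPS_unit (f : PowerSeries K) (hf : PowerSeries.constantCoeff f = 1) :
    (HahnSeries.ofPowerSeries ℤ K f).coeff 0 = 1 ∧
      ∀ n < 0, (HahnSeries.ofPowerSeries ℤ K f).coeff n = 0 := by
  refine ⟨?_, fun n hn => ofPowerSeries_coeff_of_neg f hn⟩
  have := HahnSeries.ofPowerSeries_apply_coeff (Γ := ℤ) f 0
  simpa [hf] using this

theorem V_unit (p : ℕ) [NeZero p] {x : LaurentSeries K} (h0 : x.coeff 0 = 1)
    (hneg : ∀ n < 0, x.coeff n = 0) :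
    (V K p x).coeff 0 = 1 ∧ ∀ n < 0, (V K p x).coeff n = 0 := by
  constructor
  · have := qExpand_coeff_mul (R := K) p x 0
    rwa [mul_zero, h0] at this
  · intro n hn
    by_cases hd : (p : ℤ) ∣ n
    · obtain ⟨k, rfl⟩ := hd
      rw [qExpand_coeff_mul]
      apply hneg
      have hp : (0 : ℤ) < p := by exact_mod_cast Nat.pos_of_ne_zero (NeZero.ne p)
      by_contra hk
      have := mul_nonneg hp.le (not_lt.mp hk)
      omega
    · exact qExpand_coeff_of_not_dvd p x hd

theorem uInf_ne_zero_and_order (p : ℕ) [NeZero p] (hpK : (p : K) ≠ 0) :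
    uInf K p ≠ 0 ∧ (uInf K p).order = (p : ℤ) - 1 := by
  have hη : PowerSeries.constantCoeff (dedekindEtaUnit.map (Int.castRingHom K)) = 1 := by
    have := constantCoeff_dedekindEtaUnit
    rw [← PowerSeries.coeff_zero_eq_constantCoeff_apply] at this ⊢
    rw [PowerSeries.coeff_map, this]; simp
  have hηi : PowerSeries.constantCoeff (dedekindEtaUnitInv.map (Int.castRingHom K)) = 1 := by
    have := constantCoeff_dedekindEtaUnitInv
    rw [← PowerSeries.coeff_zero_eq_constantCoeff_apply] at this ⊢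
    rw [PowerSeries.coeff_map, this]; simp
  obtain ⟨a0, aneg⟩ := ofPS_unit _ hη
  obtain ⟨b0, bneg⟩ := ofPS_unit _ hηi
  obtain ⟨c0, cneg⟩ := V_unit p a0 aneg
  obtain ⟨hb, hbo⟩ := order_eq_zero_of b0 bneg
  obtain ⟨hc, hco⟩ := order_eq_zero_of c0 cneg
  have hC : (HahnSeries.C ((p : K) ^ 12) : LaurentSeries K) ≠ 0 :=
    HahnSeries.C_ne_zero (pow_ne_zero _ hpK)
  have hs1 : (HahnSeries.single ((p : ℤ) * 1) (1 : K)) ≠ 0 := HahnSeries.single_ne_zero one_ne_zero
  have hs2 : (HahnSeries.single (-1 : ℤ) (1 : K)) ≠ 0 := HahnSeries.single_ne_zero one_ne_zero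
  have hexp : uInf K p = HahnSeries.C ((p : K) ^ 12) *
      ((HahnSeries.single ((p : ℤ) * 1) (1 : K) *
        V K p (HahnSeries.ofPowerSeries ℤ K (dedekindEtaUnit.map (Int.castRingHom K)))) *
      (HahnSeries.single (-1 : ℤ) 1 *
        HahnSeries.ofPowerSeries ℤ K (dedekindEtaUnitInv.map (Int.castRingHom K)))) := by
    rw [uInf, deltaC, deltaInvC, map_mul, qExpand_single]
  rw [hexp]
  refine ⟨mul_ne_zero hC (mul_ne_zero (mul_ne_zero hs1 hc) (mul_ne_zero hs2 hb)), ?_⟩
  rw [HahnSeries.order_mul hC (mul_ne_zero (mul_ne_zero hs1 hc) (mul_ne_zero hs2 hb)),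
    HahnSeries.order_mul (mul_ne_zero hs1 hc) (mul_ne_zero hs2 hb),
    HahnSeries.order_mul hs1 hc, HahnSeries.order_mul hs2 hb, hco, hbo, HahnSeries.order_C,
    HahnSeries.order_single one_ne_zero, HahnSeries.order_single one_ne_zero]
  ring

theorem V_comp_evAt (p : ℕ) [NeZero p] (x : LaurentSeries K) :
    (V K p).comp (evAt x) = evAt (V K p x) := by
  apply Polynomial.ringHom_ext
  · intro a
    simp [evAt]
  · simp [evAt]

/-- Values at points of `K⟮j⟯` of polynomials with coefficients in `K[j]` lie in `K⟮j⟯`. -/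
theorem eval_map_evAt_mem (P : K[X][X]) {x : LaurentSeries K} (hx : x ∈ K⟮J K⟯) :
    (P.map (evAt (J K))).eval x ∈ K⟮J K⟯ := by
  rw [Polynomial.eval_map, Polynomial.eval₂_eq_sum_range]
  refine sum_mem fun i _ => mul_mem ?_ (pow_mem hx i)
  rw [evAt_eq_aeval, Polynomial.aeval_eq_sum_range]
  refine sum_mem fun k _ => ?_
  rw [Algebra.smul_def]
  exact mul_mem (IntermediateField.algebraMap_mem _ _)
    (pow_mem (IntermediateField.mem_adjoin_simple_self K (J K)) k)

/-- The derivative of the modular polynomial does not vanish at `(j_p, j)`. -/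
theorem derivative_ne_zero (p : ℕ) [Fact p.Prime] [NeZero p] (D : ModEqData K p) :
    (derivative (D.Φ.map (evAt (J K)))).eval (V K p (J K)) ≠ 0 := by
  intro h
  have h1 : V K p ((derivative (D.Φ.map (evAt (J K)))).eval (V K p (J K))) = 0 := by
    rw [h, map_zero]
  rw [← Polynomial.eval₂_hom, ← Polynomial.eval_map, ← Polynomial.derivative_map,
    Polynomial.map_map, V_comp_evAt, D.hΦ, Polynomial.derivative_mul] at h1
  simp only [derivative_sub, derivative_X, derivative_C, sub_zero, one_mul, eval_add, eval_mul,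
    eval_sub, eval_X, eval_C, sub_self, zero_mul, add_zero, eval_prod] at h1
  rw [Finset.prod_eq_zero_iff] at h1
  obtain ⟨b, -, hb⟩ := h1
  have hc := congrArg (fun z => z.coeff (-1 : ℤ)) hb
  simp only [HahnSeries.coeff_sub, HahnSeries.coeff_zero, scale_coeff] at hc
  rw [qExpand_coeff_of_not_dvd, coeff_jqModC_neg_one, mul_one, zero_sub, neg_eq_zero] at hc
  · exact Units.ne_zero _ hc
  · intro hd
    have h2 : (p : ℤ) ∣ 1 := by simpa using hd
    have h3 : p ∣ 1 := by exact_mod_cast h2
    exact (Fact.out : p.Prime).one_lt.ne' (Nat.dvd_one.mp h3)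

end UnitArg

open UnitArg in
theorem V_J_not_mem_adjoin_J (K : Type) [Field K] (p : ℕ) [Fact p.Prime] [NeZero p]
    (hpK : (p : K) ≠ 0) (D : ModEqData K p) : V K p (J K) ∉ K⟮J K⟯ := by
  intro hmem
  obtain ⟨hu0, huo⟩ := uInf_ne_zero_and_order (K := K) p hpK
  -- `uInf ∈ K(j)`
  have hd := derivative_ne_zero p D
  have hu : uInf K p ∈ K⟮J K⟯ := by
    rw [eq_div_of_mul_eq hd D.hΛ]
    refine div_mem (eval_map_evAt_mem _ hmem) ?_
    rw [Polynomial.derivative_map]
    exact eval_map_evAt_mem _ hmem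
  obtain ⟨r, s, hrs⟩ := (IntermediateField.mem_adjoin_simple_iff K _).mp hu
  -- transport to the fraction field of `K[X]`
  let φ : FractionRing K[X] →+* LaurentSeries K := IsFractionRing.lift (evAt_J_injective (K := K))
  have hφ : ∀ W : K[X], φ (algebraMap K[X] (FractionRing K[X]) W) = evAt (J K) W := fun W =>
    IsFractionRing.lift_algebraMap _ W
  set z : FractionRing K[X] :=
    algebraMap K[X] (FractionRing K[X]) r / algebraMap K[X] (FractionRing K[X]) s with hz
  have hφz : φ z = uInf K p := by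
    rw [hz, map_div₀, hφ, hφ, evAt_eq_aeval, evAt_eq_aeval, hrs]
  have hint : IsIntegral K[X] z := by
    refine ⟨D.Ψ, D.hΨmonic, ?_⟩
    apply φ.injective
    rw [map_zero, Polynomial.hom_eval₂, hφz]
    have hcomp : φ.comp (algebraMap K[X] (FractionRing K[X])) = evAt (J K) := RingHom.ext hφ
    rw [hcomp, ← Polynomial.eval_map]
    exact D.hΨ
  obtain ⟨W, hW⟩ := IsIntegrallyClosed.isIntegral_iff.mp hint
  have huW : uInf K p = evAt (J K) W := by rw [← hφz, ← hW, hφ]
  have hW0 : W ≠ 0 := by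
    rintro rfl
    rw [map_zero] at huW
    exact hu0 huW
  have h1 := order_evAt_J_le W hW0
  rw [← huW, huo] at h1
  have h2 : 1 < p := (Fact.out : p.Prime).one_lt
  omega

end Fermat.Agent.S28
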