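import Fermat.Agent.S28.Defs

set_option autoImplicit false
noncomputable section

namespace Fermat.Agent.S28

open ModularCurve HahnSeries Polynomial
open scoped IntermediateField

section Order

variable {K : Type*} [Field K]

theorem order_eq_of {x : LaurentSeries K} {n : ℤ} (h1 : x.coeff n ≠ 0)
    (h2 : ∀ m < n, x.coeff m = 0) : x.order = n := by
  have hx : x ≠ 0 := by
    rintro rfl
    exact h1 rfl
  refine le_antisymm (HahnSeries.order_le_of_coeff_ne_zero h1) ?_
  by_contra hlt
  push Not at hlt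
  exact (HahnSeries.coeff_order_eq_zero.not.mpr hx) (h2 _ hlt)

theorem J_ne_zero : J K ≠ 0 := jqModC_ne_zero_of_nontrivial K

theorem order_J : (J K).order = -1 :=
  order_eq_of (by rw [coeff_jqModC_neg_one]; exact one_ne_zero)
    (fun _ hm => coeff_jqModC_of_lt K hm)

theorem V_ne_zero (n : ℕ) [NeZero n] {x : LaurentSeries K} (hx : x ≠ 0) : V K n x ≠ 0 :=
  (map_ne_zero_iff _ (qExpand_injective n)).mpr hx

theorem order_V (n : ℕ) [NeZero n] {x : LaurentSeries K} (hx : x ≠ 0) :
    (V K n x).order = n * x.order := by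
  refine order_eq_of ?_ ?_
  · rw [qExpand_coeff_mul]
    exact HahnSeries.coeff_order_eq_zero.not.mpr hx
  · intro m hm
    by_cases hd : (n : ℤ) ∣ m
    · obtain ⟨k, rfl⟩ := hd
      rw [qExpand_coeff_mul]
      refine HahnSeries.coeff_eq_zero_of_lt_order ?_
      have hn : (0 : ℤ) < n := by exact_mod_cast Nat.pos_of_ne_zero (NeZero.ne n)
      exact lt_of_mul_lt_mul_left hm hn.le
    · exact qExpand_coeff_of_not_dvd n x hd

theorem scale_ne_zero (c : Kˣ) {x : LaurentSeries K} (hx : x ≠ 0) : scale c x ≠ 0 :=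
  (map_ne_zero_iff _ (scale_injective c)).mpr hx

theorem order_scale (c : Kˣ) {x : LaurentSeries K} (hx : x ≠ 0) :
    (scale c x).order = x.order := by
  refine order_eq_of ?_ ?_
  · rw [scale_coeff]
    exact mul_ne_zero (Units.ne_zero _) (HahnSeries.coeff_order_eq_zero.not.mpr hx)
  · intro m hm
    rw [scale_coeff, HahnSeries.coeff_eq_zero_of_lt_order hm, mul_zero]

theorem order_V_scale_J (n : ℕ) [NeZero n] (c : Kˣ) : (V K n (scale c (J K))).order = -(n : ℤ) := by
  rw [order_V n (scale_ne_zero c J_ne_zero), order_scale c J_ne_zero, order_J]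
  ring

theorem order_V_J (n : ℕ) [NeZero n] : (V K n (J K)).order = -(n : ℤ) := by
  rw [order_V n J_ne_zero, order_J]
  ring

theorem order_J_pow (i : ℕ) : ((J K) ^ i).order = -(i : ℤ) := by
  rw [HahnSeries.order_pow, order_J]
  simp

/-- `1, J, …, J^(p-1)` are linearly independent over `K((q^p))`. -/
theorem le_natDegree_of_root (p : ℕ) [NeZero p] (P : (LaurentSeries K)[X]) (hP : P ≠ 0)
    (hc : ∀ n, P.coeff n ∈ Set.range (V K p)) (hroot : P.eval (J K) = 0) : p ≤ P.natDegree := by
  by_contra hlt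
  push Not at hlt
  have hsupp : P.support.Nonempty := by
    rwa [Polynomial.support_nonempty]
  set term : ℕ → LaurentSeries K := fun i => P.coeff i * (J K) ^ i with hterm
  have hne : ∀ i ∈ P.support, term i ≠ 0 := fun i hi =>
    mul_ne_zero (Polynomial.mem_support_iff.mp hi) (pow_ne_zero _ J_ne_zero)
  have hord : ∀ i ∈ P.support, ∃ k : ℤ, (term i).order = p * k - i := by
    intro i hi
    obtain ⟨y, hy⟩ := hc i
    have hy0 : y ≠ 0 := by
      rintro rfl
      exact (Polynomial.mem_support_iff.mp hi) (by rw [← hy, map_zero])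
    refine ⟨y.order, ?_⟩
    rw [hterm]
    simp only
    rw [HahnSeries.order_mul (Polynomial.mem_support_iff.mp hi) (pow_ne_zero _ J_ne_zero),
      order_J_pow, ← hy, order_V p hy0]
    ring
  obtain ⟨i₀, hi₀, hmin⟩ := Finset.exists_min_image P.support (fun i => (term i).order) hsupp
  have hlt' : ∀ i ∈ P.support, i < p := fun i hi =>
    lt_of_le_of_lt (Polynomial.le_natDegree_of_mem_supp i hi) hlt
  have hstrict : ∀ i ∈ P.support, i ≠ i₀ → (term i₀).order < (term i).order := by
    intro i hi hne'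
    refine lt_of_le_of_ne (hmin i hi) ?_
    intro heq
    obtain ⟨k, hk⟩ := hord i hi
    obtain ⟨k₀, hk₀⟩ := hord i₀ hi₀
    rw [hk, hk₀] at heq
    have h1 := hlt' i hi
    have h2 := hlt' i₀ hi₀
    have hdvd : (p : ℤ) ∣ (i : ℤ) - i₀ := ⟨k - k₀, by linarith⟩
    apply hne'
    have h3 : ((i : ℤ) - i₀) = 0 := by
      apply Int.eq_zero_of_abs_lt_dvd hdvd
      rw [abs_lt]
      constructor <;> omega
    omega
  have hsum : P.eval (J K) = ∑ i ∈ P.support, term i := by
    rw [Polynomial.eval_eq_sum, Polynomial.sum_def]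
  have hcoeff := congrArg (fun z => z.coeff (term i₀).order) (hsum.symm.trans hroot)
  simp only [HahnSeries.coeff_sum, HahnSeries.coeff_zero] at hcoeff
  rw [Finset.sum_eq_single i₀ (fun i hi hne' =>
    HahnSeries.coeff_eq_zero_of_lt_order (hstrict i hi hne')) (fun h => absurd hi₀ h)] at hcoeff
  exact (HahnSeries.coeff_order_eq_zero.not.mpr (hne i₀ hi₀)) hcoeff


end Order

end Fermat.Agent.S28
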