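import Fermat.Agent.S28.AFinalCore
import Fermat.Agent.S28.QExpE4
import Fermat.Agent.S28.QExpDelta

set_option autoImplicit false

open ModularCurve

noncomputable section

namespace Fermat.Agent.S28

/-- WP-A3: the formal `T_p`-series of `Δ^a E₄^(3m)` is a `ℂ`-combination of the
`Δ^i E₄^(3(a+m-i))`. -/
theorem A_final (p : ℕ) (hp : p.Prime) (a m : ℕ) : ∃ c : ℕ → ℂ,
    PowerSeries.mk (fun n => ModularForm.coeffHeckeT (12 * ((a : ℤ) + m)) p
      (fun i => (DC ^ a * EC ^ m).coeff i) n) =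
    ∑ i ∈ Finset.range (a + m + 1), PowerSeries.C (c i) * (DC ^ i * EC ^ (a + m - i)) :=
  A_final_of qExpansion_E4 qExpansion_discriminant p hp a m

end Fermat.Agent.S28
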