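import Fermat.Agent.S28.FormalED
import Fermat.Prelude.Def_ModularForm_HeckeOperator
import Fermat.Prelude.Thm_ModularForm_heckeT_slash_eq_self_of_mem_Gamma0
import Fermat.Prelude.Thm_ModularForm_mdifferentiable_heckeT
import Fermat.Prelude.Thm_ModularFormClass_isBoundedAt_heckeT
import Fermat.Prelude.Thm_ModularFormClass_qCoeff_heckeT

set_option autoImplicit false

open ModularCurve Polynomial UpperHalfPlane ModularForm ModularFormClass EisensteinSeries
open scoped MatrixGroups

noncomputable section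

namespace Fermat.Agent.S28

namespace AFinal

/-- q-expansion of `Δ`. -/
abbrev qD : PowerSeries ℂ := qExpansion 1 (ModularForm.discriminant : ℍ → ℂ)

/-- q-expansion of `E₄³`. -/
abbrev qE : PowerSeries ℂ := (qExpansion 1 (ModularForm.E₄ : ℍ → ℂ)) ^ 3

theorem gamma0_one_mapGL :
    ((CongruenceSubgroup.Gamma0 1 : Subgroup SL(2, ℤ)) : Subgroup (GL (Fin 2) ℝ)) = 𝒮ℒ := by
  have : CongruenceSubgroup.Gamma0 1 = ⊤ := by
    ext A
    simp only [CongruenceSubgroup.Gamma0_mem, Subgroup.mem_top, iff_true]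
    exact Subsingleton.elim _ _
  rw [this]
  exact (MonoidHom.range_eq_map _).symm

/-- Lemma W': every level one form of weight `12 n` is a combination of `Δ^i E₄^(3(n-i))`
(on the level of `q`-expansions). -/
theorem levelOne_span (n : ℕ) : ∀ (k : ℤ) (_ : k = 12 * (n : ℤ)) (g : ModularForm 𝒮ℒ k),
    ∃ c : ℕ → ℂ, qExpansion 1 g =
      ∑ i ∈ Finset.range (n + 1), PowerSeries.C (c i) * (qD ^ i * qE ^ (n - i)) := by
  induction n with
  | zero =>
    intro k hk g
    obtain rfl : k = 0 := by simpa using hk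
    obtain ⟨c, hc⟩ := levelOne_weight_zero_const g
    refine ⟨fun _ => c, ?_⟩
    have h1 : (g : ℍ → ℂ) = c • (1 : ℍ → ℂ) := by
      rw [hc]; ext z; simp
    have h2 : qExpansion 1 (c • ((1 : ModularForm 𝒮ℒ 0) : ℍ → ℂ)) = c • qExpansion 1 (1 : ModularForm 𝒮ℒ 0) :=
      ModularForm.qExpansion_smul one_pos one_mem_strictPeriods_SL c (1 : ModularForm 𝒮ℒ 0)
    rw [ModularForm.qExpansion_one] at h2
    have h3 : ((1 : ModularForm 𝒮ℒ 0) : ℍ → ℂ) = 1 := by ext z; simp
    rw [h3] at h2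
    rw [h1, h2]
    simp [PowerSeries.smul_eq_C_mul]
  | succ n ih =>
    intro k hk g
    set c0 : ℂ := (qExpansion 1 g).coeff 0 with hc0
    -- `E₄^(3(n+1))` in weight `k`
    let Ek : ModularForm 𝒮ℒ k := ModularForm.mcast (by rw [hk]; push_cast; ring) (E₄.pow (3 * (n + 1)))
    have hEk : qExpansion 1 Ek = qE ^ (n + 1) := by
      have : qExpansion 1 Ek = qExpansion 1 (E₄.pow (3 * (n + 1))) := rfl
      rw [this, ModularForm.qExpansion_pow one_pos one_mem_strictPeriods_SL, pow_mul]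
    have hE0 : (qExpansion 1 Ek).coeff 0 = 1 := by
      have h4 : (qExpansion 1 E₄).coeff 0 = 1 := E_qExpansion_coeff_zero _ ⟨2, rfl⟩
      rw [hEk]
      simp only [PowerSeries.coeff_zero_eq_constantCoeff, map_pow] at h4 ⊢
      rw [h4]; simp
    let g' : ModularForm 𝒮ℒ k := g - c0 • Ek
    have hg' : qExpansion 1 g' = qExpansion 1 g - c0 • qExpansion 1 Ek := by
      have h1 : (g' : ℍ → ℂ) = (g : ℍ → ℂ) - ((c0 • Ek : ModularForm 𝒮ℒ k) : ℍ → ℂ) := rfl
      rw [h1, ModularForm.qExpansion_sub one_pos one_mem_strictPeriods_SL]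
      have h2 : ((c0 • Ek : ModularForm 𝒮ℒ k) : ℍ → ℂ) = c0 • (Ek : ℍ → ℂ) := rfl
      rw [h2, ModularForm.qExpansion_smul one_pos one_mem_strictPeriods_SL]
    have hcusp : (qExpansion 1 g').coeff 0 = 0 := by
      rw [hg', map_sub, PowerSeries.coeff_smul, hE0]
      simp [hc0]
    have hfac := qExpansion_eq_qExpansion_discriminant_mul g' hcusp
    obtain ⟨c', hc'⟩ := ih (k - 12) (by rw [hk]; push_cast; ring)
      (CuspForm.discriminantEquiv (toCuspForm g' hcusp))
    refine ⟨fun i => if i = 0 then c0 else c' (i - 1), ?_⟩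
    have hg : qExpansion 1 g = c0 • qE ^ (n + 1) + qD * qExpansion 1 (CuspForm.discriminantEquiv (toCuspForm g' hcusp)) := by
      rw [← hfac, hg', hEk]; ring
    rw [hg, hc', Finset.mul_sum, Finset.sum_range_succ' _ (n + 1), add_comm]
    congr 1
    · refine Finset.sum_congr rfl fun i _ => ?_
      simp only [Nat.add_eq_zero_iff, one_ne_zero, and_false, if_false, Nat.add_sub_cancel,
        Nat.add_sub_add_right]
      ring
    · simp [PowerSeries.smul_eq_C_mul]

/-- `T_p` of a level one form, as a level one form. -/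
def heckeTForm (k : ℤ) {p : ℕ} (hp : p.Prime) (f : ModularForm 𝒮ℒ k) : ModularForm 𝒮ℒ k where
  toFun := heckeT k p f
  slash_action_eq' γ hγ := heckeT_slash_eq_self_of_mem_Gamma0 (N := 1) k hp
    (by simpa using hp.one_lt.ne')
    (fun γ hγ => SlashInvariantFormClass.slash_action_eq f γ (gamma0_one_mapGL ▸ hγ)) γ
    (gamma0_one_mapGL.symm ▸ hγ)
  holo' := mdifferentiable_heckeT (ModularFormClass.holo f) k p
  bdd_at_cusps' hc := ModularFormClass.isBoundedAt_heckeT f p hc

theorem coeff_heckeTForm (k : ℤ) {p : ℕ} (hp : p.Prime) (f : ModularForm 𝒮ℒ k) (n : ℕ) :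
    (qExpansion 1 (heckeTForm k hp f)).coeff n =
      coeffHeckeT k p (fun i => (qExpansion 1 f).coeff i) n :=
  ModularFormClass.qCoeff_heckeT f one_mem_strictPeriods_SL hp.ne_zero n

/-- `Δ^a E₄^(3m)` as a level one form of weight `12 (a + m)`. -/
def monoForm (a m : ℕ) : ModularForm 𝒮ℒ (12 * ((a : ℤ) + m)) :=
  ModularForm.mcast (by push_cast; ring)
    (((CuspForm.discriminant : ModularForm 𝒮ℒ 12).pow a).mul (E₄.pow (3 * m)))

theorem qExpansion_monoForm (a m : ℕ) : qExpansion 1 (monoForm a m) = qD ^ a * qE ^ m := by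
  have : qExpansion 1 (monoForm a m) = qExpansion 1
      (((CuspForm.discriminant : ModularForm 𝒮ℒ 12).pow a).mul (E₄.pow (3 * m))) := rfl
  rw [this, ModularForm.qExpansion_mul one_pos one_mem_strictPeriods_SL,
    ModularForm.qExpansion_pow one_pos one_mem_strictPeriods_SL,
    ModularForm.qExpansion_pow one_pos one_mem_strictPeriods_SL, pow_mul]
  rfl

/-- The analytic core of `A_final`, phrased with the analytic `q`-expansions. -/
theorem A_final_analytic (p : ℕ) (hp : p.Prime) (a m : ℕ) : ∃ c : ℕ → ℂ,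
    PowerSeries.mk (fun n => ModularForm.coeffHeckeT (12 * ((a : ℤ) + m)) p
      (fun i => (qD ^ a * qE ^ m).coeff i) n) =
    ∑ i ∈ Finset.range (a + m + 1), PowerSeries.C (c i) * (qD ^ i * qE ^ (a + m - i)) := by
  obtain ⟨c, hc⟩ := levelOne_span (a + m) (12 * ((a : ℤ) + m)) (by push_cast; ring)
    (heckeTForm _ hp (monoForm a m))
  refine ⟨c, ?_⟩
  rw [← hc]
  ext n
  rw [PowerSeries.coeff_mk, coeff_heckeTForm, qExpansion_monoForm]

end AFinal

/-- `A_final` from the two `q`-expansion identities (WP-A1, WP-A2). -/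
theorem A_final_of
    (hE : qExpansion 1 (ModularForm.E₄ : ℍ → ℂ) = eisenstein4.map (Int.castRingHom ℂ))
    (hD : qExpansion 1 (ModularForm.discriminant : ℍ → ℂ) = DC)
    (p : ℕ) (hp : p.Prime) (a m : ℕ) : ∃ c : ℕ → ℂ,
    PowerSeries.mk (fun n => ModularForm.coeffHeckeT (12 * ((a : ℤ) + m)) p
      (fun i => (DC ^ a * EC ^ m).coeff i) n) =
    ∑ i ∈ Finset.range (a + m + 1), PowerSeries.C (c i) * (DC ^ i * EC ^ (a + m - i)) := by
  have h1 : AFinal.qD = DC := hD
  have h2 : AFinal.qE = EC := by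
    rw [EC, map_pow, ← hE]
  have := AFinal.A_final_analytic p hp a m
  rwa [h1, h2] at this

end Fermat.Agent.S28
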