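import Mathlib

set_option autoImplicit false

open Polynomial

namespace Fermat.Agent.S28

namespace SymPackage

variable {S : Type*} [Field S] [CharZero S] (P : Subalgebra ℚ S) {I : Type*} [Fintype I]

/-- Newton: if all power sums of `w` lie in the `ℚ`-subalgebra `P`, so do all elementary symmetric
functions. -/
theorem esymm_mem (w : I → S) (hw : ∀ k : ℕ, ∑ g, w g ^ k ∈ P) (k : ℕ) :
    MvPolynomial.aeval w (MvPolynomial.esymm I ℚ k) ∈ P := by
  induction k using Nat.strong_induction_on with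
  | _ k ih =>
    rcases Nat.eq_zero_or_pos k with rfl | hk
    · simp [MvPolynomial.esymm_zero, one_mem]
    have h := congrArg (MvPolynomial.aeval w) (MvPolynomial.mul_esymm_eq_sum I ℚ k)
    simp only [map_mul, map_natCast, map_pow, map_neg, map_one, map_sum] at h
    have hmem : (k : S) * MvPolynomial.aeval w (MvPolynomial.esymm I ℚ k) ∈ P := by
      rw [h]
      refine mul_mem (pow_mem (neg_mem (one_mem _)) _) (sum_mem fun a ha => ?_)
      rw [Finset.mem_filter] at ha
      refine mul_mem (mul_mem (pow_mem (neg_mem (one_mem _)) _) (ih _ ha.2)) ?_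
      rw [MvPolynomial.psum, map_sum]
      simpa using hw a.2
    have hk0 : (k : S) ≠ 0 := by exact_mod_cast hk.ne'
    have h2 : MvPolynomial.aeval w (MvPolynomial.esymm I ℚ k)
        = ((k : ℚ)⁻¹) • ((k : S) * MvPolynomial.aeval w (MvPolynomial.esymm I ℚ k)) := by
      rw [Algebra.smul_def, map_inv₀, map_natCast, ← mul_assoc, inv_mul_cancel₀ hk0, one_mul]
    rw [h2]
    exact P.smul_mem hmem _

theorem coeff_prod_mem (w : I → S) (hw : ∀ k : ℕ, ∑ g, w g ^ k ∈ P) (k : ℕ) :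
    (∏ g, (X - C (w g))).coeff k ∈ P := by
  have hprod : (∏ g, (X - C (w g))) = ((Finset.univ.val.map w).map fun t => X - C t).prod := by
    rw [Multiset.map_map]; rfl
  rw [hprod]
  by_cases hk : k ≤ Multiset.card (Finset.univ.val.map w)
  · rw [Multiset.prod_X_sub_C_coeff _ hk, ← MvPolynomial.aeval_esymm_eq_multiset_esymm I ℚ]
    exact mul_mem (pow_mem (neg_mem (one_mem _)) _) (esymm_mem P w hw _)
  · rw [coeff_eq_zero_of_natDegree_lt]
    · exact zero_mem _
    · rw [natDegree_multiset_prod_X_sub_C_eq_card]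
      omega


/-- the `P`-algebra generated by the two vectors `u`, `t`. -/
noncomputable abbrev MM (u t : I → S) : Subalgebra P (I → S) := Algebra.adjoin P {u, t}

theorem tr_mem (u t : I → S) (hsum : ∀ a m : ℕ, ∑ g, u g ^ a * t g ^ m ∈ P)
    {f : I → S} (hf : f ∈ MM P u t) : ∑ g, f g ∈ P := by
  have hf' : f ∈ Subalgebra.toSubmodule (MM P u t) := hf
  rw [Algebra.adjoin_eq_span] at hf'
  clear hf
  induction hf' using Submodule.span_induction with
  | mem x hx =>
    obtain ⟨a, m, rfl⟩ := (Submonoid.mem_closure_pair u t x).mp hx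
    simpa using hsum a m
  | zero => simp [zero_mem]
  | add x y _ _ hx hy =>
    simp only [Pi.add_apply, Finset.sum_add_distrib]
    exact add_mem hx hy
  | smul c x _ hx =>
    have : ∑ g, (c • x) g = (c : S) * ∑ g, x g := by
      rw [Finset.mul_sum]
      rfl
    rw [this]
    exact mul_mem c.2 hx

theorem coeff_prod_mem_of_mem (u t : I → S) (hsum : ∀ a m : ℕ, ∑ g, u g ^ a * t g ^ m ∈ P)
    {w : I → S} (hw : w ∈ MM P u t) (k : ℕ) : (∏ g, (X - C (w g))).coeff k ∈ P := by
  refine coeff_prod_mem P w (fun k => ?_) k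
  have := tr_mem P u t hsum (pow_mem hw k)
  simpa using this

omit [Fintype I] in
theorem eval_mem (u t : I → S) {w : I → S} (hw : w ∈ MM P u t) (Q : S[X])
    (hQ : ∀ k, Q.coeff k ∈ P) : (fun g => Q.eval (w g)) ∈ MM P u t := by
  have : (fun g => Q.eval (w g)) =
      ∑ i ∈ Finset.range (Q.natDegree + 1), (⟨Q.coeff i, hQ i⟩ : P) • w ^ i := by
    funext g
    rw [eval_eq_sum_range, Finset.sum_apply]
    rfl
  rw [this]
  exact sum_mem fun i _ => Subalgebra.smul_mem _ (pow_mem hw i) _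

theorem inv_mem (u t : I → S) (hu : ∀ g, u g ≠ 0)
    (hsum : ∀ a m : ℕ, ∑ g, u g ^ a * t g ^ m ∈ P) (hκ : ∃ κ ∈ P, κ * ∏ g, u g = 1) :
    (fun g => (u g)⁻¹) ∈ MM P u t := by
  classical
  obtain ⟨κ, hκP, hκ⟩ := hκ
  have huM : u ∈ MM P u t := Algebra.subset_adjoin (by simp)
  set Ψ : S[X] := ∏ g, (X - C (u g)) with hΨ
  have hΨc : ∀ k, Ψ.coeff k ∈ P := coeff_prod_mem_of_mem P u t hsum huM
  have hQ : ∀ k, Ψ.divX.coeff k ∈ P := fun k => by rw [coeff_divX]; exact hΨc _
  have h0 : Ψ.coeff 0 = (-1) ^ Fintype.card I * ∏ g, u g := by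
    rw [coeff_zero_eq_eval_zero, hΨ, eval_prod]
    simp [Finset.prod_neg]
  have hroot : ∀ g, Ψ.eval (u g) = 0 := by
    intro g
    rw [hΨ, eval_prod]
    exact Finset.prod_eq_zero (Finset.mem_univ g) (by simp)
  let c : P := ⟨-((-1) ^ Fintype.card I * κ), neg_mem (mul_mem (pow_mem (neg_mem (one_mem _)) _) hκP)⟩
  have : (fun g => (u g)⁻¹) = c • (fun g => Ψ.divX.eval (u g)) := by
    funext g
    have h1 := hroot g
    rw [← divX_mul_X_add Ψ, eval_add, eval_mul, eval_X, eval_C, h0] at h1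
    show (u g)⁻¹ = -((-1) ^ Fintype.card I * κ) * Ψ.divX.eval (u g)
    have h2 : Ψ.divX.eval (u g) = -((-1) ^ Fintype.card I * ∏ g, u g) * (u g)⁻¹ := by
      field_simp [hu g]
      linear_combination h1
    rw [h2]
    have h3 : ((-1 : S) ^ Fintype.card I) * ((-1 : S) ^ Fintype.card I) = 1 := by
      rw [← pow_add, ← two_mul, pow_mul]; simp
    linear_combination (-(u g)⁻¹ * κ * ∏ g, u g) * h3 - (u g)⁻¹ * hκ
  rw [this]
  exact Subalgebra.smul_mem _ (eval_mem P u t huM _ hQ) _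

end SymPackage

/-- Newton sub-lemma, exported separately (requested by WP-B1+B3). -/
theorem coeff_prod_mem_of_psum {S : Type*} [Field S] [CharZero S] (P : Subalgebra ℚ S)
    {I : Type*} [Fintype I] [DecidableEq I] (w : I → S) (h : ∀ a : ℕ, ∑ g, w g ^ a ∈ P) :
    ∀ k, (∏ g, (Polynomial.X - Polynomial.C (w g))).coeff k ∈ P :=
  SymPackage.coeff_prod_mem P w h

open SymPackage in
theorem sym_package {S : Type*} [Field S] [CharZero S] (P : Subalgebra ℚ S) {I : Type*} [Fintype I]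
    [DecidableEq I] (u t : I → S) (hu : ∀ g, u g ≠ 0)
    (hsum : ∀ a m : ℕ, ∑ g, u g ^ a * t g ^ m ∈ P) (hκ : ∃ κ ∈ P, κ * ∏ g, u g = 1) :
    (∀ k, (∏ g, (X - C (u g))).coeff k ∈ P) ∧ (∀ k, (∏ g, (X - C (t g / u g))).coeff k ∈ P) ∧
    (∀ k, (∑ g, C (u g) * ∏ m ∈ Finset.univ.erase g, (X - C (t m / u m))).coeff k ∈ P) := by
  have huM : u ∈ MM P u t := Algebra.subset_adjoin (by simp)
  have htM : t ∈ MM P u t := Algebra.subset_adjoin (by simp)
  have hjM : (fun g => t g / u g) ∈ MM P u t := by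
    have := mul_mem htM (inv_mem P u t hu hsum hκ)
    have he : (fun g => t g / u g) = t * fun g => (u g)⁻¹ := by
      funext g; simp [div_eq_mul_inv]
    rw [he]; exact this
  have hΦ : ∀ k, (∏ g, (X - C (t g / u g))).coeff k ∈ P :=
    coeff_prod_mem_of_mem P u t hsum hjM
  refine ⟨coeff_prod_mem_of_mem P u t hsum huM, hΦ, fun k => ?_⟩
  set Φ : S[X] := ∏ g, (X - C (t g / u g)) with hΦdef
  have hdiv : ∀ g, ∏ m ∈ Finset.univ.erase g, (X - C (t m / u m)) = Φ /ₘ (X - C (t g / u g)) := by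
    intro g
    rw [hΦdef, ← Finset.mul_prod_erase Finset.univ _ (Finset.mem_univ g),
      mul_divByMonic_cancel_left _ (monic_X_sub_C _)]
  rw [finsetSum_coeff]
  have hterm : ∀ g, (C (u g) * ∏ m ∈ Finset.univ.erase g, (X - C (t m / u m))).coeff k
      = ∑ i ∈ Finset.Icc (k + 1) Φ.natDegree, Φ.coeff i * (u g * (t g / u g) ^ (i - (k + 1))) := by
    intro g
    rw [coeff_C_mul, hdiv g, coeff_divByMonic_X_sub_C, Finset.mul_sum]
    exact Finset.sum_congr rfl fun i _ => by ring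
  simp_rw [hterm]
  rw [Finset.sum_comm]
  refine sum_mem fun i _ => ?_
  rw [← Finset.mul_sum]
  refine mul_mem (hΦ i) ?_
  have := tr_mem P u t hsum (mul_mem huM (pow_mem hjM (i - (k + 1))))
  simpa using this

end Fermat.Agent.S28
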