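import Fermat.Agent.S28.Family
import Fermat.Agent.S28.AFinal
import Fermat.Agent.S28.SymPackage

set_option autoImplicit false

open ModularCurve HahnSeries Polynomial

noncomputable section

namespace Fermat.Agent.S28

namespace Build

instance charZero_laurent : CharZero (LaurentSeries ℂ) :=
  charZero_of_injective_ringHom (f := (HahnSeries.C : ℂ →+* LaurentSeries ℂ)) HahnSeries.C_injective

/-- The `ℚ`-subalgebra of polynomials in `j(t^p)` with complex coefficients. -/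
def PC (p : ℕ) [NeZero p] : Subalgebra ℚ (LaurentSeries ℂ) :=
  { (evAt (V ℂ p (J ℂ))).range.toSubsemiring with
    algebraMap_mem' := fun r => ⟨Polynomial.C (r : ℂ), by
      rw [evAt_C, eq_ratCast, map_ratCast]⟩ }

theorem mem_PC {p : ℕ} [NeZero p] {x : LaurentSeries ℂ} :
    x ∈ PC p ↔ ∃ Q, evAt (V ℂ p (J ℂ)) Q = x := Iff.rfl

theorem ofPS_DC : HahnSeries.ofPowerSeries ℤ ℂ DC = deltaC ℂ := by
  rw [DC, deltaC, map_mul, map_mul, PowerSeries.map_X, HahnSeries.ofPowerSeries_X]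

theorem ofPS_EC : HahnSeries.ofPowerSeries ℤ ℂ EC = EL ℂ := rfl

variable (p : ℕ) [NeZero p] (ζ : ℂˣ)

theorem sum_dF_eF (hζ : IsPrimitiveRoot ζ p) (a m : ℕ) :
    ∑ g, dF ℂ p ζ g ^ a * eF ℂ p ζ g ^ m =
      HahnSeries.C (p : ℂ) * V ℂ p (HahnSeries.ofPowerSeries ℤ ℂ
        (TpS (12 * ((a : ℤ) + m)) p (DC ^ a * EC ^ m))) := by
  have hf : HahnSeries.ofPowerSeries ℤ ℂ (DC ^ a * EC ^ m) = deltaC ℂ ^ a * EL ℂ ^ m := by
    rw [map_mul, map_pow, map_pow, ofPS_DC, ofPS_EC]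
  rw [hecke_formal p ζ hζ, Fintype.sum_option, add_comm, hf]
  congr 1
  · rw [← Fin.sum_univ_eq_sum_range (fun b => scale (ζ ^ b) (deltaC ℂ ^ a * EL ℂ ^ m))]
    refine Finset.sum_congr rfl fun b _ => ?_
    simp only [dF, eF]
    rw [map_mul, map_pow, map_pow]
  · simp only [dF, eF]
    have hc : (HahnSeries.C ((p : ℂ) ^ (12 * ((a : ℤ) + m))) : LaurentSeries ℂ) =
        HahnSeries.C ((p : ℂ) ^ 12) ^ a * HahnSeries.C ((p : ℂ) ^ 12) ^ m := by
      rw [show (12 * ((a : ℤ) + m)) = ((12 * (a + m) : ℕ) : ℤ) by push_cast; ring, zpow_natCast,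
        pow_mul, _root_.pow_add, map_mul, map_pow _ (_ ^ 12) a, map_pow _ (_ ^ 12) m]
    rw [hc]
    simp only [map_mul, map_pow, mul_pow]
    ring

theorem mono_eq (i n : ℕ) (hi : i ≤ n) :
    deltaC ℂ ^ i * EL ℂ ^ (n - i) * deltaInvC ℂ ^ n = J ℂ ^ (n - i) := by
  obtain ⟨k, rfl⟩ := Nat.exists_eq_add_of_le hi
  rw [Nat.add_sub_cancel_left, J_eq, mul_pow, _root_.pow_add]
  have h : deltaC ℂ ^ i * deltaInvC ℂ ^ i = 1 := by
    rw [← mul_pow, deltaC_mul_deltaInvC, one_pow]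
  calc deltaC ℂ ^ i * EL ℂ ^ k * (deltaInvC ℂ ^ i * deltaInvC ℂ ^ k)
      = (deltaC ℂ ^ i * deltaInvC ℂ ^ i) * (EL ℂ ^ k * deltaInvC ℂ ^ k) := by ring
    _ = _ := by rw [h, one_mul]

theorem psum_mem (hp : p.Prime) (hζ : IsPrimitiveRoot ζ p) (a m : ℕ) :
    ∑ g, uF ℂ p ζ g ^ a * tF ℂ p ζ g ^ m ∈ PC p := by
  have h1 : ∑ g, uF ℂ p ζ g ^ a * tF ℂ p ζ g ^ m =
      (∑ g, dF ℂ p ζ g ^ a * eF ℂ p ζ g ^ m) * V ℂ p (deltaInvC ℂ) ^ (a + m) := by
    rw [Finset.sum_mul]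
    refine Finset.sum_congr rfl fun g _ => ?_
    rw [uF, tF, mul_pow, mul_pow, _root_.pow_add]
    ring
  obtain ⟨c, hc⟩ := A_final p hp a m
  rw [h1, sum_dF_eF p ζ hζ, TpS, hc, mem_PC]
  refine ⟨Polynomial.C (p : ℂ) * ∑ i ∈ Finset.range (a + m + 1),
    Polynomial.C (c i) * Polynomial.X ^ (a + m - i), ?_⟩
  have hterm : ∀ i ≤ a + m,
      V ℂ p (HahnSeries.ofPowerSeries ℤ ℂ (PowerSeries.C (c i) * (DC ^ i * EC ^ (a + m - i)))) *
        V ℂ p (deltaInvC ℂ) ^ (a + m) = HahnSeries.C (c i) * V ℂ p (J ℂ) ^ (a + m - i) := by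
    intro i hi
    rw [← map_pow, ← map_mul, map_mul (HahnSeries.ofPowerSeries ℤ ℂ),
      map_mul (HahnSeries.ofPowerSeries ℤ ℂ), map_pow, map_pow, HahnSeries.ofPowerSeries_C,
      ofPS_DC, ofPS_EC, mul_assoc, mono_eq i _ hi, map_mul, qExpand_C, map_pow]
  rw [map_mul, evAt_C, mul_assoc, map_sum, map_sum, map_sum, Finset.sum_mul]
  congr 1
  refine Finset.sum_congr rfl fun i hi => ?_
  have hi' : i ≤ a + m := Nat.lt_succ_iff.mp (Finset.mem_range.mp hi)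
  rw [hterm i hi', map_mul, map_pow, evAt_C, evAt_X]

theorem deltaC_ne_zero : deltaC ℂ ≠ 0 := by
  intro h
  have := deltaC_mul_deltaInvC ℂ
  rw [h, zero_mul] at this
  exact zero_ne_one this

theorem deltaInvC_ne_zero : deltaInvC ℂ ≠ 0 := by
  intro h
  have := deltaC_mul_deltaInvC ℂ
  rw [h, mul_zero] at this
  exact zero_ne_one this

theorem uF_ne_zero (g : Option (Fin p)) : uF ℂ p ζ g ≠ 0 := by
  have hV : ∀ x : LaurentSeries ℂ, x ≠ 0 → V ℂ p x ≠ 0 := fun x hx h =>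
    hx (qExpand_injective p (by rw [h, map_zero]))
  refine mul_ne_zero ?_ (hV _ deltaInvC_ne_zero)
  cases g with
  | none =>
    refine mul_ne_zero ?_ (hV _ (hV _ deltaC_ne_zero))
    intro h
    have h0 : ((p : ℂ) ^ 12) = 0 := HahnSeries.C_injective (by rw [h, map_zero])
    exact (pow_ne_zero 12 (by exact_mod_cast NeZero.ne p : (p : ℂ) ≠ 0)) h0
  | some b =>
    intro h
    exact deltaC_ne_zero (scale_injective (ζ ^ (b : ℕ)) (by simpa [dF] using h))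

theorem kappa (hp : p.Prime) (hζ : IsPrimitiveRoot ζ p) :
    ∃ κ ∈ PC p, κ * ∏ g, uF ℂ p ζ g = 1 := by
  have h0 := coeff_prod_mem_of_psum (PC p) (uF ℂ p ζ)
    (fun a => by simpa using psum_mem p ζ hp hζ a 0) 0
  rw [Polynomial.coeff_zero_eq_eval_zero, Polynomial.eval_prod] at h0
  simp only [eval_sub, eval_X, eval_C, zero_sub] at h0
  rw [Finset.prod_neg (s := Finset.univ) (uF ℂ p ζ)] at h0
  have h1 : ∏ g, uF ℂ p ζ g ∈ PC p := by
    have := mul_mem (pow_mem (neg_mem (one_mem (PC p)))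
      (Finset.univ : Finset (Option (Fin p))).card) h0
    have h2 : (-1 : LaurentSeries ℂ) ^ (Finset.univ : Finset (Option (Fin p))).card *
        ((-1) ^ (Finset.univ : Finset (Option (Fin p))).card * ∏ x, uF ℂ p ζ x) =
        ∏ x, uF ℂ p ζ x := by
      have h11 : (-1 : LaurentSeries ℂ) * -1 = 1 := by ring
      rw [← mul_assoc, ← mul_pow, h11, one_pow, one_mul]
    rwa [h2] at this
  obtain ⟨W, hW⟩ := mem_PC.mp h1
  have hdeg : W.natDegree = 0 := natDegree_eq_zero_of_mem_F p W (by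
    rw [hW]; exact prod_uF_mem_F ℂ p ζ)
  rw [Polynomial.eq_C_of_natDegree_eq_zero hdeg, evAt_C] at hW
  have hne : ∏ g, uF ℂ p ζ g ≠ 0 := Finset.prod_ne_zero_iff.mpr fun g _ => uF_ne_zero p ζ g
  have hw : W.coeff 0 ≠ 0 := by
    intro h
    rw [h, map_zero] at hW
    exact hne hW.symm
  refine ⟨HahnSeries.C (W.coeff 0)⁻¹, mem_PC.mpr ⟨Polynomial.C (W.coeff 0)⁻¹, evAt_C _ _⟩, ?_⟩
  rw [← hW, ← map_mul, inv_mul_cancel₀ hw, map_one]

theorem coeffs_mem (hp : p.Prime) (hζ : IsPrimitiveRoot ζ p) :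
    (∀ k, (PsiL ℂ p ζ).coeff k ∈ PC p) ∧ (∀ k, (PhiL ℂ p ζ).coeff k ∈ PC p) ∧
      (∀ k, (LamL ℂ p ζ).coeff k ∈ PC p) := by
  have h := sym_package (PC p) (uF ℂ p ζ) (tF ℂ p ζ) (uF_ne_zero p ζ) (psum_mem p ζ hp hζ)
    (kappa p ζ hp hζ)
  have hj : ∀ g, tF ℂ p ζ g / uF ℂ p ζ g = jF ℂ p ζ g := fun g => by
    rw [div_eq_iff (uF_ne_zero p ζ g), jF_mul_uF]
  simp only [hj] at h
  exact h

end Build

open Build in
/-- The modular equation data over any subring of `ℂ` containing a primitive `p`-th root of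
unity. -/
theorem exists_modEqData_of_injective {A : Type*} [CommRing A] (ι : A →+* ℂ)
    (hι : Function.Injective ι) (p : ℕ) [NeZero p] (hp : p.Prime) (ζ : Aˣ)
    (hζ : IsPrimitiveRoot (Units.map (ι : A →* ℂ) ζ) p) : Nonempty (ModEqData A p) := by
  obtain ⟨h1, h2, h3⟩ := coeffs_mem p _ hp hζ
  have key : ∀ (G : Polynomial (LaurentSeries A)) (G' : Polynomial (LaurentSeries ℂ)),
      G.map (coeffMap ι) = G' → (∀ k, G'.coeff k ∈ PC p) →
      G ∈ Polynomial.lifts (evAt (V A p (J A))) := by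
    intro G G' hG hG'
    rw [Polynomial.lifts_iff_coeff_lifts]
    intro n
    refine mem_range_evAt_of_coeffMap ι hι p _ ?_
    rw [← Polynomial.coeff_map, hG]
    exact hG' n
  obtain ⟨Φ, hΦ, -, hΦm⟩ := Polynomial.lifts_and_natDegree_eq_and_monic
    (key _ _ (map_PhiL ι p ζ) h2) (PhiL_monic A p ζ)
  obtain ⟨Ψ, hΨ, -, hΨm⟩ := Polynomial.lifts_and_natDegree_eq_and_monic
    (key _ _ (map_PsiL ι p ζ) h1) (PsiL_monic A p ζ)
  obtain ⟨Λ, hΛ⟩ := (Polynomial.mem_lifts _).mp (key _ _ (map_LamL ι p ζ) h3)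
  have hmap : ∀ G : Polynomial (Polynomial A),
      (G.map (evAt (J A))).map (V A p) = G.map (evAt (V A p (J A))) := by
    intro G
    rw [Polynomial.map_map, V_comp_evAt]
  refine ⟨⟨ζ, Φ, Ψ, Λ, ?_, hΦm, hΨm, ?_, ?_⟩⟩
  · rw [hΦ, PhiL_eq]
  · apply qExpand_injective p
    rw [map_zero, ← Polynomial.eval_map_apply, hmap, hΨ, PsiL_eval]
  · apply qExpand_injective p
    rw [map_mul, ← Polynomial.eval_map_apply, ← Polynomial.eval_map_apply,
      ← Polynomial.derivative_map, hmap, hmap, hΦ, hΛ, LamL_eval]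

/-- WP-B1+B3. -/
theorem exists_modEqData_adjoin (p : ℕ) [Fact p.Prime] [NeZero p] :
    Nonempty (ModEqData ↥(Algebra.adjoin ℤ {Complex.exp (2 * Real.pi * Complex.I / p)}) p) := by
  set z : ℂ := Complex.exp (2 * Real.pi * Complex.I / p) with hz
  have hprim : IsPrimitiveRoot z p := Complex.isPrimitiveRoot_exp p (NeZero.ne p)
  let zA : ↥(Algebra.adjoin ℤ {z}) := ⟨z, Algebra.subset_adjoin (Set.mem_singleton z)⟩
  have hpow : zA ^ p = 1 := Subtype.ext (by simpa using hprim.pow_eq_one)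
  have hu : IsUnit zA := IsUnit.of_pow_eq_one hpow (NeZero.ne p)
  refine exists_modEqData_of_injective (Algebra.adjoin ℤ {z}).val.toRingHom
    Subtype.val_injective p (Fact.out) hu.unit ?_
  rw [← IsPrimitiveRoot.coe_units_iff]
  exact hprim

end Fermat.Agent.S28
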