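import Mathlib
import Fermat.Agent.S28.Good

set_option autoImplicit false
set_option linter.unusedSectionVars false
open ModularCurve Polynomial IntermediateField

noncomputable section

namespace Fermat.Agent.S28

variable (ℓ : ℕ) [Fact ℓ.Prime]

set_option quotPrecheck false in
local notation "ℤℓ" => ↥(GaloisRep.ratLocalizedAt ℓ)

/-- Variant of `isIntegralElem_of_good` with the integrality over the valuation ring as input. -/
theorem isIntegralElem_of_isIntegral (s : LaurentSeries ℤℓ)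
    (htr : Transcendental (ZMod ℓ) (red ℓ s)) (y : LaurentSeries ℚ)
    (hy1 : (evS ℓ s).IsIntegralElem (((ℓ : ℕ) : LaurentSeries ℚ) * y))
    (hy2 : IsIntegral ↥((gaussB ℓ).toSubring ⊓ (ℚ⟮ιR ℓ s⟯).toSubring) y) :
    (evS ℓ s).IsIntegralElem y := by
  have hℓ := natCast_ne_zero' ℓ
  let Kf : IntermediateField ℚ (LaurentSeries ℚ) := ℚ⟮ιR ℓ s⟯
  let evK : ℤℓ[X] →+* Kf := (evS ℓ s).codRestrict Kf.toSubring (evS_mem_adjoin ℓ s)
  letI : Algebra ℤℓ[X] (LaurentSeries ℚ) := (evS ℓ s).toAlgebra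
  letI : Algebra ℤℓ[X] Kf := evK.toAlgebra
  haveI : IsScalarTower ℤℓ[X] Kf (LaurentSeries ℚ) := IsScalarTower.of_algebraMap_eq' rfl
  have hinjK : Function.Injective (algebraMap ℤℓ[X] Kf) := by
    intro a b hab
    exact evS_injective ℓ s htr (congrArg Subtype.val hab)
  haveI : FaithfulSMul ℤℓ[X] Kf := (faithfulSMul_iff_algebraMap_injective _ _).mpr hinjK
  haveI : IsFractionRing ℤℓ[X] Kf := by
    refine IsFractionRing.of_field _ _ fun z => ?_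
    obtain ⟨r, t, hz⟩ := (IntermediateField.mem_adjoin_simple_iff ℚ (z : LaurentSeries ℚ)).mp z.2
    obtain ⟨b, r', hb, hr'⟩ := exists_evS_eq_smul_aeval ℓ s r
    obtain ⟨b', t', hb', ht'⟩ := exists_evS_eq_smul_aeval ℓ s t
    refine ⟨(b' : ℤℓ[X]) * r', (b : ℤℓ[X]) * t', Subtype.ext ?_⟩
    have hbL : (b : LaurentSeries ℚ) ≠ 0 := by
      rw [← map_intCast (HahnSeries.C : ℚ →+* LaurentSeries ℚ) b]
      exact HahnSeries.C_ne_zero (by exact_mod_cast hb)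
    have hbL' : (b' : LaurentSeries ℚ) ≠ 0 := by
      rw [← map_intCast (HahnSeries.C : ℚ →+* LaurentSeries ℚ) b']
      exact HahnSeries.C_ne_zero (by exact_mod_cast hb')
    show (z : LaurentSeries ℚ) = evS ℓ s ((b' : ℤℓ[X]) * r') / evS ℓ s ((b : ℤℓ[X]) * t')
    rw [map_mul, map_mul, map_intCast, map_intCast, hr', ht', hz]
    by_cases ht0 : Polynomial.aeval (ιR ℓ s) t = 0
    · simp [ht0]
    · field_simp
  let O : ValuationSubring Kf := (gaussB ℓ).comap (algebraMap Kf (LaurentSeries ℚ))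
  have hyO : IsIntegral O y := by
    let φ : ↥((gaussB ℓ).toSubring ⊓ (ℚ⟮ιR ℓ s⟯).toSubring) →+* O :=
      { toFun := fun x => ⟨⟨x.1, x.2.2⟩, x.2.1⟩
        map_one' := rfl
        map_mul' := fun _ _ => rfl
        map_zero' := rfl
        map_add' := fun _ _ => rfl }
    exact hy2.map_of_comp_eq φ (RingHom.id _) (by ext; rfl)
  have key : IsIntegral ℤℓ[X] y := by
    refine isIntegral_of_smul_of_valuationSubring (Kf := Kf) O ((ℓ : ℕ) : ℤℓ[X]) ?_ ?_ y ?_ hyO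
    · exact_mod_cast (Fact.out : ℓ.Prime).ne_zero
    · intro c i hc
      apply pow_dvd_of_evS_div_mem ℓ s htr
      have : (algebraMap Kf (LaurentSeries ℚ))
          (algebraMap ℤℓ[X] Kf c / (algebraMap ℤℓ[X] Kf ((ℓ : ℕ) : ℤℓ[X])) ^ i) ∈ gaussB ℓ := hc
      rw [map_div₀, map_pow, map_natCast, map_natCast] at this
      exact this
    · have : ((ℓ : ℕ) : ℤℓ[X]) • y = ((ℓ : ℕ) : LaurentSeries ℚ) * y := by
        rw [Algebra.smul_def]
        congr 1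
        exact map_natCast _ _
      rw [this]
      exact hy1
  exact key

/-- `ℓ ∣ c` if `c` reduces to zero. -/
theorem natCast_dvd_of_map_resZ_eq_zero (c : ℤℓ[X]) (h0 : c.map (resZ ℓ) = 0) :
    ((ℓ : ℕ) : ℤℓ[X]) ∣ c := by
  rw [← Polynomial.C_eq_natCast, Polynomial.C_dvd_iff_dvd_coeff]
  intro i
  have : resZ ℓ (c.coeff i) = 0 := by
    rw [← Polynomial.coeff_map, h0, Polynomial.coeff_zero]
  obtain ⟨y, hy⟩ := exists_eq_mul_of_resZ_eq_zero ℓ this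
  exact ⟨y, hy⟩

/-- extraction of the `ℓ`-content of a family. -/
theorem exists_primitive_family {κ : Type*} (g : κ → ℤℓ[X]) (hg : ∃ k, g k ≠ 0) :
    ∃ (n : ℕ) (g' : κ → ℤℓ[X]), (∀ k, g k = ((ℓ : ℕ) : ℤℓ[X]) ^ n * g' k) ∧
      ∃ k, ¬ ((ℓ : ℕ) : ℤℓ[X]) ∣ g' k := by
  classical
  obtain ⟨k0, hk0⟩ := hg
  have hex : ∃ n : ℕ, ¬ ∀ k, ((ℓ : ℕ) : ℤℓ[X]) ^ n ∣ g k := by
    by_contra hcon
    push Not at hcon
    exact hk0 (eq_zero_of_forall_pow_dvd ℓ _ fun i => hcon i k0)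
  have hn0 : Nat.find hex ≠ 0 := by
    intro h0
    have := Nat.find_spec hex
    rw [h0] at this
    exact this fun k => by simp
  obtain ⟨m, hm⟩ := Nat.exists_eq_succ_of_ne_zero hn0
  have hPm : ∀ k, ((ℓ : ℕ) : ℤℓ[X]) ^ m ∣ g k := by
    have := Nat.find_min hex (m := m) (by omega)
    push Not at this
    exact this
  choose g' hg' using hPm
  refine ⟨m, g', hg', ?_⟩
  have := Nat.find_spec hex
  rw [hm] at this
  push Not at this
  obtain ⟨k, hk⟩ := this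
  refine ⟨k, fun hdvd => hk ?_⟩
  obtain ⟨d, hd⟩ := hdvd
  exact ⟨d, by rw [hg' k, hd, Nat.succ_eq_add_one, pow_succ, mul_assoc]⟩

omit [Fact ℓ.Prime] in
/-- clearing the denominators of a finite family of rational polynomials. -/
theorem exists_clear_denominators {κ : Type*} [Fintype κ] (g : κ → ℚ[X]) :
    ∃ (B : ℤ) (g' : κ → ℤℓ[X]), B ≠ 0 ∧
      ∀ k, (g' k).map (GaloisRep.ratLocalizedAt ℓ).subtype = Polynomial.C (B : ℚ) * g k := by
  classical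
  obtain ⟨b, hb⟩ := IsLocalization.exist_integer_multiples_of_finset (nonZeroDivisors ℤ)
    (Finset.univ.biUnion fun k => (g k).coeffs)
  have hl : ∀ k, Polynomial.C ((b : ℤ) : ℚ) * g k ∈
      Polynomial.lifts (GaloisRep.ratLocalizedAt ℓ).subtype := by
    intro k
    rw [Polynomial.lifts_iff_coeff_lifts]
    intro n
    rw [Polynomial.coeff_C_mul]
    by_cases h0 : (g k).coeff n = 0
    · exact ⟨0, by rw [h0, mul_zero, map_zero]⟩
    · obtain ⟨z, hz⟩ := hb ((g k).coeff n)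
        (Finset.mem_biUnion.mpr ⟨k, Finset.mem_univ _, Polynomial.coeff_mem_coeffs h0⟩)
      refine ⟨(z : ℤℓ), ?_⟩
      rw [map_intCast]
      rw [Algebra.smul_def] at hz
      simpa using hz
  choose g' hg' using hl
  exact ⟨b, g', nonZeroDivisors.ne_zero b.2, hg'⟩

theorem inv_mem_gaussB {a : LaurentSeries ℚ} (ha : a ∈ gaussB ℓ) (ha' : a ∉ (gaussB ℓ).nonunits) :
    a⁻¹ ∈ gaussB ℓ := by
  rw [ValuationSubring.mem_nonunits_iff, not_lt] at ha'
  rw [← ValuationSubring.valuation_le_one_iff] at ha ⊢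
  have h1 : (gaussB ℓ).valuation a = 1 := le_antisymm ha ha'
  rw [map_inv₀, h1, inv_one]

theorem nonunits_subset_gaussB {a : LaurentSeries ℚ} (ha : a ∈ (gaussB ℓ).nonunits) :
    a ∈ gaussB ℓ := by
  rw [ValuationSubring.mem_nonunits_iff] at ha
  rw [← ValuationSubring.valuation_le_one_iff]
  exact ha.le

section Basis

variable (s : LaurentSeries ↥(GaloisRep.ratLocalizedAt ℓ)) {ι : Type*} [Fintype ι]
  (b : ι → LaurentSeries ↥(GaloisRep.ratLocalizedAt ℓ))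

/-- the `ℤ_(ℓ)((q))`-combination `∑ r_i(s) b_i`. -/
def comb (r : ι → ℤℓ[X]) : LaurentSeries ℤℓ := ∑ i, evHat ℓ s (r i) * b i

omit [Fact ℓ.Prime] in
theorem ιR_comb (r : ι → ℤℓ[X]) : ιR ℓ (comb ℓ s b r) = ∑ i, evS ℓ s (r i) * ιR ℓ (b i) := by
  rw [comb, map_sum]
  refine Finset.sum_congr rfl fun i _ => ?_
  rw [map_mul]
  rfl

theorem red_comb (r : ι → ℤℓ[X]) :
    red ℓ (comb ℓ s b r) = ∑ i, aeval (red ℓ s) ((r i).map (resZ ℓ)) * red ℓ (b i) := by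
  rw [comb, map_sum]
  refine Finset.sum_congr rfl fun i _ => ?_
  rw [map_mul, red_evHat]

variable (hbind : ∀ r : ι → (ZMod ℓ)[X],
  ∑ i, aeval (red ℓ s) (r i) * red ℓ (b i) = 0 → ∀ i, r i = 0)

include hbind in
theorem dvd_of_comb_mem_nonunits (r : ι → ℤℓ[X]) (h : ιR ℓ (comb ℓ s b r) ∈ (gaussB ℓ).nonunits)
    (i : ι) : ((ℓ : ℕ) : ℤℓ[X]) ∣ r i := by
  rw [ιR_mem_nonunits_iff, red_comb] at h
  exact natCast_dvd_of_map_resZ_eq_zero ℓ _ (hbind _ h i)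

include hbind in
/-- Normal form of an element of `𝔹` which is dependent on the `b_i` over `ℚ(s)`. -/
theorem exists_normal_form (htr : Transcendental (ZMod ℓ) (red ℓ s)) (x : LaurentSeries ℚ)
    (hxB : x ∈ gaussB ℓ)
    (hdep : ∃ (D : ℚ[X]) (r : ι → ℚ[X]), (D ≠ 0 ∨ ∃ i, r i ≠ 0) ∧
      aeval (ιR ℓ s) D * x = ∑ i, aeval (ιR ℓ s) (r i) * ιR ℓ (b i)) :
    ∃ (D : ℤℓ[X]) (r : ι → ℤℓ[X]), evS ℓ s D ∉ (gaussB ℓ).nonunits ∧
      evS ℓ s D * x = ιR ℓ (comb ℓ s b r) := by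
  obtain ⟨D0, r0, hne, hrel⟩ := hdep
  obtain ⟨B, g', hB, hg'⟩ := exists_clear_denominators ℓ (fun o : Option ι => o.elim D0 r0)
  have hBQ : (B : ℚ) ≠ 0 := by exact_mod_cast hB
  have hg'ne : ∃ o, g' o ≠ 0 := by
    rcases hne with h | ⟨i, hi⟩
    · refine ⟨none, fun h0 => h ?_⟩
      have := hg' none
      rw [h0, Polynomial.map_zero] at this
      simpa [hB] using this.symm
    · refine ⟨some i, fun h0 => hi ?_⟩
      have := hg' (some i)
      rw [h0, Polynomial.map_zero] at this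
      simpa [hB] using this.symm
  obtain ⟨n, g'', hg'', k, hk⟩ := exists_primitive_family ℓ g' hg'ne
  have hℓ := natCast_ne_zero' ℓ
  have hev : ∀ o : Option ι, ((ℓ : ℕ) : LaurentSeries ℚ) ^ n * evS ℓ s (g'' o) =
      aeval (ιR ℓ s) (Polynomial.C (B : ℚ)) * aeval (ιR ℓ s) (o.elim D0 r0) := by
    intro o
    rw [← map_mul, ← hg' o, ← evS_eq_aeval, hg'' o, map_mul, map_pow, evS_natCast]
  have hrel' : evS ℓ s (g'' none) * x = ιR ℓ (comb ℓ s b fun i => g'' (some i)) := by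
    apply mul_left_cancel₀ (pow_ne_zero n hℓ)
    rw [← mul_assoc, hev none, ιR_comb, Finset.mul_sum]
    simp only [← mul_assoc, hev, Option.elim]
    rw [mul_assoc, hrel, Finset.mul_sum]
    simp only [mul_assoc]
  refine ⟨g'' none, fun i => g'' (some i), fun hnon => ?_, hrel'⟩
  have h1 : ιR ℓ (comb ℓ s b fun i => g'' (some i)) ∈ (gaussB ℓ).nonunits := by
    rw [← hrel']
    exact mul_mem_nonunits ℓ hnon hxB
  cases k with
  | none => exact hk (natCast_dvd_of_evS_mem_nonunits ℓ s htr _ hnon)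
  | some i => exact hk (dvd_of_comb_mem_nonunits ℓ s b hbind _ h1 i)

/-- `ℤ_(ℓ)[X] → 𝔹 ⊓ ℚ(s)`. -/
def evO : ℤℓ[X] →+* ↥((gaussB ℓ).toSubring ⊓ (ℚ⟮ιR ℓ s⟯).toSubring) :=
  (evS ℓ s).codRestrict _ fun c => ⟨ιR_mem_gaussB ℓ _, evS_mem_adjoin ℓ s c⟩

theorem isIntegral_O_of_isIntegralElem {x : LaurentSeries ℚ} (hx : (evS ℓ s).IsIntegralElem x) :
    IsIntegral ↥((gaussB ℓ).toSubring ⊓ (ℚ⟮ιR ℓ s⟯).toSubring) x := by
  obtain ⟨p, hp, hroot⟩ := hx
  refine ⟨p.map (evO ℓ s), hp.map _, ?_⟩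
  rw [Polynomial.eval₂_map]
  exact hroot

include hbind in
/-- **Good from a basis.** -/
theorem good_of_basis (htr : Transcendental (ZMod ℓ) (red ℓ s))
    (E : IntermediateField ℚ (LaurentSeries ℚ))
    (hbint : ∀ i, (evS ℓ s).IsIntegralElem (ιR ℓ (b i)))
    (hdep : ∀ x ∈ E, ∃ (D : ℚ[X]) (r : ι → ℚ[X]), (D ≠ 0 ∨ ∃ i, r i ≠ 0) ∧
      aeval (ιR ℓ s) D * x = ∑ i, aeval (ιR ℓ s) (r i) * ιR ℓ (b i)) :
    Good ℓ E ⊤ ((gaussB ℓ).toSubring ⊓ (ℚ⟮ιR ℓ s⟯).toSubring) := by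
  have hℓ := natCast_ne_zero' ℓ
  refine ⟨fun x hxE hx => ?_, fun x hxE hx => ?_, fun x hxE hx => ?_⟩
  · obtain ⟨D, r, hD, hrel⟩ := exists_normal_form ℓ s b hbind htr x
      (nonunits_subset_gaussB ℓ hx) (hdep x hxE)
    have hDB : evS ℓ s D ∈ gaussB ℓ := ιR_mem_gaussB ℓ _
    have hD0 : evS ℓ s D ≠ 0 := fun h0 => hD (by
      rw [h0, ValuationSubring.mem_nonunits_iff, map_zero]; exact zero_lt_one)
    have h1 : ιR ℓ (comb ℓ s b r) ∈ (gaussB ℓ).nonunits := by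
      rw [← hrel, mul_comm]
      exact mul_mem_nonunits ℓ hx hDB
    have hdvd := dvd_of_comb_mem_nonunits ℓ s b hbind r h1
    choose r' hr' using hdvd
    have h2 : ιR ℓ (comb ℓ s b r) = ((ℓ : ℕ) : LaurentSeries ℚ) * ιR ℓ (comb ℓ s b r') := by
      rw [ιR_comb, ιR_comb, Finset.mul_sum]
      refine Finset.sum_congr rfl fun i _ => ?_
      rw [hr' i, map_mul, evS_natCast, mul_assoc]
    have h3 : ((ℓ : ℕ) : LaurentSeries ℚ)⁻¹ * x = (evS ℓ s D)⁻¹ * ιR ℓ (comb ℓ s b r') := by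
      rw [h2] at hrel
      field_simp
      rw [mul_comm x, hrel]
    rw [h3]
    exact mul_mem (inv_mem_gaussB ℓ hDB hD) (ιR_mem_gaussB ℓ _)
  · obtain ⟨D, r, hD, hrel⟩ := exists_normal_form ℓ s b hbind htr x hx (hdep x hxE)
    have hDred : red ℓ (evHat ℓ s D) ≠ 0 := fun h0 => hD ((ιR_mem_nonunits_iff ℓ _).mpr h0)
    refine ⟨red ℓ (comb ℓ s b r) * (red ℓ (evHat ℓ s D))⁻¹, trivial, ?_⟩
    rw [map_mul, map_inv₀, eq_mul_inv_iff_mul_eq₀ (by
      rw [Ne, map_eq_zero]; exact hDred), gaussι_red, gaussι_red, ← map_mul]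
    congr 1
    apply Subtype.ext
    rw [mul_comm]
    exact hrel
  · obtain ⟨D, r, hD, hrel⟩ := exists_normal_form ℓ s b hbind htr x hx (hdep x hxE)
    have hDB : evS ℓ s D ∈ gaussB ℓ := ιR_mem_gaussB ℓ _
    have hD0 : evS ℓ s D ≠ 0 := fun h0 => hD (by
      rw [h0, ValuationSubring.mem_nonunits_iff, map_zero]; exact zero_lt_one)
    have hx' : x = ∑ i, ((evS ℓ s D)⁻¹ * evS ℓ s (r i)) * ιR ℓ (b i) := by
      rw [ιR_comb] at hrel
      simp only [mul_assoc]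
      rw [← Finset.mul_sum, ← hrel, inv_mul_cancel_left₀ hD0]
    rw [hx']
    refine IsIntegral.sum _ fun i _ => IsIntegral.mul ?_ (isIntegral_O_of_isIntegralElem ℓ s (hbint i))
    have hmem : (evS ℓ s D)⁻¹ * evS ℓ s (r i) ∈
        (gaussB ℓ).toSubring ⊓ (ℚ⟮ιR ℓ s⟯).toSubring :=
      ⟨mul_mem (inv_mem_gaussB ℓ hDB hD) (ιR_mem_gaussB ℓ _),
        (ℚ⟮ιR ℓ s⟯).mul_mem ((ℚ⟮ιR ℓ s⟯).inv_mem (evS_mem_adjoin ℓ s D)) (evS_mem_adjoin ℓ s (r i))⟩
    exact isIntegral_algebraMap (x := (⟨_, hmem⟩ :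
      ↥((gaussB ℓ).toSubring ⊓ (ℚ⟮ιR ℓ s⟯).toSubring)))

end Basis

end Fermat.Agent.S28
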