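import Fermat.Agent.S28.DegreeJd

set_option autoImplicit false
noncomputable section

namespace Fermat.Agent.S28

open ModularCurve Polynomial
open scoped IntermediateField

variable {K : Type*} [Field K]

theorem ne_of_order_ne {x y : LaurentSeries K} (h : x.order ≠ y.order) : x ≠ y :=
  fun e => h (e ▸ rfl)

namespace ModEqData

variable {p : ℕ} [NeZero p] (D : ModEqData K p)

/-- the "other" roots -/
def β (e : ℕ) [NeZero e] (b : ℕ) : LaurentSeries K := V K e (scale (D.ζ ^ b) (J K))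

theorem order_β (e : ℕ) [NeZero e] (b : ℕ) : (D.β e b).order = -(e : ℤ) :=
  order_V_scale_J e _

theorem β_zero (e : ℕ) [NeZero e] : D.β e 0 = jd K e := by
  rw [β, pow_zero, scale_one, jd_eq]

/-- The factorisation of `Φ(X, j(q^{ep}))`. -/
theorem factor (e : ℕ) [NeZero e] :
    D.Φ.map (evAt (jd K (e * p))) =
      (X - C (jd K (e * (p * p)))) * ∏ b ∈ Finset.range p, (X - C (D.β e b)) := by
  have h := congrArg (Polynomial.map (V K e)) D.hΦ
  rw [map_map_evAt, Polynomial.map_mul, Polynomial.map_prod] at h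
  simp only [Polynomial.map_sub, Polynomial.map_X, Polynomial.map_C] at h
  rw [← jd_eq p, V_jd p (NeZero.ne p), V_jd e (NeZero.ne p),
    V_jd e (mul_ne_zero (NeZero.ne p) (NeZero.ne p))] at h
  exact h

theorem natDegree_map (x : LaurentSeries K) : (D.Φ.map (evAt x)).natDegree = p + 1 := by
  have h1 : (D.Φ.map (evAt x)).natDegree = D.Φ.natDegree := D.hΦmonic.natDegree_map _
  have h2 : (D.Φ.map (evAt (jd K (1 * p)))).natDegree = D.Φ.natDegree := D.hΦmonic.natDegree_map _
  rw [h1, ← h2, D.factor 1, natDegree_mul (X_sub_C_ne_zero _)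
    (Finset.prod_ne_zero_iff.mpr fun b _ => X_sub_C_ne_zero _), natDegree_X_sub_C,
    natDegree_prod _ _ (fun b _ => X_sub_C_ne_zero _)]
  simp [add_comm]

theorem monic_map (x : LaurentSeries K) : (D.Φ.map (evAt x)).Monic := D.hΦmonic.map _

/-- `Φ(j(q^e), j(q^{ep})) = 0`. -/
theorem eval_low (e : ℕ) [NeZero e] : (D.Φ.map (evAt (jd K (e * p)))).eval (jd K e) = 0 := by
  rw [D.factor e, eval_mul, eval_prod,
    Finset.prod_eq_zero (Finset.mem_range.mpr (Nat.pos_of_ne_zero (NeZero.ne p))), mul_zero]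
  rw [β_zero]
  simp

/-- `Φ(j(q^{epp}), j(q^{ep})) = 0`. -/
theorem eval_high (e : ℕ) [NeZero e] :
    (D.Φ.map (evAt (jd K (e * p)))).eval (jd K (e * (p * p))) = 0 := by
  rw [D.factor e, eval_mul]
  simp

/-- `Φ(j(q^{ep}), j(q^e)) = 0`. -/
theorem eval_high' (e : ℕ) [NeZero e] :
    (D.Φ.map (evAt (jd K e))).eval (jd K (e * p)) = 0 := by
  apply qExpand_injective (R := K) p
  rw [map_zero]
  have h := D.eval_high e
  have h2 : (D.Φ.map (evAt (jd K (e * p)))) = (D.Φ.map (evAt (jd K e))).map (V K p) := by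
    rw [map_map_evAt, V_jd p (NeZero.ne e), mul_comm]
  have h3 : jd K (e * (p * p)) = V K p (jd K (e * p)) := by
    rw [V_jd p (mul_ne_zero (NeZero.ne e) (NeZero.ne p))]
    congr 1
    ring
  rw [h2, h3, eval_map, eval₂_hom] at h
  exact h

end ModEqData

end Fermat.Agent.S28
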