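import Fermat.Agent.S28.DegreeSq

set_option autoImplicit false
noncomputable section

namespace Fermat.Agent.S28

open ModularCurve Polynomial
open scoped IntermediateField

variable {K : Type*} [Field K]

/-- The hypothesis: modular-equation data at all primes dividing `N`. -/
def HasData (K : Type*) [Field K] (N : ℕ) : Prop :=
  ∀ r : ℕ, r.Prime → r ∣ N → ∀ [NeZero r], Nonempty (ModEqData K r)

theorem HasData.of_dvd {M N : ℕ} (h : HasData K N) (hMN : M ∣ N) : HasData K M :=
  fun r hr hrM => h r hr (hrM.trans hMN)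

theorem gen_low {N p : ℕ} (hp : p.Prime) [NeZero p] (Dp : ModEqData K p) (hD : HasData K N)
    (G : IntermediateField K (LaurentSeries K)) (hJ : J K ∈ G)
    (hG : ∀ d, d ≠ 0 → d ∣ N → jd K (p * d) ∈ G) :
    ∀ d, d ≠ 0 → d ∣ N → ¬ p ∣ d → jd K d ∈ G := by
  intro d
  induction d using Nat.strong_induction_on with
  | _ d ih =>
    intro hd0 hdN hpd
    by_cases hd1 : d = 1
    · subst hd1
      rwa [jd_one]
    · set r := d.minFac with hr
      have hrp : r.Prime := Nat.minFac_prime hd1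
      obtain ⟨d₁, hd₁⟩ : r ∣ d := Nat.minFac_dvd d
      have hd₁0 : d₁ ≠ 0 := by
        rintro rfl
        exact hd0 (by rw [hd₁, mul_zero])
      have : NeZero r := ⟨hrp.ne_zero⟩
      have : NeZero d₁ := ⟨hd₁0⟩
      obtain ⟨Dr⟩ := hD r hrp ((Nat.minFac_dvd d).trans hdN)
      have hlt : d₁ < d := by
        rw [hd₁]
        exact lt_mul_of_one_lt_left (Nat.pos_of_ne_zero hd₁0) hrp.one_lt
      have hd₁d : d₁ ∣ d := ⟨r, by rw [hd₁, mul_comm]⟩
      have h1 : jd K d₁ ∈ G := ih d₁ hlt hd₁0 (hd₁d.trans hdN) (fun h => hpd (h.trans hd₁d))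
      have h2 : jd K (d₁ * (p * r)) ∈ G := by
        have := hG d hd0 hdN
        rw [hd₁] at this
        convert this using 2
        ring
      have := sq3 hp.two_le hrp.two_le Dp Dr d₁ G h1 h2
      rw [hd₁, mul_comm]
      exact this

theorem gen_high {N p : ℕ} (hp : p.Prime) [NeZero p] (hpN : ¬ p ∣ N) (Dp : ModEqData K p)
    (hD : HasData K N) (G : IntermediateField K (LaurentSeries K)) (hjp : jd K p ∈ G)
    (hG : ∀ d, d ≠ 0 → d ∣ N → jd K d ∈ G) :
    ∀ d, d ≠ 0 → d ∣ N → jd K (d * p) ∈ G := by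
  intro d
  induction d using Nat.strong_induction_on with
  | _ d ih =>
    intro hd0 hdN
    by_cases hd1 : d = 1
    · subst hd1
      rwa [one_mul]
    · set r := d.minFac with hr
      have hrp : r.Prime := Nat.minFac_prime hd1
      obtain ⟨d₁, hd₁⟩ : r ∣ d := Nat.minFac_dvd d
      have hd₁0 : d₁ ≠ 0 := by
        rintro rfl
        exact hd0 (by rw [hd₁, mul_zero])
      have : NeZero r := ⟨hrp.ne_zero⟩
      have : NeZero d₁ := ⟨hd₁0⟩
      have hrN : r ∣ N := (Nat.minFac_dvd d).trans hdN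
      obtain ⟨Dr⟩ := hD r hrp hrN
      have hpr : p ≠ r := fun h => hpN (h ▸ hrN)
      have hlt : d₁ < d := by
        rw [hd₁]
        exact lt_mul_of_one_lt_left (Nat.pos_of_ne_zero hd₁0) hrp.one_lt
      have hd₁d : d₁ ∣ d := ⟨r, by rw [hd₁, mul_comm]⟩
      have h1 : jd K (d₁ * p) ∈ G := ih d₁ hlt hd₁0 (hd₁d.trans hdN)
      have h2 : jd K (d₁ * r) ∈ G := by
        have := hG d hd0 hdN
        rw [hd₁, mul_comm] at this
        exact this
      have := sq1 hp.two_le hrp.two_le hpr Dp Dr d₁ G h1 h2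
      rw [hd₁]
      convert this using 2
      ring

/-- `E = V_p F_N`. -/
abbrev EV (K : Type*) [Field K] (N p : ℕ) [NeZero p] : IntermediateField K (LaurentSeries K) :=
  (modularFunctionFieldFullC K N).map (Va p)

theorem jd_mem_EV {N p : ℕ} [NeZero p] {d : ℕ} (hd : d ≠ 0) (hdN : d ∣ N) :
    jd K (p * d) ∈ EV K N p := by
  rw [← V_jd p hd]
  exact Va_mem_map p _ (jd_mem_full hd hdN)

theorem EV_le_full (N p : ℕ) [NeZero p] : EV K N p ≤ modularFunctionFieldFullC K (N * p) :=
  full_degeneracyC_map_le K N p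

theorem full_mul_eq {N p : ℕ} (hp : p.Prime) [NeZero p] (Dp : ModEqData K p) (hD : HasData K N) :
    modularFunctionFieldFullC K (N * p) = EV K N p ⊔ K⟮J K⟯ := by
  apply le_antisymm
  · rw [full_le_iff]
    intro d hd0 hd
    by_cases hpd : p ∣ d
    · obtain ⟨d', rfl⟩ := hpd
      have hd'0 : d' ≠ 0 := by
        rintro rfl
        exact hd0 (mul_zero _)
      have hd'N : d' ∣ N := by
        rw [mul_comm N p] at hd
        exact Nat.dvd_of_mul_dvd_mul_left hp.pos hd
      exact (le_sup_left : EV K N p ≤ _) (jd_mem_EV hd'0 hd'N)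
    · have hdN : d ∣ N := (Nat.Coprime.dvd_of_dvd_mul_right
        ((Nat.Prime.coprime_iff_not_dvd hp).mpr hpd).symm hd)
      refine gen_low hp Dp hD _ ?_ ?_ d hd0 hdN hpd
      · exact (le_sup_right : K⟮J K⟯ ≤ _) (IntermediateField.mem_adjoin_simple_self K _)
      · intro d' hd'0 hd'N
        exact (le_sup_left : EV K N p ≤ _) (jd_mem_EV hd'0 hd'N)
  · refine sup_le (EV_le_full N p) ?_
    rw [IntermediateField.adjoin_simple_le_iff, ← jd_one]
    exact jd_mem_full one_ne_zero (one_dvd _)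

end Fermat.Agent.S28
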