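import Fermat.Agent.S28.DegreeGen

set_option autoImplicit false
noncomputable section

namespace Fermat.Agent.S28

open ModularCurve Polynomial
open scoped IntermediateField

section Abstract

variable {K L : Type*} [Field K] [Field L] [Algebra K L]

theorem exists_factor_of_root (E : IntermediateField K L) (f : L[X]) (hf : ∀ n, f.coeff n ∈ E)
    {c : L} (hc : c ∈ E) (hroot : f.eval c = 0) :
    ∃ f₁ : L[X], (∀ n, f₁.coeff n ∈ E) ∧ f = (X - C c) * f₁ := by
  obtain ⟨g, hg⟩ := exists_lift_of_coeff_mem E f hf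
  have hgroot : g.IsRoot (⟨c, hc⟩ : E) := by
    rw [IsRoot.def]
    apply (algebraMap E L).injective
    rw [map_zero, ← Polynomial.eval_map_apply, hg]
    exact hroot
  obtain ⟨g₁, hg₁⟩ := dvd_iff_isRoot.mpr hgroot
  refine ⟨g₁.map (algebraMap E L), fun n => ?_, ?_⟩
  · rw [coeff_map]
    exact (g₁.coeff n).2
  · rw [← hg, hg₁, Polynomial.map_mul, Polynomial.map_sub, map_X, map_C]
    rfl

theorem natDegree_minpoly_le_of_root (E : IntermediateField K L) (f : L[X]) (hf0 : f ≠ 0)
    (hf : ∀ n, f.coeff n ∈ E) {x : L} (hroot : f.eval x = 0) :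
    (minpoly E x).natDegree ≤ f.natDegree := by
  obtain ⟨g, hg⟩ := exists_lift_of_coeff_mem E f hf
  have hg0 : g ≠ 0 := by
    rintro rfl
    exact hf0 (by rw [← hg, Polynomial.map_zero])
  have : aeval x g = 0 := by rw [aeval_def, ← eval_map, hg, hroot]
  rw [← hg, natDegree_map]
  exact natDegree_le_of_dvd (minpoly.dvd E x this) hg0

theorem isIntegral_of_monic_root (E : IntermediateField K L) (f : L[X]) (hfm : f.Monic)
    (hf : ∀ n, f.coeff n ∈ E) {x : L} (hroot : f.eval x = 0) : IsIntegral E x := by
  obtain ⟨g, hg⟩ := exists_lift_of_coeff_mem E f hf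
  refine ⟨g, ?_, ?_⟩
  · rw [← hg] at hfm
    exact Polynomial.monic_of_injective (algebraMap E L).injective hfm
  · rw [← eval_map, hg, hroot]

end Abstract

variable {K : Type*} [Field K]

section MinpolyJ

variable {p : ℕ} [NeZero p] (D : ModEqData K p) (E : IntermediateField K (LaurentSeries K))
  (h1 : jd K p ∈ E) (h2 : ∀ x ∈ E, x ∈ Set.range (V K p))

include D h1 in
theorem isIntegral_J : IsIntegral E (J K) := by
  have h1' : jd K (1 * p) ∈ E := by rwa [one_mul]
  refine isIntegral_of_monic_root E _ (D.monic_map _) (coeff_map_evAt_mem E h1' D.Φ) ?_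
  rw [← jd_one]
  exact D.eval_low 1

include D h1 h2 in
theorem le_natDegree_minpoly_J : p ≤ (minpoly E (J K)).natDegree := by
  have hint := isIntegral_J D E h1
  rw [← natDegree_map (algebraMap E (LaurentSeries K))]
  refine le_natDegree_of_root p _ (Polynomial.map_ne_zero (minpoly.ne_zero hint)) ?_ ?_
  · intro n
    rw [coeff_map]
    exact h2 _ ((minpoly E (J K)).coeff n).2
  · rw [eval_map, ← aeval_def, minpoly.aeval]

include D h1 in
theorem natDegree_minpoly_J_le : (minpoly E (J K)).natDegree ≤ p + 1 := by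
  have h1' : jd K (1 * p) ∈ E := by rwa [one_mul]
  rw [← D.natDegree_map (jd K (1 * p))]
  refine natDegree_minpoly_le_of_root E _ (D.monic_map _).ne_zero (coeff_map_evAt_mem E h1' D.Φ) ?_
  rw [← jd_one]
  exact D.eval_low 1

theorem J_ne_jd {d : ℕ} (hd : 2 ≤ d) : J K ≠ jd K d := by
  apply ne_of_order_ne
  rw [order_J, order_jd (by omega)]
  omega

include D h1 h2 in
theorem natDegree_minpoly_J_of_mem (hp : 2 ≤ p) (h3 : jd K (p * p) ∈ E) :
    (minpoly E (J K)).natDegree = p := by
  refine le_antisymm ?_ (le_natDegree_minpoly_J D E h1 h2)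
  have h1' : jd K (1 * p) ∈ E := by rwa [one_mul]
  have h3' : jd K (1 * (p * p)) ∈ E := by rwa [one_mul]
  obtain ⟨f₁, hf₁, hf⟩ := exists_factor_of_root E _ (coeff_map_evAt_mem E h1' D.Φ) h3'
    (D.eval_high 1)
  have hf₁0 : f₁ ≠ 0 := by
    rintro rfl
    rw [mul_zero] at hf
    exact (D.monic_map _).ne_zero hf
  have hdeg : f₁.natDegree = p := by
    have := congrArg natDegree hf
    rw [D.natDegree_map, natDegree_mul (X_sub_C_ne_zero _) hf₁0, natDegree_X_sub_C] at this
    omega
  rw [← hdeg]
  refine natDegree_minpoly_le_of_root E f₁ hf₁0 hf₁ ?_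
  have := D.eval_low 1
  rw [hf, eval_mul, jd_one] at this
  rcases mul_eq_zero.mp this with h | h
  · exfalso
    simp only [eval_sub, eval_X, eval_C, sub_eq_zero] at h
    exact J_ne_jd (by nlinarith) h
  · exact h

include D h1 h2 in
theorem natDegree_minpoly_J_of_not_mem (hp : 2 ≤ p) (h3 : jd K (p * p) ∉ E) :
    (minpoly E (J K)).natDegree = p + 1 := by
  have hint := isIntegral_J D E h1
  have hle := natDegree_minpoly_J_le D E h1
  have hge := le_natDegree_minpoly_J D E h1 h2
  by_contra hne
  have hdeg : (minpoly E (J K)).natDegree = p := by omega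
  apply h3
  have h1' : jd K (1 * p) ∈ E := by rwa [one_mul]
  obtain ⟨g, hg⟩ := exists_lift_of_coeff_mem E _ (coeff_map_evAt_mem E h1' D.Φ)
  have hgm : g.Monic := by
    have := D.monic_map (jd K (1 * p))
    rw [← hg] at this
    exact Polynomial.monic_of_injective (algebraMap E _).injective this
  have hgroot : aeval (J K) g = 0 := by
    rw [aeval_def, ← eval_map, hg, ← jd_one]
    exact D.eval_low 1
  obtain ⟨h, hh⟩ := minpoly.dvd E (J K) hgroot
  have hPm : (minpoly E (J K)).Monic := minpoly.monic hint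
  have hhm : h.Monic := by
    rw [hh] at hgm
    exact hPm.of_mul_monic_left hgm
  have hhdeg : h.natDegree = 1 := by
    have := congrArg natDegree hh
    rw [hPm.natDegree_mul hhm, hdeg, ← natDegree_map (algebraMap E (LaurentSeries K)), hg,
      D.natDegree_map] at this
    omega
  have hheq : h = X + C (h.coeff 0) := by
    conv_lhs => rw [eq_X_add_C_of_natDegree_le_one hhdeg.le]
    have : h.coeff 1 = 1 := by
      have := hhm.coeff_natDegree
      rwa [hhdeg] at this
    rw [this, map_one, one_mul]
  -- evaluate at `c = jd (p*p)`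
  set c := jd K (1 * (p * p)) with hc
  have hev := D.eval_high 1
  rw [← hg, hh, Polynomial.map_mul, eval_mul] at hev
  rcases mul_eq_zero.mp hev with hcase | hcase
  · exfalso
    -- divide in the field range of `V p`
    set 𝓥 : IntermediateField K (LaurentSeries K) := (Va p).fieldRange with h𝓥
    have hc𝓥 : c ∈ 𝓥 := ⟨jd K p, by
      rw [hc, one_mul]
      exact V_jd p (NeZero.ne p)⟩
    obtain ⟨f₁, hf₁, hf⟩ := exists_factor_of_root 𝓥
      ((minpoly E (J K)).map (algebraMap E (LaurentSeries K))) (fun n => by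
        rw [coeff_map]
        obtain ⟨z, hz⟩ := h2 _ ((minpoly E (J K)).coeff n).2
        exact ⟨z, hz⟩) hc𝓥 hcase
    have hP0 : (minpoly E (J K)).map (algebraMap E (LaurentSeries K)) ≠ 0 :=
      Polynomial.map_ne_zero (minpoly.ne_zero hint)
    have hf₁0 : f₁ ≠ 0 := by
      rintro rfl
      rw [mul_zero] at hf
      exact hP0 hf
    have hdeg₁ : f₁.natDegree + 1 = p := by
      have := congrArg natDegree hf
      rw [natDegree_map, hdeg, natDegree_mul (X_sub_C_ne_zero _) hf₁0, natDegree_X_sub_C] at this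
      omega
    have hroot : f₁.eval (J K) = 0 := by
      have : ((minpoly E (J K)).map (algebraMap E (LaurentSeries K))).eval (J K) = 0 := by
        rw [eval_map, ← aeval_def, minpoly.aeval]
      rw [hf, eval_mul] at this
      rcases mul_eq_zero.mp this with h | h
      · exfalso
        simp only [eval_sub, eval_X, eval_C, sub_eq_zero] at h
        exact J_ne_jd (by nlinarith) h
      · exact h
    have := le_natDegree_of_root p f₁ hf₁0 (fun n => by
      obtain ⟨z, hz⟩ := hf₁ n
      exact ⟨z, hz⟩) hroot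
    omega
  · rw [hheq] at hcase
    simp only [Polynomial.map_add, map_X, map_C, eval_add, eval_X, eval_C] at hcase
    have : c = -(algebraMap E (LaurentSeries K) (h.coeff 0)) := eq_neg_of_add_eq_zero_left hcase
    rw [← one_mul (p * p), ← hc, this]
    exact neg_mem (h.coeff 0).2

end MinpolyJ

end Fermat.Agent.S28
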