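import Fermat.Agent.S28.DegreeData

set_option autoImplicit false
noncomputable section

namespace Fermat.Agent.S28

open ModularCurve Polynomial
open scoped IntermediateField

variable {K : Type*} [Field K]

theorem ModEqData.eval_ne_zero {p : ℕ} [NeZero p] (D : ModEqData K p) (e : ℕ) [NeZero e]
    (z : LaurentSeries K) (h1 : z.order ≠ -((e * (p * p) : ℕ) : ℤ)) (h2 : z.order ≠ -(e : ℤ)) :
    (D.Φ.map (evAt (jd K (e * p)))).eval z ≠ 0 := by
  rw [D.factor e, eval_mul, eval_prod]
  refine mul_ne_zero ?_ (Finset.prod_ne_zero_iff.mpr fun b _ => ?_)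
  · simp only [eval_sub, eval_X, eval_C]
    refine sub_ne_zero.mpr (ne_of_order_ne ?_)
    rwa [order_jd (mul_ne_zero (NeZero.ne e) (mul_ne_zero (NeZero.ne p) (NeZero.ne p)))]
  · simp only [eval_sub, eval_X, eval_C]
    refine sub_ne_zero.mpr (ne_of_order_ne ?_)
    rwa [D.order_β]

theorem mem_of_Va_mem_map (n : ℕ) [NeZero n] (E₀ : IntermediateField K (LaurentSeries K))
    {x : LaurentSeries K} (h : V K n x ∈ E₀.map (Va n)) : x ∈ E₀ := by
  obtain ⟨z, hz, hzx⟩ := h
  have : z = x := qExpand_injective (R := K) n hzx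
  exact this ▸ hz

theorem Va_mem_map (n : ℕ) [NeZero n] (E₀ : IntermediateField K (LaurentSeries K))
    {x : LaurentSeries K} (h : x ∈ E₀) : V K n x ∈ E₀.map (Va n) :=
  ⟨x, h, rfl⟩

/-- `j(q^{mpr}) ∈ K(j(q^{mp}), j(q^{mr}))`. -/
theorem sq1 {p r : ℕ} [NeZero p] [NeZero r] (hp : 2 ≤ p) (hr : 2 ≤ r) (hpr : p ≠ r)
    (Dp : ModEqData K p) (Dr : ModEqData K r) (m : ℕ) [NeZero m]
    (E₀ : IntermediateField K (LaurentSeries K)) (h1 : jd K (m * p) ∈ E₀) (h2 : jd K (m * r) ∈ E₀) :
    jd K (m * (p * r)) ∈ E₀ := by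
  have hm := NeZero.ne m
  have hp0 := NeZero.ne p
  have hr0 := NeZero.ne r
  apply mem_of_Va_mem_map (p * r)
  set E := E₀.map (Va (p * r)) with hE
  have e1 : jd K ((m * r * r) * p) ∈ E := by
    have := Va_mem_map (p * r) E₀ h2
    rw [V_jd _ (mul_ne_zero hm hr0)] at this
    convert this using 2
    ring
  have e2 : jd K ((m * p * p) * r) ∈ E := by
    have := Va_mem_map (p * r) E₀ h1
    rw [V_jd _ (mul_ne_zero hm hp0)] at this
    convert this using 2
    ring
  rw [V_jd _ (mul_ne_zero hm (mul_ne_zero hp0 hr0))]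
  have hy1 : p * r * (m * (p * r)) = (m * r * r) * (p * p) := by ring
  have hy2 : (m * r * r) * (p * p) = (m * p * p) * (r * r) := by ring
  rw [hy1]
  refine mem_of_common_root E _ _ (coeff_map_evAt_mem E e1 Dp.Φ) (coeff_map_evAt_mem E e2 Dr.Φ)
    _ (Finset.range p) (Dp.β (m * r * r)) (Dp.factor (m * r * r)) ?_ ?_
  · rw [hy2]
    exact Dr.eval_high _
  · intro b _
    apply Dr.eval_ne_zero
    · rw [Dp.order_β]
      intro h
      have h' : m * r * r = m * p * p * (r * r) := by exact_mod_cast neg_injective h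
      have h3 : m * r * r * 1 = m * r * r * (p * p) := by
        rw [mul_one]
        conv_lhs => rw [h']
        ring
      have h4 := Nat.eq_of_mul_eq_mul_left (Nat.pos_of_ne_zero (mul_ne_zero (mul_ne_zero hm hr0) hr0)) h3
      nlinarith
    · rw [Dp.order_β]
      intro h
      have h' : m * r * r = m * p * p := by exact_mod_cast neg_injective h
      have h3 : m * (r * r) = m * (p * p) := by rw [← mul_assoc, h', mul_assoc]
      have h4 := Nat.eq_of_mul_eq_mul_left (Nat.pos_of_ne_zero hm) h3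
      exact hpr (Nat.mul_self_inj.mp h4).symm

/-- `j(q^{mr}) ∈ K(j(q^m), j(q^{mpr}))`. -/
theorem sq3 {p r : ℕ} [NeZero p] [NeZero r] (hp : 2 ≤ p) (hr : 2 ≤ r)
    (Dp : ModEqData K p) (Dr : ModEqData K r) (m : ℕ) [NeZero m]
    (E₀ : IntermediateField K (LaurentSeries K)) (h1 : jd K m ∈ E₀)
    (h2 : jd K (m * (p * r)) ∈ E₀) :
    jd K (m * r) ∈ E₀ := by
  have hm := NeZero.ne m
  have hp0 := NeZero.ne p
  have hr0 := NeZero.ne r
  apply mem_of_Va_mem_map r
  set E := E₀.map (Va r) with hE
  have e1 : jd K (m * r) ∈ E := by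
    have := Va_mem_map r E₀ h1
    rw [V_jd _ hm] at this
    convert this using 2
    ring
  have e2 : jd K ((m * r * r) * p) ∈ E := by
    have := Va_mem_map r E₀ h2
    rw [V_jd _ (mul_ne_zero hm (mul_ne_zero hp0 hr0))] at this
    convert this using 2
    ring
  rw [V_jd _ (mul_ne_zero hm hr0)]
  have hy1 : r * (m * r) = m * (r * r) := by ring
  have hy2 : m * (r * r) = m * r * r := by ring
  rw [hy1]
  refine mem_of_common_root E _ _ (coeff_map_evAt_mem E e1 Dr.Φ) (coeff_map_evAt_mem E e2 Dp.Φ)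
    _ (Finset.range r) (Dr.β m) (Dr.factor m) ?_ ?_
  · rw [hy2]
    exact Dp.eval_low _
  · intro b _
    apply Dp.eval_ne_zero
    · rw [Dr.order_β]
      intro h
      have h' : m = m * r * r * (p * p) := by exact_mod_cast neg_injective h
      have h3 : m * 1 = m * (r * r * (p * p)) := by rw [mul_one]; conv_lhs => rw [h']
                                                    ring
      have h4 := Nat.eq_of_mul_eq_mul_left (Nat.pos_of_ne_zero hm) h3
      nlinarith [Nat.mul_le_mul hr hr, Nat.mul_le_mul hp hp]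
    · rw [Dr.order_β]
      intro h
      have h' : m = m * r * r := by exact_mod_cast neg_injective h
      have h3 : m * 1 = m * (r * r) := by rw [mul_one]; conv_lhs => rw [h']
                                          ring
      have h4 := Nat.eq_of_mul_eq_mul_left (Nat.pos_of_ne_zero hm) h3
      nlinarith

end Fermat.Agent.S28
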