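import Fermat.Agent.S28.DegreeMinpoly

set_option autoImplicit false
noncomputable section

namespace Fermat.Agent.S28

open ModularCurve Polynomial
open scoped IntermediateField

variable {K : Type*} [Field K]

/-- `[F_N : K(j_N)]`. -/
def T (K : Type*) [Field K] (N : ℕ) : ℕ :=
  (K⟮jd K N⟯).relfinrank (modularFunctionFieldFullC K N)

theorem full_one : modularFunctionFieldFullC K 1 = K⟮J K⟯ := by
  apply le_antisymm
  · rw [full_le_iff]
    intro d _ hd
    rw [Nat.dvd_one.mp hd, jd_one]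
    exact IntermediateField.mem_adjoin_simple_self K _
  · rw [IntermediateField.adjoin_simple_le_iff, ← jd_one]
    exact jd_mem_full one_ne_zero (one_dvd _)

theorem T_one : T K 1 = 1 := by
  rw [T, full_one, jd_one, IntermediateField.relfinrank_self]

theorem map_adjoin_jd (n : ℕ) [NeZero n] {d : ℕ} (hd : d ≠ 0) :
    (K⟮jd K d⟯).map (Va n) = K⟮jd K (n * d)⟯ := by
  rw [IntermediateField.adjoin_map, Set.image_singleton, Va_apply, V_jd n hd]

theorem EV_range {N p : ℕ} [NeZero p] : ∀ x ∈ EV K N p, x ∈ Set.range (V K p) := by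
  rintro x ⟨z, _, rfl⟩
  exact ⟨z, rfl⟩

theorem jd_p_mem_EV {N p : ℕ} [NeZero p] : jd K p ∈ EV K N p := by
  have := jd_mem_EV (K := K) (N := N) (p := p) one_ne_zero (one_dvd N)
  rwa [mul_one] at this

theorem adjoin_le_EV {N p : ℕ} [NeZero p] (hN : N ≠ 0) : K⟮jd K (N * p)⟯ ≤ EV K N p := by
  rw [IntermediateField.adjoin_simple_le_iff, mul_comm]
  exact jd_mem_EV hN dvd_rfl

theorem relfinrank_adjoin_EV {N p : ℕ} [NeZero p] (hN : N ≠ 0) :
    (K⟮jd K (N * p)⟯).relfinrank (EV K N p) = T K N := by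
  rw [mul_comm, ← map_adjoin_jd p hN, EV, IntermediateField.relfinrank_map_map, T]

theorem T_mul {N p : ℕ} (hp : p.Prime) [NeZero p] (hN : N ≠ 0) (Dp : ModEqData K p)
    (hD : HasData K N) :
    T K (N * p) = T K N * (minpoly (EV K N p) (J K)).natDegree := by
  rw [T, ← IntermediateField.relfinrank_mul_relfinrank (adjoin_le_EV hN) (EV_le_full N p),
    relfinrank_adjoin_EV hN, full_mul_eq hp Dp hD,
    relfinrank_sup_simple _ _ (isIntegral_J Dp _ jd_p_mem_EV)]

theorem T_mul_of_dvd {N p : ℕ} (hp : p.Prime) [NeZero p] (hN : N ≠ 0) (Dp : ModEqData K p)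
    (hD : HasData K N) (hpN : p ∣ N) : T K (N * p) = T K N * p := by
  rw [T_mul hp hN Dp hD, natDegree_minpoly_J_of_mem Dp _ jd_p_mem_EV EV_range hp.two_le
    (jd_mem_EV hp.ne_zero hpN)]

/-- `[K(j, j_p) : K(j_p)] = p + 1`. -/
theorem L0' {p : ℕ} (hp : p.Prime) [NeZero p] (Dp : ModEqData K p)
    (hU : V K p (J K) ∉ K⟮J K⟯) :
    (minpoly (EV K 1 p) (J K)).natDegree = p + 1 := by
  refine natDegree_minpoly_J_of_not_mem Dp _ jd_p_mem_EV EV_range hp.two_le ?_
  intro h
  rw [← V_jd p hp.ne_zero] at h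
  have := mem_of_Va_mem_map p _ h
  rw [full_one, jd_eq] at this
  exact hU this

theorem EV_one {p : ℕ} [NeZero p] : EV K 1 p = K⟮jd K p⟯ := by
  rw [EV, full_one, ← jd_one, map_adjoin_jd p one_ne_zero, mul_one]

theorem relfinrank_low {p : ℕ} (hp : p.Prime) [NeZero p] (Dp : ModEqData K p)
    (hU : V K p (J K) ∉ K⟮J K⟯) :
    (K⟮jd K p⟯).relfinrank (K⟮jd K p⟯ ⊔ K⟮J K⟯) = p + 1 := by
  have h := L0' hp Dp hU
  rw [← relfinrank_sup_simple _ _ (isIntegral_J Dp _ jd_p_mem_EV), EV_one] at h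
  exact h

theorem relfinrank_high {p : ℕ} (hp : p.Prime) [NeZero p] (Dp : ModEqData K p)
    (hU : V K p (J K) ∉ K⟮J K⟯) :
    (K⟮J K⟯).relfinrank (K⟮J K⟯ ⊔ K⟮jd K p⟯) = p + 1 := by
  have h := L0' hp Dp hU
  set E := EV K 1 p with hE
  have h1' : jd K (1 * p) ∈ E := by rw [one_mul]; exact jd_p_mem_EV
  obtain ⟨g, hg⟩ := exists_lift_of_coeff_mem E _ (coeff_map_evAt_mem E h1' Dp.Φ)
  have hgm : g.Monic := by
    have := Dp.monic_map (jd K (1 * p))
    rw [← hg] at this
    exact Polynomial.monic_of_injective (algebraMap E _).injective this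
  have hgdeg : g.natDegree = p + 1 := by
    rw [← natDegree_map (algebraMap E (LaurentSeries K)), hg, Dp.natDegree_map]
  have hgroot : aeval (J K) g = 0 := by
    rw [aeval_def, ← eval_map, hg, ← jd_one]
    exact Dp.eval_low 1
  have hint := isIntegral_J Dp E jd_p_mem_EV
  have hgeq : g = minpoly E (J K) := by
    apply Polynomial.eq_of_monic_of_dvd_of_natDegree_le (minpoly.monic hint) hgm
      (minpoly.dvd E _ hgroot)
    rw [h, hgdeg]
  have hgirr : Irreducible g := hgeq ▸ minpoly.irreducible hint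
  have hgroot2 : aeval (jd K (p * p)) g = 0 := by
    rw [aeval_def, ← eval_map, hg, ← one_mul (p * p)]
    exact Dp.eval_high 1
  have hmin2 : minpoly E (jd K (p * p)) = g :=
    (minpoly.eq_of_irreducible_of_monic hgirr hgroot2 hgm).symm
  have hint2 : IsIntegral E (jd K (p * p)) := ⟨g, hgm, by rwa [aeval_def] at hgroot2⟩
  have h3 := relfinrank_sup_simple E _ hint2
  rw [hmin2, hgdeg, hE, EV_one] at h3
  rw [← h3, ← jd_one, ← IntermediateField.relfinrank_map_map _ _ (Va p), IntermediateField.map_sup,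
    map_adjoin_jd p one_ne_zero, map_adjoin_jd p hp.ne_zero, mul_one]

end Fermat.Agent.S28
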