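import Fermat.Agent.S28.HeckeFormal

set_option autoImplicit false

open ModularCurve HahnSeries Polynomial

noncomputable section

namespace Fermat.Agent.S28

namespace Build

section Family

variable (A : Type*) [CommRing A] (p : ℕ) [NeZero p] (ζ : Aˣ)

/-- The `p + 1` translates of `Δ` (variable `t`, `q = t^p`). -/
def dF : Option (Fin p) → LaurentSeries A
  | none => HahnSeries.C ((p : A) ^ 12) * V A p (V A p (deltaC A))
  | some b => scale (ζ ^ (b : ℕ)) (deltaC A)

/-- The `p + 1` translates of `E₄³`. -/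
def eF : Option (Fin p) → LaurentSeries A
  | none => HahnSeries.C ((p : A) ^ 12) * V A p (V A p (EL A))
  | some b => scale (ζ ^ (b : ℕ)) (EL A)

/-- The `p + 1` translates of `j`. -/
def jF : Option (Fin p) → LaurentSeries A
  | none => V A p (V A p (J A))
  | some b => scale (ζ ^ (b : ℕ)) (J A)

/-- `u_g = (Δ|g)/Δ`. -/
def uF (g : Option (Fin p)) : LaurentSeries A := dF A p ζ g * V A p (deltaInvC A)

/-- `t_g = (E₄³|g)/Δ`. -/
def tF (g : Option (Fin p)) : LaurentSeries A := eF A p ζ g * V A p (deltaInvC A)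

theorem jF_mul_dF (g : Option (Fin p)) : jF A p ζ g * dF A p ζ g = eF A p ζ g := by
  cases g with
  | none =>
    simp only [jF, dF, eF]
    rw [mul_left_comm, ← map_mul, ← map_mul, J_mul_deltaC]
  | some b =>
    simp only [jF, dF, eF]
    rw [← map_mul, J_mul_deltaC]

theorem jF_mul_uF (g : Option (Fin p)) : jF A p ζ g * uF A p ζ g = tF A p ζ g := by
  rw [uF, tF, ← mul_assoc, jF_mul_dF]

theorem uF_none : uF A p ζ none = V A p (uInf A p) := by
  simp only [uF, dF, uInf]
  rw [map_mul, map_mul, qExpand_C, mul_assoc]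

/-- `∏ (X - j_g)`. -/
def PhiL : Polynomial (LaurentSeries A) := ∏ g, (X - Polynomial.C (jF A p ζ g))

/-- `∏ (X - u_g)`. -/
def PsiL : Polynomial (LaurentSeries A) := ∏ g, (X - Polynomial.C (uF A p ζ g))

/-- `∑ u_g ∏_{m ≠ g} (X - j_m)`. -/
def LamL : Polynomial (LaurentSeries A) :=
  ∑ g, Polynomial.C (uF A p ζ g) * ∏ m ∈ Finset.univ.erase g, (X - Polynomial.C (jF A p ζ m))

theorem PhiL_monic : (PhiL A p ζ).Monic := monic_prod_of_monic _ _ fun _ _ => monic_X_sub_C _

theorem PsiL_monic : (PsiL A p ζ).Monic := monic_prod_of_monic _ _ fun _ _ => monic_X_sub_C _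

theorem PhiL_eq : PhiL A p ζ = (X - Polynomial.C (V A p (V A p (J A)))) *
    ∏ b ∈ Finset.range p, (X - Polynomial.C (scale (ζ ^ b) (J A))) := by
  rw [PhiL, Fintype.prod_option, ← Fin.prod_univ_eq_prod_range
    (fun b => (X - Polynomial.C (scale (ζ ^ b) (J A)) : Polynomial (LaurentSeries A)))]
  rfl

theorem PsiL_eval : (PsiL A p ζ).eval (V A p (uInf A p)) = 0 := by
  rw [PsiL, Polynomial.eval_prod]
  refine Finset.prod_eq_zero (Finset.mem_univ none) ?_
  rw [uF_none]; simp

theorem LamL_eval : (LamL A p ζ).eval (V A p (V A p (J A))) =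
    V A p (uInf A p) * (derivative (PhiL A p ζ)).eval (V A p (V A p (J A))) := by
  rw [LamL, PhiL, Polynomial.derivative_prod_finset, Polynomial.eval_finsetSum,
    Polynomial.eval_finsetSum, Finset.sum_eq_single none, Finset.sum_eq_single none]
  · simp [uF_none]
  · intro g _ hg
    rw [Polynomial.eval_mul, Polynomial.eval_prod,
      Finset.prod_eq_zero (Finset.mem_erase.mpr ⟨hg.symm, Finset.mem_univ none⟩), zero_mul]
    simp [jF]
  · intro h; exact absurd (Finset.mem_univ _) h
  · intro g _ hg
    rw [Polynomial.eval_mul, Polynomial.eval_prod,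
      Finset.prod_eq_zero (Finset.mem_erase.mpr ⟨hg.symm, Finset.mem_univ none⟩), mul_zero]
    simp [jF]
  · intro h; exact absurd (Finset.mem_univ _) h

theorem prod_uF_mem_F : ∏ g, uF A p ζ g ∈ F 0 := by
  have h : ∀ g ∈ (Finset.univ : Finset (Option (Fin p))),
      uF A p ζ g ∈ F ((match g with | none => (p : ℤ) * p | some _ => 1) + (p : ℤ) * (-1)) := by
    intro g _
    refine mul_mem_F ?_ (V_mem_F p (deltaInvC_mem_F A))
    cases g with
    | none =>
      have := mul_mem_F (C_mem_F ((p : A) ^ 12)) (V_mem_F p (V_mem_F p (deltaC_mem_F A)))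
      simpa [dF] using this
    | some b => exact scale_mem_F _ (deltaC_mem_F A)
  have := prod_mem_F _ _ _ h
  convert this using 2
  rw [Fintype.sum_option]
  simp
  ring

end Family

section Map

variable {A B : Type*} [CommRing A] [CommRing B] (f : A →+* B) (p : ℕ) [NeZero p] (ζ : Aˣ)

theorem coeffMap_jF (g : Option (Fin p)) :
    coeffMap f (jF A p ζ g) = jF B p (Units.map (f : A →* B) ζ) g := by
  cases g with
  | none => simp only [jF, coeffMap_V, coeffMap_J]
  | some b => simp only [jF, coeffMap_scale, coeffMap_J, map_pow]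

theorem coeffMap_uF (g : Option (Fin p)) :
    coeffMap f (uF A p ζ g) = uF B p (Units.map (f : A →* B) ζ) g := by
  cases g with
  | none => simp only [uF, dF, map_mul, coeffMap_V, coeffMap_deltaC, coeffMap_deltaInvC,
      map_pow, map_natCast]
  | some b => simp only [uF, dF, map_mul, coeffMap_V, coeffMap_scale, coeffMap_deltaC,
      coeffMap_deltaInvC, map_pow]

theorem map_PhiL : (PhiL A p ζ).map (coeffMap f) = PhiL B p (Units.map (f : A →* B) ζ) := by
  simp only [PhiL, Polynomial.map_prod, Polynomial.map_sub, Polynomial.map_X, Polynomial.map_C,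
    coeffMap_jF]

theorem map_PsiL : (PsiL A p ζ).map (coeffMap f) = PsiL B p (Units.map (f : A →* B) ζ) := by
  simp only [PsiL, Polynomial.map_prod, Polynomial.map_sub, Polynomial.map_X, Polynomial.map_C,
    coeffMap_uF]

theorem map_LamL : (LamL A p ζ).map (coeffMap f) = LamL B p (Units.map (f : A →* B) ζ) := by
  simp only [LamL, Polynomial.map_sum, Polynomial.map_mul, Polynomial.map_prod, Polynomial.map_sub,
    Polynomial.map_X, Polynomial.map_C, coeffMap_jF, coeffMap_uF]

end Map

end Build

end Fermat.Agent.S28
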