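import Fermat.Agent.S28.Defs

set_option autoImplicit false
noncomputable section

namespace Fermat.Agent.S28

open ModularCurve

/-- The formal `E₄³` over `ℂ`. -/
def EC : PowerSeries ℂ := (eisenstein4 ^ 3).map (Int.castRingHom ℂ)

/-- The formal discriminant `q ∏ (1 - q^n)^24` over `ℂ`. -/
def DC : PowerSeries ℂ := (PowerSeries.X * dedekindEtaUnit).map (Int.castRingHom ℂ)

end Fermat.Agent.S28
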