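import Fermat.Agent.S28.FormalBasic
import Fermat.Prelude.Def_ModularForm_HeckeOperator

set_option autoImplicit false

open ModularCurve HahnSeries Polynomial

noncomputable section

namespace Fermat.Agent.S28

namespace Build

section Tri

variable {A B : Type*} [CommRing A] [CommRing B] (f : A →+* B)

/-- Triangularity: a polynomial `Q` over `B` such that `Q(j(q^p))` has all its coefficients in
the image of `A` has itself coefficients in the image of `A`. -/
theorem tri_aux (p : ℕ) [NeZero p] (N : ℕ) : ∀ Q : Polynomial B, Q.natDegree ≤ N →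
    evAt (V B p (J B)) Q ∈ (coeffMap f).range → Q ∈ Polynomial.lifts f := by
  induction N with
  | zero =>
    intro Q hQ ⟨y, hy⟩
    have h := coeff_evAt_V_J p Q 0 hQ
    rw [← hy, coeffMap_coeff] at h
    rw [Polynomial.eq_C_of_natDegree_le_zero hQ, ← h]
    exact Polynomial.C_mem_lifts f _
  | succ N ih =>
    intro Q hQ ⟨y, hy⟩
    have h := coeff_evAt_V_J p Q (N + 1) hQ
    rw [← hy, coeffMap_coeff] at h
    set a := y.coeff ((p : ℤ) * (-((N + 1 : ℕ) : ℤ))) with ha
    have hmono : Polynomial.C (f a) * Polynomial.X ^ (N + 1) ∈ Polynomial.lifts f :=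
      ⟨Polynomial.C a * Polynomial.X ^ (N + 1), by simp⟩
    have hQ' : (Q - Polynomial.C (f a) * Polynomial.X ^ (N + 1)) ∈ Polynomial.lifts f := by
      refine ih _ ?_ ⟨y - HahnSeries.C a * (V A p (J A)) ^ (N + 1), ?_⟩
      · rw [Polynomial.natDegree_le_iff_coeff_eq_zero]
        intro M hM
        rw [Polynomial.coeff_sub, Polynomial.coeff_C_mul_X_pow]
        rcases Nat.lt_or_ge (N + 1) M with h1 | h1
        · rw [if_neg h1.ne', sub_zero]
          exact Polynomial.coeff_eq_zero_of_natDegree_lt (lt_of_le_of_lt hQ h1)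
        · obtain rfl : M = N + 1 := by omega
          rw [if_pos rfl, h, sub_self]
      · rw [map_sub, map_mul, map_pow, hy, coeffMap_C, coeffMap_V, coeffMap_J, map_sub, map_mul,
          map_pow, evAt_C, evAt_X]
    have := add_mem hQ' hmono
    rwa [sub_add_cancel] at this

theorem tri (p : ℕ) [NeZero p] (Q : Polynomial B)
    (h : evAt (V B p (J B)) Q ∈ (coeffMap f).range) : Q ∈ Polynomial.lifts f :=
  tri_aux f p _ Q le_rfl h

/-- If the image in `B((q))` of `x ∈ A((q))` is a polynomial in `j(q^p)` over `B`, then `x` is a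
polynomial in `j(q^p)` over `A` (`f` injective). -/
theorem mem_range_evAt_of_coeffMap (hf : Function.Injective f) (p : ℕ) [NeZero p]
    (x : LaurentSeries A) (h : coeffMap f x ∈ (evAt (V B p (J B))).range) :
    x ∈ (evAt (V A p (J A))).range := by
  obtain ⟨Q, hQ⟩ := h
  obtain ⟨Q', hQ'⟩ := tri f p Q ⟨x, hQ.symm⟩
  refine ⟨Q', coeffMap_injective f hf ?_⟩
  rw [coeffMap_evAt, coeffMap_V, coeffMap_J, ← hQ]
  congr 1

end Tri

section SumScale

variable {A : Type*} [CommRing A] [IsDomain A]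

theorem sum_zpow_pow (p : ℕ) (ζ : Aˣ) (hζ : IsPrimitiveRoot ζ p) (n : ℤ) :
    ∑ b ∈ Finset.range p, (((ζ ^ b) ^ n : Aˣ) : A) = if (p : ℤ) ∣ n then (p : A) else 0 := by
  have h1 : ∀ b : ℕ, (((ζ ^ b) ^ n : Aˣ) : A) = ((ζ ^ n : Aˣ) : A) ^ b := by
    intro b
    rw [← Units.val_pow_eq_pow_val, ← zpow_natCast, ← zpow_natCast, ← zpow_mul, ← zpow_mul,
      mul_comm]
  simp_rw [h1]
  split_ifs with h
  · have : ζ ^ n = 1 := (hζ.zpow_eq_one_iff_dvd n).mpr h
    simp [this]
  · have hne : ζ ^ n ≠ 1 := fun h' => h ((hζ.zpow_eq_one_iff_dvd n).mp h')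
    have hne' : ((ζ ^ n : Aˣ) : A) - 1 ≠ 0 := by
      intro h'
      exact hne (Units.ext (by simpa using sub_eq_zero.mp h'))
    have hpow : ((ζ ^ n : Aˣ) : A) ^ p = 1 := by
      rw [← Units.val_pow_eq_pow_val, ← zpow_natCast, ← zpow_mul, mul_comm, zpow_mul, zpow_natCast,
        hζ.pow_eq_one]
      simp
    have := geom_sum_mul ((ζ ^ n : Aˣ) : A) p
    rw [hpow, sub_self] at this
    exact (mul_eq_zero.mp this).resolve_right hne'

theorem coeff_sum_scale (p : ℕ) (ζ : Aˣ) (hζ : IsPrimitiveRoot ζ p) (x : LaurentSeries A) (n : ℤ) :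
    (∑ b ∈ Finset.range p, scale (ζ ^ b) x).coeff n =
      if (p : ℤ) ∣ n then (p : A) * x.coeff n else 0 := by
  rw [HahnSeries.coeff_sum]
  simp_rw [scale_coeff]
  rw [← Finset.sum_mul, sum_zpow_pow p ζ hζ n]
  split_ifs <;> simp

end SumScale

section Hecke

/-- The formal `T_p` series. -/
def TpS (k : ℤ) (p : ℕ) (f : PowerSeries ℂ) : PowerSeries ℂ :=
  PowerSeries.mk (fun n => ModularForm.coeffHeckeT k p (fun i => f.coeff i) n)

theorem hecke_formal (p : ℕ) [NeZero p] (ζ : ℂˣ) (hζ : IsPrimitiveRoot ζ p) (k : ℤ)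
    (f : PowerSeries ℂ) :
    HahnSeries.C (p : ℂ) * V ℂ p (HahnSeries.ofPowerSeries ℤ ℂ (TpS k p f)) =
      ∑ b ∈ Finset.range p, scale (ζ ^ b) (HahnSeries.ofPowerSeries ℤ ℂ f) +
        HahnSeries.C ((p : ℂ) ^ k) * V ℂ p (V ℂ p (HahnSeries.ofPowerSeries ℤ ℂ f)) := by
  have hp0 : (p : ℂ) ≠ 0 := by exact_mod_cast NeZero.ne p
  have hpZ : (p : ℤ) ≠ 0 := by exact_mod_cast NeZero.ne p
  ext n
  rw [HahnSeries.coeff_add, coeff_C_mul, coeff_C_mul, coeff_sum_scale p ζ hζ]
  by_cases hn : (p : ℤ) ∣ n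
  · obtain ⟨m, rfl⟩ := hn
    rw [if_pos (dvd_mul_right _ _), qExpand_coeff_mul, qExpand_coeff_mul]
    rcases lt_or_ge m 0 with hm | hm
    · have hpm : (p : ℤ) * m < 0 := by
        have : (0 : ℤ) < p := lt_of_le_of_ne (Int.natCast_nonneg p) hpZ.symm
        nlinarith
      rw [ofPowerSeries_coeff_of_neg _ hm, ofPowerSeries_coeff_of_neg _ hpm]
      have : (V ℂ p (HahnSeries.ofPowerSeries ℤ ℂ f)).coeff m = 0 := by
        have := V_mem_F p (ofPowerSeries_mem_F f) m (by simpa using hm)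
        exact this
      rw [this]; simp
    · lift m to ℕ using hm
      rw [HahnSeries.ofPowerSeries_apply_coeff, show ((p : ℤ) * (m : ℤ)) = ((m * p : ℕ) : ℤ) by
        push_cast; ring, HahnSeries.ofPowerSeries_apply_coeff, TpS, PowerSeries.coeff_mk,
        ModularForm.coeffHeckeT_apply]
      by_cases hm : p ∣ m
      · obtain ⟨l, rfl⟩ := hm
        rw [if_pos (dvd_mul_right _ _), Nat.mul_div_cancel_left _ (Nat.pos_of_ne_zero (NeZero.ne p)),
          show ((p * l : ℕ) : ℤ) = (p : ℤ) * (l : ℤ) by push_cast; ring, qExpand_coeff_mul,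
          HahnSeries.ofPowerSeries_apply_coeff, mul_add, ← mul_assoc]
        congr 2
        rw [← zpow_one_add₀ hp0]
        congr 1; ring
      · rw [if_neg hm, qExpand_coeff_of_not_dvd p _ (by exact_mod_cast hm)]
        simp
  · rw [if_neg hn, qExpand_coeff_of_not_dvd p _ hn, qExpand_coeff_of_not_dvd p _ hn]
    simp

end Hecke

end Build

end Fermat.Agent.S28
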